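import Fermat.Agent.Deform.Span

/-!
Area PT, parcel G: an absolutely irreducible representation which stays absolutely irreducible on
subgroups of index two stays so on normal subgroups with cyclic quotient.
-/

set_option autoImplicit false

noncomputable section

namespace FLTAgent.PT.TW

open Matrix

theorem no_line_of_cyclic {K : Type} [Field K] [IsAlgClosed K] {Γ : Type} [Group Γ]
    (ρ : Γ →* Matrix (Fin 2) (Fin 2) K) (N : Subgroup Γ) [N.Normal] [IsCyclic (Γ ⧸ N)]
    (hirr : ∀ v : Fin 2 → K, v ≠ 0 → ∃ g, ∀ c : K, ρ g *ᵥ v ≠ c • v)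
    (h2 : ∀ G : Subgroup Γ, G.index = 2 → ∀ v : Fin 2 → K, v ≠ 0 →
      ∃ g ∈ G, ∀ c : K, ρ g *ᵥ v ≠ c • v)
    {v : Fin 2 → K} (hv : v ≠ 0) : ∃ n ∈ N, ∀ c : K, ρ n *ᵥ v ≠ c • v := by
  classical
  by_contra hN
  push Not at hN
  choose lam hlam using hN
  have hcancel : ∀ g (u : Fin 2 → K), ρ g⁻¹ *ᵥ (ρ g *ᵥ u) = u := fun g u => by
    rw [mulVec_mulVec, ← map_mul, inv_mul_cancel, map_one, one_mulVec]
  obtain ⟨g, hg⟩ := hirr v hv
  set w := ρ g *ᵥ v with hw
  have hw0 : w ≠ 0 := fun h => hg 0 (by rw [h, zero_smul])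
  have hconj : ∀ n ∈ N, g⁻¹ * n * g ∈ N := fun n hn => by
    simpa using Subgroup.Normal.conj_mem (inferInstance : N.Normal) n hn g⁻¹
  have hnw : ∀ n (hn : n ∈ N), ρ n *ᵥ w = lam _ (hconj n hn) • w := fun n hn => by
    rw [hw, mulVec_mulVec, ← map_mul, show n * g = g * (g⁻¹ * n * g) by group, map_mul,
      ← mulVec_mulVec, hlam _ (hconj n hn), mulVec_smul]
  have hind : LinearIndependent K ![v, w] :=
    (LinearIndependent.pair_iff' hv).mpr fun c h => hg c h.symm
  have hcomb : ∀ u : Fin 2 → K, ∃ a b : K, u = a • v + b • w := fun u => by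
    have hsp := hind.span_eq_top_of_card_eq_finrank (by simp)
    have hu : u ∈ Submodule.span K (Set.range ![v, w]) := hsp ▸ Submodule.mem_top
    rw [range_cons, range_cons, range_empty] at hu
    simp only [Set.union_empty, Set.singleton_union] at hu
    obtain ⟨a, b, h⟩ := Submodule.mem_span_pair.mp hu
    exact ⟨a, b, h.symm⟩
  by_cases hsame : ∀ n (hn : n ∈ N), lam _ (hconj n hn) = lam n hn
  · -- `N` is scalar
    have hscal : ∀ n (hn : n ∈ N) (u : Fin 2 → K), ρ n *ᵥ u = lam n hn • u := fun n hn u => by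
      obtain ⟨a, b, rfl⟩ := hcomb u
      rw [mulVec_add, mulVec_smul, mulVec_smul, hlam n hn, hnw n hn, hsame n hn, smul_add,
        smul_comm a, smul_comm b]
    obtain ⟨x, hx⟩ := IsCyclic.exists_generator (α := Γ ⧸ N)
    obtain ⟨g₀, rfl⟩ := QuotientGroup.mk_surjective x
    obtain ⟨μ, hμ⟩ := Module.End.exists_eigenvalue (Matrix.toLin' (ρ g₀))
    obtain ⟨u, hu⟩ := hμ.exists_hasEigenvector
    have hu0 := hu.2
    have hg₀ : ρ g₀ *ᵥ u = μ • u := hu.apply_eq_smul
    have hμ0 : μ ≠ 0 := fun h => hu0 (by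
      rw [← hcancel g₀ u, hg₀, h, zero_smul, mulVec_zero])
    obtain ⟨g', hg'⟩ := hirr u hu0
    have hz : ∀ i : ℤ, ∃ c : K, ρ (g₀ ^ i) *ᵥ u = c • u := by
      intro i
      induction i using Int.induction_on with
      | zero => exact ⟨1, by rw [zpow_zero, map_one, one_mulVec, one_smul]⟩
      | succ i ih =>
        obtain ⟨c, hc⟩ := ih
        exact ⟨μ * c, by rw [_root_.zpow_add_one, map_mul, ← mulVec_mulVec, hg₀, mulVec_smul, hc, smul_smul]⟩
      | pred i ih =>
        obtain ⟨c, hc⟩ := ih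
        refine ⟨μ⁻¹ * c, ?_⟩
        have : ρ g₀⁻¹ *ᵥ u = μ⁻¹ • u := by
          have h := hcancel g₀ u
          rw [hg₀, mulVec_smul] at h
          conv_rhs => rw [← h]
          rw [smul_smul, inv_mul_cancel₀ hμ0, one_smul]
        rw [_root_.zpow_sub_one, map_mul, ← mulVec_mulVec, this, mulVec_smul, hc, smul_smul]
    obtain ⟨i, hi⟩ := Subgroup.mem_zpowers_iff.mp (hx (g' : Γ ⧸ N))
    rw [← QuotientGroup.mk_zpow, QuotientGroup.eq] at hi
    obtain ⟨c, hc⟩ := hz i
    refine hg' (lam _ hi * c) ?_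
    calc ρ g' *ᵥ u = ρ (g₀ ^ i) *ᵥ (ρ ((g₀ ^ i)⁻¹ * g') *ᵥ u) := by
          rw [mulVec_mulVec, ← map_mul, mul_inv_cancel_left]
      _ = _ := by rw [hscal _ hi, mulVec_smul, hc, smul_smul]
  · -- two eigenlines, permuted
    push Not at hsame
    obtain ⟨n, hn, hne⟩ := hsame
    have himg : ∀ g', (∃ c : K, ρ g' *ᵥ v = c • v) ∨ ∃ c : K, ρ g' *ᵥ v = c • w := by
      intro g'
      obtain ⟨a, b, hab⟩ := hcomb (ρ g' *ᵥ v)
      have hm : g'⁻¹ * n * g' ∈ N := by
        simpa using Subgroup.Normal.conj_mem (inferInstance : N.Normal) n hn g'⁻¹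
      have key : ρ n *ᵥ (ρ g' *ᵥ v) = lam _ hm • (ρ g' *ᵥ v) := by
        rw [mulVec_mulVec, ← map_mul, show n * g' = g' * (g'⁻¹ * n * g') by group, map_mul,
          ← mulVec_mulVec, hlam _ hm, mulVec_smul]
      rw [hab, mulVec_add, mulVec_smul, mulVec_smul, hlam n hn, hnw n hn, smul_add, smul_smul,
        smul_smul, smul_smul, smul_smul, ← sub_eq_zero, add_sub_add_comm, ← sub_smul, ← sub_smul]
        at key
      obtain ⟨k1, k2⟩ := LinearIndependent.pair_iff.mp hind _ _ key
      by_cases hb : b = 0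
      · exact Or.inl ⟨a, by rw [hab, hb, zero_smul, add_zero]⟩
      · by_cases ha : a = 0
        · exact Or.inr ⟨b, by rw [hab, ha, zero_smul, zero_add]⟩
        · exfalso
          have e1 : lam n hn = lam _ hm := mul_left_cancel₀ ha (by linear_combination k1)
          have e2 : lam _ (hconj n hn) = lam _ hm := mul_left_cancel₀ hb (by linear_combination k2)
          exact hne (e2.trans e1.symm)
    let G : Subgroup Γ :=
      { carrier := {x | ∃ c : K, ρ x *ᵥ v = c • v}
        one_mem' := ⟨1, by rw [map_one, one_mulVec, one_smul]⟩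
        mul_mem' := by
          rintro x y ⟨a, ha⟩ ⟨b, hb⟩
          exact ⟨b * a, by rw [map_mul, ← mulVec_mulVec, hb, mulVec_smul, ha, smul_smul]⟩
        inv_mem' := by
          rintro x ⟨a, ha⟩
          have h := hcancel x v
          rw [ha, mulVec_smul] at h
          have ha0 : a ≠ 0 := fun h0 => hv (by rw [← h, h0, zero_smul])
          exact ⟨a⁻¹, by conv_rhs => rw [← h]
                         rw [smul_smul, inv_mul_cancel₀ ha0, one_smul]⟩ }
    have hG : G.index = 2 := by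
      refine Subgroup.index_eq_two_iff.mpr ⟨g, fun b => ?_⟩
      have hbg : ρ (b * g) *ᵥ v = ρ b *ᵥ w := by rw [map_mul, ← mulVec_mulVec]
      by_cases hb : b ∈ G
      · refine Or.inr ⟨hb, ?_⟩
        rintro ⟨c, hc⟩
        obtain ⟨a, ha⟩ := hb
        rw [hbg] at hc
        have ha0 : a ≠ 0 := fun h0 => hv (by rw [← hcancel b v, ha, h0, zero_smul, mulVec_zero])
        refine hg (c * a⁻¹) ?_
        rw [← hcancel b w, hc, mulVec_smul]
        have h := hcancel b v
        rw [ha, mulVec_smul] at h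
        conv_rhs => rw [← h]
        rw [smul_smul, mul_assoc, inv_mul_cancel₀ ha0, mul_one]
      · refine Or.inl ⟨?_, hb⟩
        rcases himg b with ⟨c, hc⟩ | ⟨c, hc⟩
        · exact absurd ⟨c, hc⟩ hb
        rcases himg (b * g) with h | ⟨d, hd⟩
        · exact h
        exfalso
        rw [hbg] at hd
        have hc0 : c ≠ 0 := fun h0 => hv (by rw [← hcancel b v, hc, h0, zero_smul, mulVec_zero])
        refine hg (d * c⁻¹) ?_
        rw [← hcancel b w, hd, mulVec_smul]
        have h := hcancel b v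
        rw [hc, mulVec_smul] at h
        conv_rhs => rw [← h]
        rw [smul_smul, mul_assoc, inv_mul_cancel₀ hc0, mul_one]
    obtain ⟨x, ⟨c, hc⟩, hx⟩ := h2 G hG v hv
    exact hx c hc

open Deform in
/-- absolute irreducibility on subgroups, in coordinates -/
theorem exists_move_of_irr {k : Type} [Field k] (K : Type) [Field K] [Algebra k K]
    (ρ : ResidualGaloisRep k) {r : GQ → Mt k} (hr : RepMat ρ.ρ r) (G : Subgroup GQ)
    (hG : ∀ V : Submodule K (ρ.baseChange K).V,
      (∀ σ ∈ G, ∀ x ∈ V, (ρ.baseChange K).ρ σ x ∈ V) → V = ⊥ ∨ V = ⊤)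
    (v : Fin 2 → K) (hv : v ≠ 0) :
    ∃ g ∈ G, ∀ c : K, (r g).map (algebraMap k K) *ᵥ v ≠ c • v := by
  by_contra hc
  push Not at hc
  obtain ⟨b, hb⟩ := repMat_baseChange_residual (k' := K) hr
  have hirr := hG ((K ∙ v).comap b.equivFun.toLinearMap) (fun σ hσ x hx => by
    rw [Submodule.mem_comap, Submodule.mem_span_singleton] at hx ⊢
    obtain ⟨a, ha⟩ := hx
    obtain ⟨c, hc'⟩ := hc σ hσ
    have : b.equivFun ((ρ.baseChange K).ρ σ x) =
        ((r σ).map (algebraMap k K)).mulVec (b.equivFun x) := by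
      have hb' := hb σ
      simp only at hb'
      rw [← hb']
      exact (LinearMap.toMatrix_mulVec_repr b b ((ρ.baseChange K).ρ σ) x).symm
    refine ⟨a * c, ?_⟩
    rw [LinearEquiv.coe_coe] at ha ⊢
    rw [this, ← ha, Matrix.mulVec_smul, hc', smul_smul])
  have hmap := Submodule.map_comap_eq_of_surjective (f := b.equivFun.toLinearMap)
    b.equivFun.surjective (K ∙ v)
  rcases hirr with h | h
  · rw [h, Submodule.map_bot] at hmap
    exact hv (Submodule.span_singleton_eq_bot.mp hmap.symm)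
  · rw [h, Submodule.map_top, LinearEquiv.range] at hmap
    have := congrArg (fun W : Submodule K (Fin 2 → K) => Module.finrank K W) hmap
    simp [finrank_span_singleton hv] at this

open Deform in
/-- a normal subgroup with cyclic quotient has spanning image -/
theorem span_normal_eq_top {k : Type} [Field k] (ρ : ResidualGaloisRep k)
    (habs : ρ.IsAbsolutelyIrreducible)
    (hTW : ∀ G : Subgroup GQ, G.index = 2 →
      ∀ V : Submodule (AlgebraicClosure k) (ρ.baseChange (AlgebraicClosure k)).V,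
        (∀ σ ∈ G, ∀ x ∈ V, (ρ.baseChange (AlgebraicClosure k)).ρ σ x ∈ V) → V = ⊥ ∨ V = ⊤)
    {r : GQ →* Mt k} (hr : RepMat ρ.ρ r) (N : Subgroup GQ) [N.Normal] [IsCyclic (GQ ⧸ N)] :
    Submodule.span k (r '' (N : Set GQ)) = ⊤ := by
  classical
  let K := AlgebraicClosure k
  let ι := algebraMap k K
  let rK : GQ →* Matrix (Fin 2) (Fin 2) K := (RingHom.mapMatrix ι).toMonoidHom.comp r
  have hirr : ∀ v : Fin 2 → K, v ≠ 0 → ∃ g, ∀ c : K, rK g *ᵥ v ≠ c • v := fun v hv => by
    obtain ⟨g, -, hg⟩ := exists_move_of_irr K ρ hr ⊤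
      (fun V hV => habs V fun σ x hx => hV σ trivial x hx) v hv
    exact ⟨g, hg⟩
  have hN : Submodule.span K (rK '' (N : Set GQ)) = ⊤ := by
    refine span_eq_top_of_irr _ ⟨1, N.one_mem, map_one _⟩ ?_ ?_
    · rintro _ ⟨a, ha, rfl⟩ _ ⟨b, hb, rfl⟩
      exact ⟨a * b, N.mul_mem ha hb, map_mul _ _ _⟩
    · intro W hW
      by_contra hc
      push Not at hc
      obtain ⟨v, hv, hv0⟩ := Submodule.exists_mem_ne_zero_of_ne_bot hc.1
      obtain ⟨n, hn, hne⟩ := no_line_of_cyclic rK N hirr
        (fun G hG v hv => exists_move_of_irr K ρ hr G (hTW G hG) v hv) hv0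
      have hle : K ∙ v ≤ W := (Submodule.span_singleton_le_iff_mem _ _).mpr hv
      have h1 : Module.finrank K W < 2 := by
        have := Submodule.finrank_lt hc.2
        simpa using this
      have heq : K ∙ v = W := Submodule.eq_of_le_of_finrank_le hle
        (by rw [finrank_span_singleton hv0]; omega)
      have := hW _ ⟨n, hn, rfl⟩ v hv
      rw [← heq, Submodule.mem_span_singleton] at this
      obtain ⟨c, hc'⟩ := this
      exact hne c hc'.symm
  set W := Submodule.span k (r '' (N : Set GQ)) with hWdef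
  by_contra hne
  have hlt : Module.finrank k W < 4 := by
    have := Submodule.finrank_lt hne
    simpa [Module.finrank_matrix] using this
  let b := Module.finBasis k W
  have hle : Submodule.span K (rK '' (N : Set GQ)) ≤
      Submodule.span K (Set.range fun i => ((b i).1).map ι) := by
    refine Submodule.span_le.mpr ?_
    rintro _ ⟨n, hn, rfl⟩
    obtain ⟨y, hy⟩ : ∃ y : W, y.1 = r n := ⟨⟨r n, Submodule.subset_span ⟨n, hn, rfl⟩⟩, rfl⟩
    show (r n).map ι ∈ _
    rw [← hy, ← b.sum_repr y]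
    have : (((∑ i, b.repr y i • b i : W) : Mt k)).map ι = ∑ i, ι (b.repr y i) • ((b i).1).map ι := by
      ext a c
      simp [-Module.Basis.sum_repr, Matrix.sum_apply, map_sum]
    rw [this]
    exact sum_mem fun i _ => Submodule.smul_mem _ _ (Submodule.subset_span ⟨i, rfl⟩)
  rw [hN, top_le_iff] at hle
  have h4 := finrank_range_le_card (R := K) fun i => ((b i).1).map ι
  rw [Set.finrank, hle, finrank_top, Module.finrank_matrix, Fintype.card_fin] at h4
  simp at h4
  omega

end FLTAgent.PT.TW
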