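import Fermat.Agent.PT.Defs
import Fermat.Agent.Flat.Defs

/-!
Area PT, shared by parcels G and H: the adjoint module `ad⁰` of a residual representation and the
module of an infinitesimal deformation.
-/

set_option autoImplicit false

noncomputable section

open CategoryTheory groupCohomology Matrix

namespace FLTAgent.PT.TW

variable {p : ℕ} [Fact p.Prime] {k : Type} [Field k] [Algebra (ZMod p) k]

/-- traceless `2 × 2` matrices over `k`, as an `𝔽_p`-space -/
def adSpace (p : ℕ) [Fact p.Prime] (k : Type) [Field k] [Algebra (ZMod p) k] :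
    Submodule (ZMod p) (Matrix (Fin 2) (Fin 2) k) where
  carrier := {X | X.trace = 0}
  add_mem' := fun {X Y} hX hY => by simp_all [Matrix.trace_add]
  zero_mem' := Matrix.trace_zero _ _
  smul_mem' := fun c X hX => by simp_all [Matrix.trace_smul]

/-- conjugation on traceless matrices -/
def adRho (r : GQ →* GL (Fin 2) k) : Representation (ZMod p) GQ (adSpace p k) where
  toFun g :=
    { toFun := fun X => ⟨(r g : Matrix (Fin 2) (Fin 2) k) * X.1 *
          ((r g)⁻¹ : GL (Fin 2) k), by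
        show Matrix.trace _ = 0
        rw [Matrix.trace_mul_comm, ← mul_assoc, ← Units.val_mul, inv_mul_cancel, Units.val_one,
          one_mul]
        exact X.2⟩
      map_add' := fun X Y => Subtype.ext (by simp [mul_add, add_mul])
      map_smul' := fun c X => Subtype.ext (by simp) }
  map_one' := by
    refine LinearMap.ext fun X => Subtype.ext ?_
    simp
  map_mul' g h := by
    refine LinearMap.ext fun X => Subtype.ext ?_
    simp [mul_assoc]

/-- `ad⁰` -/
abbrev ad0 (p : ℕ) [Fact p.Prime] {k : Type} [Field k] [Algebra (ZMod p) k]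
    (r : GQ →* GL (Fin 2) k) : Rep.{0} (ZMod p) GQ :=
  Rep.of (adRho (p := p) r)

theorem ad0_apply (r : GQ →* GL (Fin 2) k) (g : GQ) (X : ad0 p r) :
    ((ad0 p r).ρ g X).1 =
      (r g : Matrix (Fin 2) (Fin 2) k) * X.1 * ((r g)⁻¹ : GL (Fin 2) k) := rfl

theorem isAdm_ad0 [Finite k] (r : GQ →* GL (Fin 2) k)
    (hr : ∃ F : IntermediateField ℚ (AlgebraicClosure ℚ), FiniteDimensional ℚ F ∧
      ∀ g ∈ F.fixingSubgroup, r g = 1) :
    IsAdm (MonoidHom.id GQ) (ad0 p r) := by
  obtain ⟨F, hF, h⟩ := hr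
  refine ⟨Module.Finite.of_finite, F, hF, fun g hg => LinearMap.ext fun X => Subtype.ext ?_⟩
  rw [ad0_apply, h g hg]
  simp

section Ext

variable (r : GQ →* GL (Fin 2) k) (c : cocycles₁ (ad0 p r))

/-- `k[ε]²` with the action of `(1 + ε c) r`: pairs `(v, w)` meaning `v + ε w` -/
@[ext]
structure ExtMod (r : GQ →* GL (Fin 2) k) (c : cocycles₁ (ad0 p r)) where
  fst : Fin 2 → k
  snd : Fin 2 → k

/-- the coordinates -/
def ExtMod.equiv : ExtMod r c ≃ (Fin 2 → k) × (Fin 2 → k) where
  toFun x := (x.fst, x.snd)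
  invFun x := ⟨x.1, x.2⟩
  left_inv _ := rfl
  right_inv _ := rfl

instance : AddCommGroup (ExtMod r c) := (ExtMod.equiv r c).addCommGroup

instance [Finite k] : Finite (ExtMod r c) := Finite.of_equiv _ (ExtMod.equiv r c).symm

@[simp] theorem ExtMod.add_fst (x y : ExtMod r c) : (x + y).fst = x.fst + y.fst := rfl
@[simp] theorem ExtMod.add_snd (x y : ExtMod r c) : (x + y).snd = x.snd + y.snd := rfl
@[simp] theorem ExtMod.zero_fst : (0 : ExtMod r c).fst = 0 := rfl
@[simp] theorem ExtMod.zero_snd : (0 : ExtMod r c).snd = 0 := rfl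

instance : SMul GQ (ExtMod r c) :=
  ⟨fun g x => ⟨(r g : Matrix (Fin 2) (Fin 2) k) *ᵥ x.fst,
    (c g).1 *ᵥ ((r g : Matrix (Fin 2) (Fin 2) k) *ᵥ x.fst) +
      (r g : Matrix (Fin 2) (Fin 2) k) *ᵥ x.snd⟩⟩

theorem ExtMod.smul_fst (g : GQ) (x : ExtMod r c) :
    (g • x).fst = (r g : Matrix (Fin 2) (Fin 2) k) *ᵥ x.fst := rfl

theorem ExtMod.smul_snd (g : GQ) (x : ExtMod r c) :
    (g • x).snd = (c g).1 *ᵥ ((r g : Matrix (Fin 2) (Fin 2) k) *ᵥ x.fst) +
      (r g : Matrix (Fin 2) (Fin 2) k) *ᵥ x.snd := rfl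

instance : DistribMulAction GQ (ExtMod r c) where
  one_smul x := by
    apply ExtMod.ext
    · rw [ExtMod.smul_fst, map_one, Units.val_one, Matrix.one_mulVec]
    · have h1 : (c (1 : GQ)).1 = 0 := congrArg Subtype.val (cocycles₁_map_one c)
      rw [ExtMod.smul_snd, h1, Matrix.zero_mulVec, zero_add, map_one, Units.val_one,
        Matrix.one_mulVec]
  mul_smul g h x := by
    have hc : c (g * h) = (ad0 p r).ρ g (c h) + c g := by
      have := (mem_cocycles₁_def (c : GQ → ad0 p r)).1 c.2 g h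
      linear_combination (norm := module) -this
    apply ExtMod.ext
    · simp only [ExtMod.smul_fst, map_mul, Units.val_mul, Matrix.mulVec_mulVec]
    · have hval : (c (g * h)).1 = (r g : Matrix (Fin 2) (Fin 2) k) * (c h).1 *
          ((r g)⁻¹ : GL (Fin 2) k) + (c g).1 := congrArg Subtype.val hc
      simp only [ExtMod.smul_snd, ExtMod.smul_fst, hval, map_mul,
        Units.val_mul, Matrix.add_mulVec, Matrix.mulVec_add, Matrix.mulVec_mulVec]
      simp only [add_mul, mul_assoc, Units.inv_mul_cancel_left, Matrix.add_mulVec]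
      abel
  smul_zero g := by
    apply ExtMod.ext
    · simp only [ExtMod.smul_fst, ExtMod.zero_fst, Matrix.mulVec_zero]
    · simp only [ExtMod.smul_snd, ExtMod.zero_fst, ExtMod.zero_snd, Matrix.mulVec_zero, add_zero]
  smul_add g x y := by
    apply ExtMod.ext
    · simp only [ExtMod.smul_fst, ExtMod.add_fst, Matrix.mulVec_add]
    · simp only [ExtMod.smul_snd, ExtMod.add_fst, ExtMod.add_snd, Matrix.mulVec_add]
      abel

end Ext

/-- the flat classes at `p` -/
def flatClasses (r : GQ →* GL (Fin 2) k) :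
    Set (lH1 (ExtCitation.pPrime p) (ad0 p r)) :=
  {x | ∃ c : Z1 (MonoidHom.id GQ) (ad0 p r),
    res1 (ExtCitation.pPrime p) _ (h1mk _ _ c) = x ∧
      FLTAgent.Flat.HasFlatModel (ExtMod r ⟨c.1, c.2.1⟩) p}

end FLTAgent.PT.TW
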