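import Fermat.Agent.Chebotarev.Density
import Fermat.Agent.EIS.Cyclo
import Fermat.Agent.PT.Defs

/-!
Area PT, parcel G: Frobenius elements with prescribed cyclic image, the places at the rational primes,
and the cyclotomic characters.
-/

set_option autoImplicit false
set_option linter.style.haveILetI false

noncomputable section

namespace FLTAgent.PT.TW

open Chebotarev
open scoped Pointwise

/-- a Frobenius element generating, on a finite level, the same cyclic group as `σ` -/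
theorem exists_frobenius_gen (E : IntermediateField ℚ (AlgebraicClosure ℚ)) [FiniteDimensional ℚ E]
    (σ : GQ) (S : Finset ℕ) :
    ∃ (ℓ : ℕ) (A : ValuationSubring (AlgebraicClosure ℚ)) (τ : GQ) (i j : ℕ),
      ℓ.Prime ∧ ℓ ∉ S ∧ A.LiesOverPrime ℓ ∧ A.IsFrobeniusAt τ ℓ ∧
        (∀ x ∈ E, (τ ^ i) x = σ x) ∧ ∀ x ∈ E, τ x = (σ ^ j) x := by
  have : IsGalois ℚ QBar := FLTAgent.Alg.qb_isGalois
  let M := IntermediateField.normalClosure ℚ E QBar
  have : Normal ℚ M := normalClosure.normal ℚ E QBar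
  obtain ⟨p, x, hpS, hx⟩ := exists_frobRes_conj_gen M (AlgEquiv.restrictNormalHom M σ) S
  obtain ⟨g, hg⟩ := AlgEquiv.restrictNormalHom_surjective (F := ℚ) (K₁ := M) QBar x⁻¹
  have hres : AlgEquiv.restrictNormalHom M (g * frobAt p * g⁻¹) = x⁻¹ * frobRes M p * x := by
    rw [map_mul, map_mul, map_inv, hg, inv_inv]
  have ext : ∀ f f' : GQ, AlgEquiv.restrictNormalHom M f = AlgEquiv.restrictNormalHom M f' →
      ∀ z ∈ E, f z = f' z := by
    intro f f' h z hz
    have hzM : z ∈ M := E.le_normalClosure hz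
    have h1 := AlgEquiv.restrictNormal_commutes f M ⟨z, hzM⟩
    have h2 := AlgEquiv.restrictNormal_commutes f' M ⟨z, hzM⟩
    exact h1.symm.trans ((congrArg (algebraMap M QBar) (DFunLike.congr_fun h ⟨z, hzM⟩)).trans h2)
  obtain ⟨i, hi⟩ : AlgEquiv.restrictNormalHom M σ ∈
      Submonoid.powers (x⁻¹ * frobRes M p * x) := by
    rw [mem_powers_iff_mem_zpowers, hx]
    exact Subgroup.mem_zpowers _
  obtain ⟨j, hj⟩ : x⁻¹ * frobRes M p * x ∈ Submonoid.powers (AlgEquiv.restrictNormalHom M σ) := by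
    rw [mem_powers_iff_mem_zpowers, ← hx]
    exact Subgroup.mem_zpowers _
  exact ⟨p, g • placeAt p, g * frobAt p * g⁻¹, i, j, p.2, hpS,
    liesOverPrime_smul g (placeAt_liesOver p), isFrobeniusAt_conj (isFrobeniusAt_frobAt p) g,
    ext _ _ (by rw [map_pow, hres]; exact hi), ext _ _ (by rw [map_pow, hres]; exact hj.symm)⟩

theorem liesOver_primeLocalPlace (q : Nat.Primes) :
    (ExtCitation.primeLocalPlace q).LiesOverPrime (q : ℕ) := by
  haveI : Fact (q : ℕ).Prime := ⟨q.2⟩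
  show ((q : ℕ) : AlgebraicClosure ℚ) ∈ _
  rw [ValuationSubring.mem_nonunits_iff_or]
  refine Or.inr fun h => ?_
  have h' := (mem_padicPlace_iff (q : ℕ)).mp h
  rw [map_inv₀, map_natCast, ← map_natCast (algebraMap ℚ_[(q : ℕ)] (PadicAlgCl (q : ℕ))),
    nnnorm_inv] at h'
  have hn : ‖algebraMap ℚ_[(q : ℕ)] (PadicAlgCl (q : ℕ)) (q : ℕ)‖₊ < 1 := by
    rw [← NNReal.coe_lt_coe, NNReal.coe_one, coe_nnnorm]
    have := PadicAlgCl.norm_extends (q : ℕ) ((q : ℕ) : ℚ_[(q : ℕ)])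
    simp only [PadicAlgCl] at this ⊢
    erw [this]
    exact Padic.norm_p_lt_one
  have h0 : 0 < ‖algebraMap ℚ_[(q : ℕ)] (PadicAlgCl (q : ℕ)) (q : ℕ)‖₊ := by
    rw [pos_iff_ne_zero, ne_eq, nnnorm_eq_zero, map_eq_zero]
    exact Nat.cast_ne_zero.mpr q.2.ne_zero
  exact absurd h' (not_le.mpr (one_lt_inv₀ h0 |>.mpr hn))

/-- two Frobenius elements at one place differ by inertia -/
theorem frobenius_inv_mul_mem_inertia {A : ValuationSubring (AlgebraicClosure ℚ)} {q : ℕ}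
    {φ φ' : GQ} (h : A.IsFrobeniusAt φ q) (h' : A.IsFrobeniusAt φ' q) :
    φ'⁻¹ * φ ∈ A.inertiaSubgroupIn ℚ := by
  let d : A.decompositionSubgroup ℚ := ⟨φ, h.mem_decompositionSubgroup⟩
  let d' : A.decompositionSubgroup ℚ := ⟨φ', h'.mem_decompositionSubgroup⟩
  refine ⟨d'⁻¹ * d, ?_, rfl⟩
  refine MonoidHom.mem_ker.mpr (RingEquiv.ext fun x => ?_)
  show (d'⁻¹ * d) • x = x
  rw [mul_smul, inv_smul_eq_iff]
  exact (h.smul_residue_eq x).trans (h'.smul_residue_eq x).symm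

section Cyclo

variable (n : ℕ) [NeZero n]

/-- the cyclotomic character modulo `n` as a homomorphism -/
def cycHom : GQ →* (ZMod n)ˣ :=
  MonoidHom.toHomUnits
    { toFun := fun g => Attach.cyc n g
      map_one' := Attach.cyc_one n
      map_mul' := fun g h => Attach.cyc_mul n g h }

theorem coe_cycHom (g : GQ) : (cycHom n g : ZMod n) = Attach.cyc n g := rfl

theorem mem_ker_cycHom_iff {g : GQ} :
    g ∈ (cycHom n).ker ↔ Attach.cyc n g = 1 := by
  rw [MonoidHom.mem_ker, Units.ext_iff]; rfl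

theorem mem_ker_cycHom_of_fix {g : GQ} (h : ∀ z : AlgebraicClosure ℚ, z ^ n = 1 → g z = z) :
    g ∈ (cycHom n).ker := by
  rw [mem_ker_cycHom_iff]
  refine Attach.cyc_unique g 1 fun z hz => ?_
  rw [h z hz]
  rcases Nat.lt_or_ge 1 n with h1 | h1
  · haveI : Fact (1 < n) := ⟨h1⟩
    rw [ZMod.val_one, pow_one]
  · have hn : n = 1 := le_antisymm h1 (Nat.pos_of_ne_zero (NeZero.ne n))
    subst hn
    rw [pow_one] at hz
    rw [hz, one_pow]

theorem fix_of_mem_ker_cycHom {g : GQ} (hg : g ∈ (cycHom n).ker) {z : AlgebraicClosure ℚ}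
    (hz : z ^ n = 1) : g z = z := by
  rw [Attach.cyc_spec g hz, (mem_ker_cycHom_iff n).mp hg]
  rcases Nat.lt_or_ge 1 n with h1 | h1
  · haveI : Fact (1 < n) := ⟨h1⟩
    rw [ZMod.val_one, pow_one]
  · have hn : n = 1 := le_antisymm h1 (Nat.pos_of_ne_zero (NeZero.ne n))
    subst hn
    rw [pow_one] at hz
    rw [hz, one_pow]

end Cyclo

theorem isCyclic_quotient_cycHom {p : ℕ} [Fact p.Prime] (hp2 : p ≠ 2) (m : ℕ) :
    haveI : NeZero (p ^ m) := ⟨(pow_pos (Fact.out : p.Prime).pos m).ne'⟩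
    IsCyclic (GQ ⧸ (cycHom (p ^ m)).ker) := by
  haveI : NeZero (p ^ m) := ⟨(pow_pos (Fact.out : p.Prime).pos m).ne'⟩
  haveI := ZMod.isCyclic_units_of_prime_pow p (Fact.out : p.Prime) hp2 m
  exact isCyclic_of_injective _ (QuotientGroup.kerLift_injective (cycHom (p ^ m)))

theorem cycloChar_eq_cyc {p : ℕ} [Fact p.Prime] (g : GQ) :
    haveI : NeZero p := ⟨(Fact.out : p.Prime).ne_zero⟩
    (ExtCitation.cycloChar p g : ZMod p) = Attach.cyc p g := by
  haveI : NeZero p := ⟨(Fact.out : p.Prime).ne_zero⟩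
  refine (Attach.cyc_unique g _ fun z hz => ?_).symm
  exact modularCyclotomicCharacter.spec (AlgebraicClosure ℚ)
    (ExtCitation.card_rootsOfUnity_eq_self p) g.toRingEquiv (rootsOfUnity.mkOfPowEq z hz).2

theorem cycloChar_eq_one_of_mem_ker {p : ℕ} [Fact p.Prime] {m : ℕ} (hm : 0 < m) {g : GQ}
    (hg : haveI : NeZero (p ^ m) := ⟨(pow_pos (Fact.out : p.Prime).pos m).ne'⟩
      g ∈ (cycHom (p ^ m)).ker) :
    ExtCitation.cycloChar p g = 1 := by
  haveI : NeZero p := ⟨(Fact.out : p.Prime).ne_zero⟩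
  haveI : NeZero (p ^ m) := ⟨(pow_pos (Fact.out : p.Prime).pos m).ne'⟩
  apply Units.ext
  rw [cycloChar_eq_cyc, ← Attach.cyc_cast (dvd_pow_self p hm.ne') g,
    (mem_ker_cycHom_iff _).mp hg, map_one, Units.val_one]

/-- a Frobenius element fixing the roots of unity of order `n` forces `ℓ ≡ 1 mod n` -/
theorem dvd_sub_one_of_fix {n ℓ : ℕ} [NeZero n] (hℓ : ℓ.Prime) (hℓn : ¬ ℓ ∣ n)
    {A : ValuationSubring (AlgebraicClosure ℚ)} (hA : A.LiesOverPrime ℓ) {τ : GQ}
    (hτ : A.IsFrobeniusAt τ ℓ) (hker : τ ∈ (cycHom n).ker) : n ∣ ℓ - 1 := by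
  have h := Attach.cyc_frobenius (n := n) hℓ hℓn hA hτ
  rw [(mem_ker_cycHom_iff n).mp hker] at h
  exact (Nat.modEq_iff_dvd' hℓ.one_le).mp ((ZMod.natCast_eq_natCast_iff _ _ _).mp
    (by rw [Nat.cast_one]; exact h))

end FLTAgent.PT.TW
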