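import Fermat.Agent.PT.G3Coh
import Fermat.Agent.PT.TW.Clifford
import Fermat.Agent.PT.TW.Places
import Fermat.Agent.Ext.Kummer
import Fermat.Agent.PT.TW.Defs

/-!
Area PT, parcel G: the residual setting and the trace identification of the Tate dual of `ad⁰`.
-/

set_option autoImplicit false

noncomputable section

open CategoryTheory groupCohomology Matrix Polynomial

namespace FLTAgent.PT.TW

/-- the hypotheses on the residual representation, in coordinates -/
structure Setting (p : ℕ) [Fact p.Prime] {k : Type} [Field k] [Algebra (ZMod p) k]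
    (ρbar : ResidualGaloisRep k) (r : GQ →* GL (Fin 2) k) : Prop where
  hp2 : p ≠ 2
  rep : Deform.RepMat ρbar.ρ (fun g => (r g : Matrix (Fin 2) (Fin 2) k))
  habs : ρbar.IsAbsolutelyIrreducible
  hTW : ∀ G : Subgroup GQ, G.index = 2 →
    ∀ V : Submodule (AlgebraicClosure k) (ρbar.baseChange (AlgebraicClosure k)).V,
      (∀ σ ∈ G, ∀ x ∈ V, (ρbar.baseChange (AlgebraicClosure k)).ρ σ x ∈ V) → V = ⊥ ∨ V = ⊤
  hdet : ∀ g, (r g : Matrix (Fin 2) (Fin 2) k).det =
    algebraMap (ZMod p) k (ExtCitation.cycloChar p g)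
  hsplit : ∀ g, ∃ α β : k,
    (r g : Matrix (Fin 2) (Fin 2) k).charpoly = (X - C α) * (X - C β)
  level : ∃ F : IntermediateField ℚ (AlgebraicClosure ℚ), FiniteDimensional ℚ F ∧
      ∀ g ∈ F.fixingSubgroup, r g = 1

variable {p : ℕ} [Fact p.Prime] {k : Type} [Field k] [Algebra (ZMod p) k]
  {ρbar : ResidualGaloisRep k} {r : GQ →* GL (Fin 2) k}

theorem Setting.charP (_h : Setting p ρbar r) : CharP k p :=
  charP_of_injective_algebraMap (algebraMap (ZMod p) k).injective p

theorem Setting.two_ne_zero (h : Setting p ρbar r) : (2 : k) ≠ 0 := by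
  intro h2
  haveI := h.charP
  have : ((2 : ℕ) : k) = 0 := by exact_mod_cast h2
  exact h.hp2 ((Nat.prime_dvd_prime_iff_eq Fact.out Nat.prime_two).mp
    ((CharP.cast_eq_zero_iff k p 2).mp this))

/-- the matrices of `r`, as a homomorphism -/
def matHom (r : GQ →* GL (Fin 2) k) : GQ →* Matrix (Fin 2) (Fin 2) k :=
  (Units.coeHom _).comp r

theorem matHom_apply (g : GQ) : matHom r g = (r g : Matrix (Fin 2) (Fin 2) k) := rfl

theorem matHom_inv (g : GQ) : matHom r g⁻¹ = ((r g)⁻¹ : GL (Fin 2) k) := by
  rw [matHom_apply, map_inv]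

theorem split_of_charpoly {M : Matrix (Fin 2) (Fin 2) k} {α β : k}
    (h : M.charpoly = (X - C α) * (X - C β)) : α + β = M.trace ∧ α * β = M.det := by
  rw [Matrix.charpoly_fin_two] at h
  constructor
  · have := congrArg (fun q : k[X] => q.coeff 1) h
    simp [sub_mul, mul_sub, coeff_C] at this
    linear_combination this
  · have := congrArg (fun q : k[X] => q.coeff 0) h
    simp [sub_mul, mul_sub, coeff_C] at this
    linear_combination -this

section Theta

/-- `X ↦ (Y ↦ Tr (tr (X Y)))` -/
def theta (p : ℕ) [Fact p.Prime] (k : Type) [Field k] [Algebra (ZMod p) k] :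
    adSpace p k →ₗ[ZMod p] Module.Dual (ZMod p) (adSpace p k) :=
  LinearMap.mk₂ (ZMod p) (fun X Y => Algebra.trace (ZMod p) k ((X.1 * Y.1).trace))
    (fun X X' Y => by rw [Submodule.coe_add, add_mul, Matrix.trace_add, map_add])
    (fun c X Y => by
      rw [SetLike.val_smul, smul_mul_assoc, Matrix.trace_smul, map_smul])
    (fun X Y Y' => by rw [Submodule.coe_add, mul_add, Matrix.trace_add, map_add])
    (fun c X Y => by
      rw [SetLike.val_smul, mul_smul_comm, Matrix.trace_smul, map_smul])

theorem theta_apply (X Y : adSpace p k) :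
    theta p k X Y = Algebra.trace (ZMod p) k ((X.1 * Y.1).trace) := rfl

variable [Finite k]

theorem theta_bijective (h2 : (2 : k) ≠ 0) : Function.Bijective (theta p k) := by
  haveI : FiniteDimensional (ZMod p) (adSpace p k) := Module.Finite.of_finite
  haveI : FiniteDimensional (ZMod p) k := Module.Finite.of_finite
  have hinj : Function.Injective (theta p k) := by
    rw [← LinearMap.ker_eq_bot, Submodule.eq_bot_iff]
    intro X hX
    rw [LinearMap.mem_ker] at hX
    have key : ∀ Y : Matrix (Fin 2) (Fin 2) k, Y.trace = 0 → (X.1 * Y).trace = 0 := by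
      intro Y hY
      refine (traceForm_nondegenerate (ZMod p) k).1 _ fun c => ?_
      have hc : c • Y ∈ adSpace p k := by
        show (c • Y).trace = 0
        rw [Matrix.trace_smul, hY, smul_zero]
      have := LinearMap.congr_fun hX ⟨c • Y, hc⟩
      rw [theta_apply, LinearMap.zero_apply, mul_smul_comm, Matrix.trace_smul, smul_eq_mul,
        mul_comm] at this
      exact this
    have a := key !![0, 1; 0, 0] (by simp [Matrix.trace_fin_two])
    have b := key !![0, 0; 1, 0] (by simp [Matrix.trace_fin_two])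
    have c := key !![1, 0; 0, -1] (by simp [Matrix.trace_fin_two])
    simp [Matrix.trace_fin_two, Matrix.mul_apply, Fin.sum_univ_two] at a b c
    have d : X.1 0 0 + X.1 1 1 = 0 := (Matrix.trace_fin_two X.1).symm.trans X.2
    have d0 : X.1 0 0 = 0 := by
      have : 2 * X.1 0 0 = 0 := by linear_combination d + c
      exact (mul_eq_zero.mp this).resolve_left h2
    refine Subtype.ext (Matrix.ext fun i j => ?_)
    fin_cases i <;> fin_cases j <;> simp_all
  exact ⟨hinj, (LinearMap.injective_iff_surjective_of_finrank_eq_finrank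
    Subspace.dual_finrank_eq.symm).mp hinj⟩

/-- the action on the dual, through `theta` -/
theorem dual_theta (g : GQ) (X : adSpace p k) :
    (dual' (ad0 p r)).ρ g (theta p k X) =
      theta p k ((ExtCitation.cycloChar p g : ZMod p) • (ad0 p r).ρ g X) := by
  refine LinearMap.ext fun Y => ?_
  rw [map_smul]
  show (ExtCitation.cycloChar p g : ZMod p) • theta p k X ((ad0 p r).ρ g⁻¹ Y) =
    (ExtCitation.cycloChar p g : ZMod p) • theta p k ((ad0 p r).ρ g X) Y
  rw [theta_apply, theta_apply, ad0_apply, ad0_apply, map_inv, inv_inv]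
  congr 2
  rw [← mul_assoc, Matrix.trace_mul_comm, ← mul_assoc, mul_assoc _ (X.1), ← mul_assoc, ← mul_assoc]

end Theta

end FLTAgent.PT.TW
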