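import Fermat.Agent.PT.TW.PowerSeries

/-!
Area PT, parcel G: an algebra with at most `|k| ^ r` homomorphisms to the dual numbers is a quotient
of the power series ring in `r` variables.
-/

set_option autoImplicit false

noncomputable section

namespace FLTAgent.PT.TW

open IsLocalRing

variable {𝒪 : Type} [CommRing 𝒪] [IsLocalRing 𝒪] [IsAdicComplete (maximalIdeal 𝒪) 𝒪]
  [Finite (ResidueField 𝒪)]
  {R : Type} [CommRing R] [IsLocalRing R] [IsNoetherianRing R]
  [IsAdicComplete (maximalIdeal R) R] [Algebra 𝒪 R] [IsLocalHom (algebraMap 𝒪 R)]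

/-- the kernel of both `ϖ` and `m²` -/
abbrev tanIdeal (𝒪 R : Type) [CommRing 𝒪] [IsLocalRing 𝒪] [CommRing R] [IsLocalRing R]
    [Algebra 𝒪 R] : Ideal R :=
  maximalIdeal R ^ 2 ⊔ (maximalIdeal 𝒪).map (algebraMap 𝒪 R)

theorem exists_quotient_of_card_algHom_le [Algebra 𝒪 (DualNumber (ResidueField 𝒪))]
    (h1 : ∀ a, algebraMap 𝒪 (DualNumber (ResidueField 𝒪)) a = TrivSqZeroExt.inl (residue 𝒪 a))
    (hres : Function.Surjective (residue R ∘ algebraMap 𝒪 R)) {r : ℕ}
    (hfin : Finite (R →ₐ[𝒪] DualNumber (ResidueField 𝒪)))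
    (hr : Nat.card (R →ₐ[𝒪] DualNumber (ResidueField 𝒪)) ≤ Nat.card (ResidueField 𝒪) ^ r) :
    ∃ γ : MvPowerSeries (Fin r) 𝒪 →ₐ[𝒪] R, Function.Surjective γ := by
  classical
  let m := maximalIdeal R
  let J := tanIdeal 𝒪 R
  have hmap : (maximalIdeal 𝒪).map (algebraMap 𝒪 R) ≤ m :=
    Ideal.map_le_iff_le_comap.mpr fun a ha => Ideal.mem_comap.mpr (map_nonunit _ a ha)
  have hJle : J ≤ m := sup_le (Ideal.pow_le_self two_ne_zero) hmap
  let Q := R ⧸ J
  let ι : (ResidueField 𝒪) →+* Q := Ideal.Quotient.lift (maximalIdeal 𝒪) (algebraMap 𝒪 Q)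
    (fun a ha => Ideal.Quotient.eq_zero_iff_mem.mpr
      ((le_sup_right : _ ≤ J) (Ideal.mem_map_of_mem _ ha)))
  letI : Algebra (ResidueField 𝒪) Q := ι.toAlgebra
  have hι : ∀ a : 𝒪, algebraMap (ResidueField 𝒪) Q (residue 𝒪 a) = Ideal.Quotient.mk J (algebraMap 𝒪 R a) :=
    fun a => rfl
  let e : (ResidueField 𝒪) →+* ResidueField R := ResidueField.map (algebraMap 𝒪 R)
  have he : Function.Bijective e := by
    refine ⟨e.injective, fun x => ?_⟩
    obtain ⟨x, rfl⟩ := residue_surjective x
    obtain ⟨a, ha⟩ := hres (residue R x)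
    exact ⟨residue 𝒪 a, ha⟩
  let β₀ : R →+* (ResidueField 𝒪) := (RingEquiv.ofBijective e he).symm.toRingHom.comp (residue R)
  have hβ₀ : ∀ a, β₀ (algebraMap 𝒪 R a) = residue 𝒪 a := fun a => by
    show (RingEquiv.ofBijective e he).symm (residue R (algebraMap 𝒪 R a)) = _
    rw [RingEquiv.symm_apply_eq]; rfl
  have hβ₀m : ∀ x, β₀ x = 0 ↔ x ∈ m := fun x => by
    show (RingEquiv.ofBijective e he).symm (residue R x) = 0 ↔ _
    rw [map_eq_zero_iff _ (RingEquiv.injective _), residue_eq_zero_iff]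
  let β : Q →+* (ResidueField 𝒪) := Ideal.Quotient.lift J β₀ fun x hx => (hβ₀m x).mpr (hJle hx)
  have hβmk : ∀ x, β (Ideal.Quotient.mk J x) = β₀ x := fun x => rfl
  have hβι : ∀ a : (ResidueField 𝒪), β (algebraMap (ResidueField 𝒪) Q a) = a := by
    intro a
    obtain ⟨a, rfl⟩ := residue_surjective a
    rw [hι, hβmk, hβ₀]
  -- the square of the kernel of `β` vanishes
  have hsq : ∀ x y : Q, β x = 0 → β y = 0 → x * y = 0 := by
    intro x y
    obtain ⟨x, rfl⟩ := Ideal.Quotient.mk_surjective x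
    obtain ⟨y, rfl⟩ := Ideal.Quotient.mk_surjective y
    rw [hβmk, hβmk, hβ₀m, hβ₀m, ← map_mul, Ideal.Quotient.eq_zero_iff_mem]
    intro hx hy
    exact (le_sup_left : m ^ 2 ≤ J) (by rw [sq]; exact Ideal.mul_mem_mul hx hy)
  have hsub : ∀ x : Q, β (x - algebraMap (ResidueField 𝒪) Q (β x)) = 0 := fun x => by
    rw [map_sub, hβι, sub_self]
  let Λ := {L : Q →ₗ[(ResidueField 𝒪)] (ResidueField 𝒪) // L 1 = 0}
  have hL : ∀ (L : Λ) (x y : Q), L.1 (x * y) = β x * L.1 y + β y * L.1 x := by
    intro L x y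
    have e : x * y = β x • y + β y • x - (β x * β y) • (1 : Q) := by
      rw [Algebra.smul_def, Algebra.smul_def, Algebra.smul_def, mul_one, map_mul]
      linear_combination hsq _ _ (hsub x) (hsub y)
    rw [e]; simp [L.2]
  let F : Λ → (R →ₐ[𝒪] DualNumber (ResidueField 𝒪)) := fun L =>
    { toFun := fun z => TrivSqZeroExt.inl (β (Ideal.Quotient.mk J z)) +
        TrivSqZeroExt.inr (L.1 (Ideal.Quotient.mk J z))
      map_one' := by ext <;> simp [L.2]
      map_mul' := fun x y => by ext <;> simp [hL, mul_comm]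
      map_zero' := by ext <;> simp
      map_add' := fun x y => by ext <;> simp
      commutes' := fun a => by
        rw [h1, hβmk, hβ₀]
        have e : Ideal.Quotient.mk J (algebraMap 𝒪 R a) = residue 𝒪 a • (1 : Q) := by
          rw [Algebra.smul_def, mul_one, hι]
        rw [e, map_smul, L.2, smul_zero, TrivSqZeroExt.inr_zero, add_zero] }
  have hFinj : Function.Injective F := by
    intro L L' h
    refine Subtype.ext (LinearMap.ext fun x => ?_)
    obtain ⟨x, rfl⟩ := Ideal.Quotient.mk_surjective x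
    have := congrArg TrivSqZeroExt.snd (AlgHom.congr_fun h x)
    simpa [F] using this
  haveI : Finite Λ := Finite.of_injective _ hFinj
  haveI : Finite (Module.Dual (ResidueField 𝒪) Q) := by
    let βl : Q →ₗ[(ResidueField 𝒪)] (ResidueField 𝒪) :=
      { toFun := β
        map_add' := map_add β
        map_smul' := fun c x => by rw [Algebra.smul_def, map_mul, hβι]; rfl }
    refine Finite.of_injective (fun L : Module.Dual (ResidueField 𝒪) Q =>
      ((⟨L - (L 1) • βl, by simp [βl]⟩ : Λ), L 1)) fun L L' h => ?_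
    have e2 := congrArg Prod.snd h
    have e1 := congrArg (fun p => p.1.1) h
    simp only at e1 e2
    rw [e2] at e1
    exact sub_left_inj.mp e1
  haveI : Module.Finite (ResidueField 𝒪) (Module.Dual (ResidueField 𝒪) Q) := Module.Finite.of_finite
  haveI : Module.Finite (ResidueField 𝒪) Q := (Module.finite_dual_iff (ResidueField 𝒪)).mp inferInstance
  -- the dimension of the kernel of `β`
  let βl : Q →ₗ[(ResidueField 𝒪)] (ResidueField 𝒪) :=
    { toFun := β
      map_add' := map_add β
      map_smul' := fun c x => by rw [Algebra.smul_def, map_mul, hβι]; rfl }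
  have hdim : Module.finrank (ResidueField 𝒪) (LinearMap.ker βl) ≤ r := by
    let ext : Module.Dual (ResidueField 𝒪) (LinearMap.ker βl) → Λ := fun f =>
      ⟨f.comp ((LinearMap.id - βl.smulRight (1 : Q)).codRestrict _ fun x => by
        rw [LinearMap.mem_ker, LinearMap.sub_apply, LinearMap.id_apply, LinearMap.smulRight_apply,
          map_sub, map_smul]
        show β x - β x • β 1 = 0
        simp), by
        rw [LinearMap.comp_apply]
        convert map_zero f using 2
        refine Subtype.ext ?_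
        show (1 : Q) - β 1 • (1 : Q) = 0
        simp⟩
    have hext : Function.Injective ext := by
      intro f f' h
      refine LinearMap.ext fun x => ?_
      have := LinearMap.congr_fun (congrArg Subtype.val h) x.1
      simp only [ext, LinearMap.comp_apply] at this
      convert this using 2 <;>
      · refine Subtype.ext ?_
        show x.1 = x.1 - β x.1 • (1 : Q)
        rw [show β x.1 = 0 from x.2, zero_smul, sub_zero]
    haveI := Fintype.ofFinite (ResidueField 𝒪)
    have hc := (Nat.card_le_card_of_injective _ (hFinj.comp hext)).trans hr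
    rw [Module.natCard_eq_pow_finrank (K := (ResidueField 𝒪)), Subspace.dual_finrank_eq] at hc
    exact (Nat.pow_le_pow_iff_right Finite.one_lt_card).mp hc
  let b := Module.finBasis (ResidueField 𝒪) (LinearMap.ker βl)
  choose lift hlift using fun i => Ideal.Quotient.mk_surjective (b i).1
  let t : Fin r → R := fun i =>
    if h : (i : ℕ) < Module.finrank (ResidueField 𝒪) (LinearMap.ker βl) then lift ⟨i, h⟩ else 0
  have ht : ∀ i, t i ∈ m := by
    intro i
    simp only [t]
    split
    · rw [← hβ₀m, ← hβmk, hlift]; exact (b _).2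
    · exact zero_mem _
  refine exists_surjective_mvPowerSeries t ht (fun z hz => ?_) hres
  let zK : LinearMap.ker βl := ⟨Ideal.Quotient.mk J z, (hβ₀m z).mpr hz⟩
  choose cl hcl using fun i => residue_surjective (b.repr zK i)
  let c : Fin r → 𝒪 := fun i =>
    if h : (i : ℕ) < Module.finrank (ResidueField 𝒪) (LinearMap.ker βl) then cl ⟨i, h⟩ else 0
  have hsum : ∑ i, algebraMap 𝒪 R (c i) * t i = ∑ j, algebraMap 𝒪 R (cl j) * lift j := by
    refine (Fintype.sum_of_injective (Fin.castLE hdim) (Fin.castLE_injective hdim) _ _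
      (fun i hi => ?_) fun j => ?_).symm
    · simp only [c, t]
      rw [dif_neg, dif_neg, mul_zero] <;>
        exact fun h => hi ⟨⟨i, h⟩, rfl⟩
    · simp only [c, t]
      rw [dif_pos (show ((Fin.castLE hdim j : Fin r) : ℕ) < _ from j.2),
        dif_pos (show ((Fin.castLE hdim j : Fin r) : ℕ) < _ from j.2)]
      rfl
  have hmem : z - ∑ i, algebraMap 𝒪 R (c i) * t i ∈ J := by
    rw [← Ideal.Quotient.eq, hsum, map_sum]
    have := congrArg (fun w : LinearMap.ker βl => (w : Q)) (b.sum_repr zK)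
    simp only [AddSubmonoidClass.coe_finset_sum, SetLike.val_smul] at this
    refine this.symm.trans (Finset.sum_congr rfl fun j _ => ?_)
    rw [map_mul, hlift, ← hι, hcl, Algebra.smul_def]
  obtain ⟨u, hu, v, hv, huv⟩ := Submodule.mem_sup.mp hmem
  -- an element of the extension of `𝔪` is a constant modulo `m²`
  have key : ∀ v ∈ (maximalIdeal 𝒪).map (algebraMap 𝒪 R),
      ∃ a ∈ maximalIdeal 𝒪, v - algebraMap 𝒪 R a ∈ m ^ 2 := by
    intro v hv
    induction hv using Submodule.span_induction with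
    | mem x hx => obtain ⟨a, ha, rfl⟩ := hx; exact ⟨a, ha, by simp⟩
    | zero => exact ⟨0, zero_mem _, by simp⟩
    | add x y _ _ hx hy =>
      obtain ⟨a, ha, hxa⟩ := hx
      obtain ⟨a', ha', hya⟩ := hy
      refine ⟨a + a', add_mem ha ha', ?_⟩
      rw [map_add, add_sub_add_comm]
      exact add_mem hxa hya
    | smul s x _ hx =>
      obtain ⟨a, ha, hxa⟩ := hx
      obtain ⟨s₀, hs₀⟩ := hres (residue R s)
      refine ⟨s₀ * a, Ideal.mul_mem_left _ _ ha, ?_⟩
      have hs : s - algebraMap 𝒪 R s₀ ∈ m := by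
        rw [← residue_eq_zero_iff, map_sub, sub_eq_zero]; exact hs₀.symm
      have hsa : (s - algebraMap 𝒪 R s₀) * algebraMap 𝒪 R a ∈ m ^ 2 := by
        rw [sq]; exact Ideal.mul_mem_mul hs (hmap (Ideal.mem_map_of_mem _ ha))
      rw [smul_eq_mul, map_mul, show s * x - algebraMap 𝒪 R s₀ * algebraMap 𝒪 R a =
        s * (x - algebraMap 𝒪 R a) + (s - algebraMap 𝒪 R s₀) * algebraMap 𝒪 R a by ring]
      exact add_mem (Ideal.mul_mem_left _ _ hxa) hsa
  obtain ⟨a, ha, hva⟩ := key v hv
  refine ⟨a, ha, c, ?_⟩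
  rw [show z - (algebraMap 𝒪 R a + ∑ i, algebraMap 𝒪 R (c i) * t i) =
    u + (v - algebraMap 𝒪 R a) by linear_combination -huv]
  exact add_mem hu hva

end FLTAgent.PT.TW
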