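import Fermat.Agent.PT.TW.Flat.Irred
import Fermat.Agent.PT.TW.Flat.Ordinary
import Fermat.Agent.PT.Local.Dense
import Fermat.Agent.PT.Global.Dict

/-!
Parcel H (flat bound), owner helper9: the interface.
-/

set_option autoImplicit false
set_option linter.style.haveILetI false

noncomputable section

open Polynomial groupCohomology Matrix

namespace FLTAgent.PT.TW

open IsLocalRing (ResidueField)

variable {p : ℕ} [Fact p.Prime] {k : Type} [Field k] [Algebra (ZMod p) k] [Finite k]

theorem conjRep_mul_coe (r : GQ →* GL (Fin 2) k) (Q U : GL (Fin 2) k) (g : GQ) :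
    (conjRep r (Q * U) g : Matrix (Fin 2) (Fin 2) k) =
      ((U⁻¹ : GL (Fin 2) k) : Matrix (Fin 2) (Fin 2) k) * conjRep r Q g * U := by
  simp only [conjRep_coe, _root_.mul_inv_rev, Units.val_mul, mul_assoc]

/-- the flat tangent space at `p` has dimension at most `h⁰ + 1` -/
theorem finrank_flat_le (hp2 : p ≠ 2) (r : GQ →* GL (Fin 2) k)
    (hr : ∃ F : IntermediateField ℚ (AlgebraicClosure ℚ), FiniteDimensional ℚ F ∧
      ∀ g ∈ F.fixingSubgroup, r g = 1)
    (hdet : ∀ g, (r g : Matrix (Fin 2) (Fin 2) k).det =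
      algebraMap (ZMod p) k (ExtCitation.cycloChar p g))
    (hsplit : ∀ g, ∃ α β : k,
      (r g : Matrix (Fin 2) (Fin 2) k).charpoly = (X - C α) * (X - C β)) :
    Module.finrank (ZMod p) (Submodule.span (ZMod p) (flatClasses (p := p) r)) ≤
      Module.finrank (ZMod p) (lH0 (ExtCitation.pPrime p) (ad0 p r)) +
        Module.finrank (ZMod p) k := by
  classical
  have hpr : p.Prime := Fact.out
  haveI : NeZero p := ⟨hpr.ne_zero⟩
  haveI : Fact (1 < p) := ⟨hpr.one_lt⟩
  set q := ExtCitation.pPrime p with hq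
  have hA : (ExtCitation.primeLocalPlace q).LiesOverPrime p := by
    simpa [hq] using lies_plc (ExtCitation.pPrime p)
  obtain ⟨P, hPA⟩ := exists_placeData hA hp2
  haveI := P.charP_res
  letI : Algebra (ZMod p) (ResidueField P.A) := ZMod.algebra _ p
  have hD : ∀ g : Gam q, loc q g ∈ P.D := fun g => by
    show loc q g ∈ P.A.decompositionSubgroup ℚ
    rw [hPA, ← range_loc' q]
    exact ⟨g, rfl⟩
  set L : Z1 (MonoidHom.id GQ) (ad0 p r) →ₗ[ZMod p] lH1 q (ad0 p r) :=
    (res1 q (ad0 p r)).comp (h1mk _ _) with hLdef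
  have hL : ∀ c, IsLocTriv P r c → L c = 0 := by
    rintro c ⟨m, hm, h⟩
    rw [hLdef, LinearMap.comp_apply, res1, h1map_mk, h1mk_eq_zero_iff]
    exact ⟨(⟨m, hm⟩ : adSpace p k), fun g => Subtype.ext (h _ (hD g)).symm⟩
  rcases (flatClasses (p := p) r).eq_empty_or_nonempty with he | ⟨_, c₀, -, hc₀⟩
  · rw [he, Submodule.span_empty, finrank_bot]
    exact Nat.zero_le _
  have hspan : ∀ N : Submodule (ZMod p) (Z1 (MonoidHom.id GQ) (ad0 p r)),
      (∀ c : Z1 (MonoidHom.id GQ) (ad0 p r),
        Flat.HasFlatModel (ExtMod r ⟨c.1, c.2.1⟩) p → c ∈ N) → Finite (N.map L) →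
      Module.finrank (ZMod p) (Submodule.span (ZMod p) (flatClasses (p := p) r)) ≤
        Module.finrank (ZMod p) (N.map L) := fun N hN hfin => by
    haveI := hfin
    haveI : Module.Finite (ZMod p) (N.map L) := Module.Finite.of_finite
    refine Submodule.finrank_mono (Submodule.span_le.mpr ?_)
    rintro x ⟨c, rfl, hc⟩
    exact Submodule.mem_map_of_mem (f := L) (hN c hc)
  obtain ⟨M, hM⟩ := exists_mdl_of_flat (A := P.A) P.hA hc₀ (AddEquiv.refl _) fun _ _ => rfl
  obtain ⟨s, hs, hgen⟩ := P.exists_gen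
  by_cases hst : ∃ v, Stab P r v
  · obtain ⟨v, hv⟩ := hst
    obtain ⟨Q, hlow, hI⟩ := exists_red P M hM hdet hv
    -- an eigenbasis for the generator of tame inertia
    set ω := algebraMap (ZMod p) k (ExtCitation.cycloChar p s)
    have hω : ω - 1 ≠ 0 := sub_ne_zero.mpr fun h => by
      have h1 := P.th_cyclo hs
      rw [(algebraMap (ZMod p) k).injective (h.trans (map_one _).symm), ZMod.val_one, Nat.cast_one,
        hgen.pow_eq_one_iff_dvd] at h1
      have := Nat.le_of_dvd (by omega) h1
      have := P.two_p_lt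
      omega
    set u := -(conjRep r Q s : Matrix (Fin 2) (Fin 2) k) 0 1 / (ω - 1) with hu
    let U : GL (Fin 2) k := Matrix.GeneralLinearGroup.mkOfDetNeZero !![1, u; 0, 1]
      (by simp [Matrix.det_fin_two_of])
    have hU : (U : Matrix (Fin 2) (Fin 2) k) = !![1, u; 0, 1] := rfl
    have hUi : ((U⁻¹ : GL (Fin 2) k) : Matrix (Fin 2) (Fin 2) k) = !![1, -u; 0, 1] :=
      Units.inv_eq_of_mul_eq_one_right (by
        rw [hU, Matrix.mul_fin_two]; simp [Matrix.one_fin_two])
    have hent : ∀ g ∈ P.D,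
        (conjRep r (Q * U) g : Matrix (Fin 2) (Fin 2) k) 1 0 = 0 ∧
        (conjRep r (Q * U) g : Matrix (Fin 2) (Fin 2) k) 0 0 =
          (conjRep r Q g : Matrix (Fin 2) (Fin 2) k) 0 0 ∧
        (conjRep r (Q * U) g : Matrix (Fin 2) (Fin 2) k) 1 1 =
          (conjRep r Q g : Matrix (Fin 2) (Fin 2) k) 1 1 ∧
        (conjRep r (Q * U) g : Matrix (Fin 2) (Fin 2) k) 0 1 =
          ((conjRep r Q g : Matrix (Fin 2) (Fin 2) k) 0 0 -
            (conjRep r Q g : Matrix (Fin 2) (Fin 2) k) 1 1) * u +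
            (conjRep r Q g : Matrix (Fin 2) (Fin 2) k) 0 1 := by
      intro g hg
      rw [conjRep_mul_coe, hU, hUi]
      have h0 := hlow g hg
      simp [Matrix.mul_apply, Fin.sum_univ_two, Matrix.vecMul, dotProduct, h0]
      ring
    let O : Ord P (conjRep r (Q * U)) :=
      { s := s
        hs := hs
        hgen := hgen
        hlow := fun g hg => (hent g hg).1
        h00 := fun σ hσ => (hent σ (P.I_le_D hσ)).2.1.trans (hI σ hσ).1
        h11 := fun σ hσ => (hent σ (P.I_le_D hσ)).2.2.1.trans (hI σ hσ).2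
        hS := by
          rw [(hent s (P.I_le_D hs)).2.2.2, (hI s hs).1, (hI s hs).2, hu, mul_div_cancel₀ _ hω,
            neg_add_cancel]
        hlevel := conjRep_level r _ hr }
    obtain ⟨N, hN, hfin, hb⟩ := exists_bound_ord P r (Q * U) O L hL c₀ hc₀
    refine (hspan N hN hfin).trans ?_
    rcases hb with hb | ⟨hb, hdiag⟩
    · exact hb.trans (Nat.le_add_left _ _)
    refine hb.trans (Nat.add_le_add_right ?_ _)
    -- the invariants contain the diagonal
    haveI : Module.Finite (ZMod p) k := Module.Finite.of_finite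
    haveI : Module.Finite (ZMod p) (adSpace p k) := Module.Finite.of_finite
    haveI : Module.Finite (ZMod p) (lH0 q (ad0 p r)) := Module.Finite.of_finite
    set T : GL (Fin 2) k := Q * U
    have hmem : ∀ γ : k, ∃ X : lH0 q (ad0 p r), (X.1 : adSpace p k).1 =
        (T : Matrix (Fin 2) (Fin 2) k) * !![γ, 0; 0, -γ] * ((T⁻¹ : GL (Fin 2) k)) := by
      intro γ
      refine ⟨⟨(⟨_, ?_⟩ : adSpace p k), fun g => Subtype.ext ?_⟩, rfl⟩
      · show Matrix.trace _ = 0
        rw [Matrix.trace_mul_comm, ← mul_assoc, ← Units.val_mul, inv_mul_cancel, Units.val_one,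
          one_mul, Matrix.trace_fin_two_of, add_neg_cancel]
      · show ((ad0 p r).ρ (loc q g) _).1 = _
        rw [ad0_apply]
        set g' := loc q g
        obtain ⟨h10, h01⟩ := hdiag g' (hD g)
        have hcomm : (conjRep r T g' : Matrix (Fin 2) (Fin 2) k) * !![γ, 0; 0, -γ] =
            !![γ, 0; 0, -γ] * (conjRep r T g' : Matrix (Fin 2) (Fin 2) k) := by
          rw [Matrix.eta_fin_two (conjRep r T g' : Matrix (Fin 2) (Fin 2) k), h10, h01,
            Matrix.mul_fin_two, Matrix.mul_fin_two]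
          simp [mul_comm]
        have hrT : (r g' : Matrix (Fin 2) (Fin 2) k) * (T : Matrix (Fin 2) (Fin 2) k) =
            (T : Matrix (Fin 2) (Fin 2) k) * conjRep r T g' := by
          rw [conjRep_coe, ← mul_assoc, ← mul_assoc, Units.mul_inv, one_mul]
        show (r g' : Matrix (Fin 2) (Fin 2) k) *
            ((T : Matrix (Fin 2) (Fin 2) k) * !![γ, 0; 0, -γ] * ((T⁻¹ : GL (Fin 2) k))) *
            ((r g')⁻¹ : GL (Fin 2) k) = _
        rw [← mul_assoc, ← mul_assoc, hrT, mul_assoc (T : Matrix (Fin 2) (Fin 2) k) _, hcomm,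
          ← mul_assoc, conjRep_coe]
        simp only [mul_assoc, Units.mul_inv, Units.mul_inv_cancel_left, mul_one]
    choose f hf using hmem
    have hfadd : ∀ γ γ', f (γ + γ') = f γ + f γ' := fun γ γ' => Subtype.ext (Subtype.ext (by
      show ((f (γ + γ')).1 : adSpace p k).1 =
        ((f γ).1 : adSpace p k).1 + ((f γ').1 : adSpace p k).1
      rw [hf, hf, hf, ← add_mul, ← mul_add]
      congr 2
      simp [add_comm]))
    refine LinearMap.finrank_le_finrank_of_injective (f := (AddMonoidHom.mk' f hfadd).toZModLinearMap p)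
      fun γ γ' h => ?_
    have h1 := congrArg (fun X : lH0 q (ad0 p r) => ((T⁻¹ : GL (Fin 2) k) : Matrix _ _ k) *
      (X.1 : adSpace p k).1 * (T : Matrix (Fin 2) (Fin 2) k)) h
    simp only [AddMonoidHom.coe_toZModLinearMap, AddMonoidHom.mk'_apply, hf, mul_assoc,
      Units.inv_mul, mul_one, Units.inv_mul_cancel_left] at h1
    simpa using congrFun (congrFun h1 0) 0
  · push Not at hst
    obtain ⟨Q, μ, hμ2, hμp, hθ, hH, hS, h00, h11⟩ :=
      exists_irred P M hM hdet hsplit hr hst hs hgen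
    let I : Irr P (conjRep r Q) :=
      { μ := μ
        s := s
        hs := hs
        hgen := hgen
        hμ2 := hμ2
        hμp := hμp
        hθ := hθ
        hdet := fun g => (conjRep_det r Q g).trans (hdet g)
        hH := hH
        hS := hS
        h00 := h00
        h11 := h11
        hlevel := conjRep_level r Q hr }
    obtain ⟨N, hN, hfin, hb⟩ := exists_bound_irred P r Q I L hL
    exact ((hspan N hN hfin).trans hb).trans (Nat.le_add_left _ _)

end FLTAgent.PT.TW

end
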