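import Fermat.Agent.PT.TW.Setting
import Fermat.Agent.PT.LocalAPI

/-!
Area PT, parcel G: the strictly ordinary classes at `p` span at most `h⁰ + [k : 𝔽_p]` dimensions.
-/

set_option autoImplicit false
set_option linter.style.haveILetI false

noncomputable section

open CategoryTheory groupCohomology Matrix Polynomial

namespace FLTAgent.PT.TW

variable {p : ℕ} [Fact p.Prime] {k : Type} [Field k] [Algebra (ZMod p) k]
  {ρbar : ResidualGaloisRep k} {r : GQ →* GL (Fin 2) k}

/-- `k` with the cyclotomic action -/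
abbrev lineMod (p : ℕ) [Fact p.Prime] (k : Type) [Field k] [Algebra (ZMod p) k] :
    Rep.{0} (ZMod p) GQ :=
  Rep.of ((Representation.trivial (ZMod p) GQ k).twist (ExtCitation.cycloChar p))

theorem lineMod_apply (g : GQ) (a : k) :
    (lineMod p k).ρ g a = (ExtCitation.cycloChar p g : ZMod p) • a := rfl

theorem isAdm_lineMod [Finite k] : IsAdm (MonoidHom.id GQ) (lineMod p k) := by
  obtain ⟨F, hF, h⟩ := (isAdm_mu p).level
  refine ⟨Module.Finite.of_finite, F, hF, fun g hg => LinearMap.ext fun a => ?_⟩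
  have h1 := LinearMap.congr_fun (h g hg) (1 : ZMod p)
  change (ExtCitation.cycloChar p g : ZMod p) • (1 : ZMod p) = 1 at h1
  rw [smul_eq_mul, mul_one] at h1
  rw [lineMod_apply, h1, one_smul]
  rfl

theorem finrank_lH1_lineMod_le [Finite k] (q : Nat.Primes)
    (hmu : Module.finrank (ZMod p) (lH1 q (mu p)) ≤ 2) :
    Module.finrank (ZMod p) (lH1 q (lineMod p k)) ≤ 2 * Module.finrank (ZMod p) k := by
  classical
  haveI : FiniteDimensional (ZMod p) k := Module.Finite.of_finite
  haveI := finite_lH1 q (isAdm_mu p)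
  let b := Module.finBasis (ZMod p) k
  let c : ∀ i, lineMod p k →ₗ[ZMod p] mu p := fun i => b.coord i
  have hc : ∀ i (g : Gam q) (a : Rep.res (loc q) (lineMod p k)),
      c i ((Rep.res (loc q) (lineMod p k)).ρ g a) = (Rep.res (loc q) (mu p)).ρ g (c i a) :=
    fun i g a => map_smul (b.coord i) (ExtCitation.cycloChar p (loc q g) : ZMod p) a
  let f := LinearMap.pi fun i =>
    h1push (loc q) (A := Rep.res (loc q) (lineMod p k)) (B := Rep.res (loc q) (mu p)) (c i) (hc i)
  have hinj : Function.Injective f := by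
    rw [← LinearMap.ker_eq_bot, Submodule.eq_bot_iff]
    intro x hx
    obtain ⟨z, rfl⟩ := Submodule.mkQ_surjective _ x
    have hx' : ∀ i, ∃ m : ZMod p, ∀ g,
        (Rep.res (loc q) (mu p)).ρ g m - m = c i (z.1 g) := fun i =>
      (h1mk_eq_zero_iff _ _).mp (congrFun (LinearMap.mem_ker.mp hx) i)
    choose m hm using hx'
    refine (h1mk_eq_zero_iff _ z).mpr ⟨(∑ i, m i • b i : k), fun g => b.ext_elem fun i => ?_⟩
    have e := hm i g
    change (ExtCitation.cycloChar p (loc q g) : ZMod p) • m i - m i = b.repr (z.1 g) i at e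
    rw [← e]
    show b.repr ((ExtCitation.cycloChar p (loc q g) : ZMod p) • (∑ i, m i • b i) - ∑ i, m i • b i) i = _
    simp [Finsupp.single_apply, Finset.sum_apply]
  have hrk := LinearMap.finrank_le_finrank_of_injective hinj
  rw [Module.finrank_pi_fintype, Finset.sum_const, Finset.card_univ, Fintype.card_fin,
    smul_eq_mul] at hrk
  calc _ ≤ Module.finrank (ZMod p) k * Module.finrank (ZMod p) (lH1 q (mu p)) := hrk
    _ ≤ Module.finrank (ZMod p) k * 2 := Nat.mul_le_mul_left _ hmu
    _ = _ := mul_comm _ _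

variable (h : Setting p ρbar r) [Finite k]
include h

/-- the strictly ordinary classes -/
theorem Setting.exists_strict_condition (q : Nat.Primes)
    (hmu : Module.finrank (ZMod p) (lH1 q (mu p)) ≤ 2)
    (U U' : Matrix (Fin 2) (Fin 2) k) (hU : U' * U = 1) (hU' : U * U' = 1)
    (hUD : ∀ s ∈ (ExtCitation.primeLocalPlace q).decompositionSubgroup ℚ,
      (U' * matHom r s * U) 1 0 = 0 ∧ (U' * matHom r s * U) 0 0 =
        algebraMap (ZMod p) k (ExtCitation.cycloChar p s) * (U' * matHom r s * U) 1 1) :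
    ∃ L : Submodule (ZMod p) (lH1 q (ad0 p r)),
      Module.finrank (ZMod p) L ≤
        Module.finrank (ZMod p) (lH0 q (ad0 p r)) + Module.finrank (ZMod p) k ∧
      ∀ z : Z1 (MonoidHom.id GQ) (ad0 p r), ∀ Y : adSpace p k,
        (∀ s ∈ (ExtCitation.primeLocalPlace q).decompositionSubgroup ℚ, ∃ a : k,
          (z.1 s).1 + ((matHom r s * Y.1 * matHom r s⁻¹) - Y.1) = a • (U * !![0, 1; 0, 0] * U')) →
        res1 q (ad0 p r) (h1mk _ _ z) ∈ L := by
  classical
  haveI := h.charP
  have hM := isAdm_ad0 (p := p) r h.level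
  haveI : FiniteDimensional (ZMod p) k := Module.Finite.of_finite
  haveI : FiniteDimensional (ZMod p) (adSpace p k) := Module.Finite.of_finite
  haveI := finite_lH1 q (isAdm_lineMod (p := p) (k := k))
  have h2 := h.two_ne_zero
  let E₁ : Matrix (Fin 2) (Fin 2) k := !![0, 1; 0, 0]
  let Hd : Matrix (Fin 2) (Fin 2) k := !![1, 0; 0, -1]
  let N := U * E₁ * U'
  let H := U * Hd * U'
  have hNt : N.trace = 0 := (trace_conj hU).trans (by simp [E₁, trace_fin_two])
  have hHt : H.trace = 0 := (trace_conj hU).trans (by simp [Hd, trace_fin_two])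
  have hback : ∀ X : Matrix (Fin 2) (Fin 2) k, U' * (U * X * U') * U = X := fun X => by
    rw [← mul_assoc, ← mul_assoc, hU, one_mul, mul_assoc, hU, mul_one]
  have hN0 : ∀ a : k, a • N = 0 → a = 0 := fun a ha => by
    have e := congrArg (fun X => U' * X * U) ha
    simp only [N, mul_smul_comm, smul_mul_assoc, hback, mul_zero, zero_mul] at e
    have := congrFun (congrFun e 0) 1
    simpa [E₁] using this
  -- the action on the line
  have hkey : ∀ γ : Gam q, ∃ e : k,
      matHom r (loc q γ) * N * matHom r (loc q γ)⁻¹ =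
        algebraMap (ZMod p) k (ExtCitation.cycloChar p (loc q γ)) • N ∧
      matHom r (loc q γ) * H * matHom r (loc q γ)⁻¹ - H = e • N := by
    intro γ
    set s := loc q γ
    have hs : s ∈ (ExtCitation.primeLocalPlace q).decompositionSubgroup ℚ := by
      rw [← range_loc]; exact ⟨γ, rfl⟩
    obtain ⟨h10, h00⟩ := hUD s hs
    set ω := algebraMap (ZMod p) k (ExtCitation.cycloChar p s)
    obtain ⟨M, hMdef⟩ : ∃ M, M = U' * matHom r s * U := ⟨_, rfl⟩
    obtain ⟨M', hM'def⟩ : ∃ M', M' = U' * matHom r s⁻¹ * U := ⟨_, rfl⟩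
    rw [← hMdef] at h10 h00
    have conjM : ∀ X, matHom r s * (U * X * U') * matHom r s⁻¹ = U * (M * X * M') * U' := fun X => by
      rw [hMdef, hM'def]
      simp only [mul_assoc, hU', mul_one]
      rw [← mul_assoc U U', hU', one_mul]
    have hMM' : M * M' = 1 := by
      rw [hMdef, hM'def]
      simp only [mul_assoc]
      rw [← mul_assoc U U', hU', one_mul, ← mul_assoc (matHom r s), map_mul_inv, one_mul, hU]
    have hz : M 1 1 ≠ 0 := by
      intro h0
      have := congrArg Matrix.det hMM'
      rw [det_mul, det_fin_two M, h10, h00, h0, det_one] at this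
      simp at this
    have e1 : M * E₁ = ω • (E₁ * M) := by
      ext i j
      fin_cases i <;> fin_cases j <;>
        simp [E₁, Matrix.mul_apply, Fin.sum_univ_two, h10, h00, Matrix.vecMul, dotProduct, vecHead, vecTail]
    have e2 : E₁ * M' = (M 1 1)⁻¹ • E₁ := by
      have e : E₁ * M = M 1 1 • E₁ := by
        ext i j
        fin_cases i <;> fin_cases j <;> simp [E₁, Matrix.mul_apply, Fin.sum_univ_two, h10, Matrix.vecMul, dotProduct, vecHead, vecTail]
      have e' : E₁ = (M 1 1)⁻¹ • (E₁ * M) := by rw [e, smul_smul, inv_mul_cancel₀ hz, one_smul]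
      calc E₁ * M' = ((M 1 1)⁻¹ • (E₁ * M)) * M' := by rw [← e']
        _ = _ := by rw [smul_mul_assoc, mul_assoc, hMM', mul_one]
    refine ⟨-2 * M 0 1 * (M 1 1)⁻¹, ?_, ?_⟩
    · show _ * (U * E₁ * U') * _ = ω • (U * E₁ * U')
      rw [conjM, e1, smul_mul_assoc, mul_assoc E₁, hMM', mul_one, mul_smul_comm, smul_mul_assoc]
    · show _ * (U * Hd * U') * _ - U * Hd * U' = _ • (U * E₁ * U')
      have e3 : M * Hd - Hd * M = (-2 * M 0 1) • E₁ := by
        ext i j
        fin_cases i <;> fin_cases j <;>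
          simp [E₁, Hd, Matrix.mul_apply, Fin.sum_univ_two, h10, Matrix.vecMul, dotProduct, vecHead, vecTail] <;> ring
      have e4 : M * Hd * M' - Hd = ((-2 * M 0 1) * (M 1 1)⁻¹) • E₁ := by
        calc M * Hd * M' - Hd = (M * Hd - Hd * M) * M' := by
              rw [sub_mul, mul_assoc Hd, hMM', mul_one]
          _ = _ := by rw [e3, smul_mul_assoc, e2, smul_smul]
      rw [conjM, ← sub_mul, ← mul_sub, e4, mul_smul_comm, smul_mul_assoc]
  choose e heN heH using hkey
  let ι : lineMod p k →ₗ[ZMod p] ad0 p r :=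
    { toFun := fun a => (⟨a • N, show (a • N).trace = 0 by rw [trace_smul, hNt, smul_zero]⟩ : adSpace p k)
      map_add' := fun a a' => Subtype.ext (add_smul a a' N)
      map_smul' := fun c a => Subtype.ext (smul_assoc c a N) }
  have hιv : ∀ a, (ι a).1 = a • N := fun a => rfl
  have hι : ∀ (γ : Gam q) (a : Rep.res (loc q) (lineMod p k)),
      ι ((Rep.res (loc q) (lineMod p k)).ρ γ a) = (Rep.res (loc q) (ad0 p r)).ρ γ (ι a) := by
    intro γ a
    refine Subtype.ext ?_
    show ((ExtCitation.cycloChar p (loc q γ) : ZMod p) • (a : k)) • N =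
      (r (loc q γ) : Matrix (Fin 2) (Fin 2) k) * ((a : k) • N) * ((r (loc q γ))⁻¹ : GL (Fin 2) k)
    rw [← matHom_apply, ← matHom_inv, mul_smul_comm, smul_mul_assoc, heN, smul_smul]
    congr 1
    exact (Algebra.smul_def _ (a : k)).trans (mul_comm _ _)
  have hιker : LinearMap.ker ι = ⊥ := by
    rw [Submodule.eq_bot_iff]
    intro a ha
    exact hN0 a (congrArg Subtype.val (LinearMap.mem_ker.mp ha))
  obtain ⟨π, hπ⟩ := ι.exists_leftInverse_of_injective hιker
  have hπι : ∀ a, π (ι a) = a := fun a => LinearMap.congr_fun hπ a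
  let j := h1push (loc q) (A := Rep.res (loc q) (lineMod p k)) (B := Rep.res (loc q) (ad0 p r)) ι hι
  obtain ⟨Fr, hFr, hrF⟩ := h.level
  obtain ⟨Fμ, hFμ, hμF⟩ := (isAdm_lineMod (p := p) (k := k)).level
  -- cocycles with values in the line
  have hmem : ∀ (w : Gam q → ad0 p r), w ∈ Z1 (loc q) (Rep.res (loc q) (ad0 p r)) →
      (∀ γ, ∃ a : k, (w γ).1 = a • N) →
      ∃ hw : (fun γ => π (w γ)) ∈ Z1 (loc q) (Rep.res (loc q) (lineMod p k)),
        ∀ γ, ι (π (w γ)) = w γ := by
    intro w hw hwN
    have hsec : ∀ γ, ι (π (w γ)) = w γ := by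
      intro γ
      obtain ⟨a, ha⟩ := hwN γ
      have : w γ = ι a := Subtype.ext (ha.trans (hιv a).symm)
      rw [this, hπι]
    refine ⟨⟨(mem_cocycles₁_def _).2 fun g g' => ?_, IsLevelConstant₁.comp hw.2 π⟩, hsec⟩
    have hw1 := (mem_cocycles₁_def _).1 hw.1 g g'
    refine LinearMap.ker_eq_bot.mp hιker ?_
    show ι ((Rep.res (loc q) (lineMod p k)).ρ g (π (w g')) - π (w (g * g')) + π (w g)) = ι 0
    rw [map_add, map_sub, hι, hsec, hsec, hsec, hw1, map_zero]
  have hcob : ∀ (Y : adSpace p k), (fun γ => (ad0 p r).ρ (loc q γ) Y - Y) ∈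
      Z1 (loc q) (Rep.res (loc q) (ad0 p r)) := by
    intro Y
    refine ⟨(mem_cocycles₁_def _).2 fun a b => ?_, ⟨Fr, hFr, fun g s hs => ?_⟩⟩
    · show (ad0 p r).ρ (loc q a) ((ad0 p r).ρ (loc q b) Y - Y)
        - ((ad0 p r).ρ (loc q (a * b)) Y - Y) + ((ad0 p r).ρ (loc q a) Y - Y) = 0
      rw [map_mul, map_mul _ (loc q a), Module.End.mul_apply, map_sub]
      abel
    · show (ad0 p r).ρ (loc q (g * s)) Y - Y = (ad0 p r).ρ (loc q g) Y - Y
      congr 1
      refine Subtype.ext ?_
      rw [ad0_apply, ad0_apply, map_mul, map_mul r, hrF _ hs, mul_one]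
  refine ⟨LinearMap.range j, ?_, ?_⟩
  · -- the connecting map
    let X : k → adSpace p k := fun b => ⟨b • H, show (b • H).trace = 0 by rw [trace_smul, hHt, smul_zero]⟩
    have hXb : ∀ b γ, ((ad0 p r).ρ (loc q γ) (X b) - X b).1 = (b * e γ) • N := fun b γ => by
      rw [Submodule.coe_sub, ad0_apply, ← matHom_apply, ← matHom_inv, mul_smul_comm, smul_mul_assoc,
        ← smul_sub, heH, smul_smul]
    choose hwb hsec using fun b => hmem _ (hcob (X b)) fun γ => ⟨_, hXb b γ⟩
    let δ : k →ₗ[ZMod p] lH1 q (lineMod p k) :=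
      { toFun := fun b => h1mk _ _ ⟨_, hwb b⟩
        map_add' := fun b b' => by
          rw [← map_add]
          congr 1
          refine Subtype.ext (funext fun γ => ?_)
          show π _ = π _ + π _
          rw [← map_add]
          congr 1
          refine Subtype.ext ?_
          rw [Submodule.coe_add, hXb, hXb, hXb, add_mul, add_smul]
        map_smul' := fun c b => by
          rw [RingHom.id_apply, ← map_smul]
          congr 1
          refine Subtype.ext (funext fun γ => ?_)
          show π _ = c • π _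
          rw [← map_smul]
          congr 1
          refine Subtype.ext ?_
          rw [SetLike.val_smul, hXb, hXb, smul_mul_assoc, smul_assoc] }
    have hδj : LinearMap.range δ ≤ LinearMap.ker j := by
      rintro _ ⟨b, rfl⟩
      show j (δ b) = 0
      refine (h1mk_eq_zero_iff (loc q) (M := Rep.res (loc q) (ad0 p r)) ⟨_, _⟩).mpr
        ⟨X b, fun γ => ?_⟩
      exact (hsec b γ).symm
    have hδk : Module.finrank (ZMod p) (LinearMap.ker δ) ≤
        Module.finrank (ZMod p) (lH0 q (ad0 p r)) := by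
      let S : Submodule (ZMod p) (k × k) :=
        { carrier := {ab | ∀ γ : Gam q, matHom r (loc q γ) * (ab.2 • H - ab.1 • N) * matHom r (loc q γ)⁻¹
            = ab.2 • H - ab.1 • N}
          add_mem' := fun {a b} ha hb γ => by
            have ea := ha γ
            have eb := hb γ
            simp only [Prod.fst_add, Prod.snd_add, add_smul, add_sub_add_comm, mul_add, add_mul,
              ea, eb]
          zero_mem' := fun γ => by simp
          smul_mem' := fun c a ha γ => by
            have ea := ha γ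
            simp only [Prod.smul_fst, Prod.smul_snd, smul_assoc, ← smul_sub, mul_smul_comm,
              smul_mul_assoc, ea] }
      let toInv : S →ₗ[ZMod p] lH0 q (ad0 p r) :=
        { toFun := fun ab => ⟨(⟨ab.1.2 • H - ab.1.1 • N, show _ = (0 : k) by
              rw [trace_sub, trace_smul, trace_smul, hHt, hNt, smul_zero, smul_zero, sub_zero]⟩ :
              adSpace p k), fun γ => Subtype.ext (by
              show (r (loc q γ) : Matrix (Fin 2) (Fin 2) k) * _ * ((r (loc q γ))⁻¹ : GL (Fin 2) k) = _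
              rw [← matHom_apply, ← matHom_inv]
              exact ab.2 γ)⟩
          map_add' := fun a b => Subtype.ext (Subtype.ext (by
            show (a + b).1.2 • H - (a + b).1.1 • N = _
            simp only [Submodule.coe_add, Prod.fst_add, Prod.snd_add, add_smul, add_sub_add_comm]))
          map_smul' := fun c a => Subtype.ext (Subtype.ext (by
            show (c • a).1.2 • H - (c • a).1.1 • N = _
            simp only [SetLike.val_smul, Prod.smul_fst, Prod.smul_snd, smul_assoc, ← smul_sub]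
            rfl)) }
      have htoInv : Function.Injective toInv := by
        rw [← LinearMap.ker_eq_bot, Submodule.eq_bot_iff]
        intro ab hab
        have e0 : ab.1.2 • H - ab.1.1 • N = 0 :=
          congrArg (fun x => x.1.1) (LinearMap.mem_ker.mp hab)
        have e1 := congrArg (fun X => U' * X * U) e0
        simp only [N, H, mul_smul_comm, smul_mul_assoc, hback, mul_zero, zero_mul, mul_sub,
          sub_mul] at e1
        have a1 := congrFun (congrFun e1 0) 1
        have a2 := congrFun (congrFun e1 0) 0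
        simp [E₁, Hd] at a1 a2
        exact Subtype.ext (Prod.ext a1 a2)
      have hproj : LinearMap.ker δ ≤ Submodule.map (LinearMap.snd (ZMod p) k k) S := by
        intro b hb
        obtain ⟨a, ha⟩ := (h1mk_eq_zero_iff _ _).mp (LinearMap.mem_ker.mp hb)
        refine ⟨(a, b), fun γ => ?_, rfl⟩
        have e1 : (ι (π ((ad0 p r).ρ (loc q γ) (X b) - X b))).1 =
            ((ad0 p r).ρ (loc q γ) (X b) - X b).1 := congrArg Subtype.val (hsec b γ)
        have ha' : (Rep.res (loc q) (lineMod p k)).ρ γ a - a =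
            π ((ad0 p r).ρ (loc q γ) (X b) - X b) := ha γ
        rw [← ha', hXb, map_sub, hι, Submodule.coe_sub] at e1
        have e2 : matHom r (loc q γ) * ((a : k) • N) * matHom r (loc q γ)⁻¹ - (a : k) • N
            = (b * e γ) • N := by
          rw [← e1]; rw [hιv]
          show _ = ((r (loc q γ) : Matrix (Fin 2) (Fin 2) k) * ((a : k) • N) *
            ((r (loc q γ))⁻¹ : GL (Fin 2) k)) - _
          rw [← matHom_apply, ← matHom_inv]
        have e3 : matHom r (loc q γ) * (b • H) * matHom r (loc q γ)⁻¹ - b • H = (b * e γ) • N := by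
          rw [mul_smul_comm, smul_mul_assoc, ← smul_sub, heH, smul_smul]
        rw [← sub_eq_zero, mul_sub, sub_mul, sub_sub_sub_comm, e2, e3, sub_self]
      calc _ ≤ Module.finrank (ZMod p) (Submodule.map (LinearMap.snd (ZMod p) k k) S) :=
            Submodule.finrank_mono hproj
        _ ≤ Module.finrank (ZMod p) S := Submodule.finrank_map_le _ _
        _ ≤ _ := LinearMap.finrank_le_finrank_of_injective htoInv
    have e1 := LinearMap.finrank_range_add_finrank_ker δ
    have e2 : Module.finrank (ZMod p) (LinearMap.range j) + Module.finrank (ZMod p) (LinearMap.ker j) =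
        Module.finrank (ZMod p) (lH1 q (lineMod p k)) := LinearMap.finrank_range_add_finrank_ker j
    have e3 : Module.finrank (ZMod p) (LinearMap.range δ) ≤
        Module.finrank (ZMod p) (LinearMap.ker j) := Submodule.finrank_mono hδj
    have e4 := finrank_lH1_lineMod_le (k := k) q hmu
    linarith [e1, e2, e3, e4, hδk]
  · intro z Y hY
    rw [res1]
    erw [h1map_mk]
    set w : Z1 (loc q) (Rep.res (loc q) (ad0 p r)) :=
      ⟨cochainsPullPush₁ (loc q) LinearMap.id z.1,
        pullPush_mem_Z1 (MonoidHom.id GQ) (loc q) (fun _ => rfl) _ (fun _ _ => rfl) z.2⟩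
    have hwN : ∀ γ, ∃ a : k, ((w + ⟨_, hcob Y⟩ : Z1 (loc q) (Rep.res (loc q) (ad0 p r))).1 γ).1 =
        a • N := by
      intro γ
      obtain ⟨a, ha⟩ := hY (loc q γ) (by rw [← range_loc]; exact ⟨γ, rfl⟩)
      refine ⟨a, ?_⟩
      show (z.1 (loc q γ) + ((ad0 p r).ρ (loc q γ) Y - Y)).1 = _
      rw [Submodule.coe_add, Submodule.coe_sub, ad0_apply, ← matHom_apply, ← matHom_inv]
      exact ha
    obtain ⟨hv, hsec⟩ := hmem _ (w + ⟨_, hcob Y⟩ : Z1 (loc q) (Rep.res (loc q) (ad0 p r))).2 hwN
    refine ⟨h1mk _ _ ⟨_, hv⟩, ?_⟩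
    have e : j (h1mk _ _ ⟨_, hv⟩) = h1mk _ _ (w + ⟨_, hcob Y⟩) := by
      show h1mk _ _ _ = _
      congr 1
      exact Subtype.ext (funext hsec)
    rw [e]
    exact (map_add _ _ _).trans (add_eq_left.mpr
      ((h1mk_eq_zero_iff (loc q) (M := Rep.res (loc q) (ad0 p r)) ⟨_, hcob Y⟩).mpr ⟨Y, fun g => rfl⟩))

end FLTAgent.PT.TW
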