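import Fermat.Agent.PT.TW.Setting
import Fermat.Agent.PT.LocalAPI
import Fermat.Agent.EIS.Tame

/-!
Area PT, parcel G: the local bounds away from `p`: at a Taylor-Wiles prime and at a prime of
minimal ramification.
-/

set_option autoImplicit false
set_option linter.style.haveILetI false

noncomputable section

open CategoryTheory groupCohomology Matrix Polynomial

namespace FLTAgent.PT.TW

/-- a traceless matrix orthogonal to `N` is `Ad (1 + N) X - X` -/
theorem exists_ad_unipotent {k : Type} [Field k] (h2 : (2 : k) ≠ 0)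
    {N C : Matrix (Fin 2) (Fin 2) k} (hN : N.trace = 0) (hNd : N.det = 0) (hN0 : N ≠ 0)
    (hC : C.trace = 0) (hCN : (C * N).trace = 0) :
    ∃ X : Matrix (Fin 2) (Fin 2) k, X.trace = 0 ∧ (1 + N) * X * (1 - N) - X = C := by
  have hNN := sq_eq_zero_of_nil hN hNd
  obtain ⟨M, hM, hMd, hNM⟩ : ∃ M : Matrix (Fin 2) (Fin 2) k,
      M.trace = 0 ∧ M.det = 0 ∧ (N * M).trace = 1 := by
    by_cases hc : N 1 0 = 0
    · have hb : N 0 1 ≠ 0 := by
        intro hb
        rw [trace_fin_two] at hN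
        rw [det_fin_two, hc, hb] at hNd
        have ha : N 0 0 * N 0 0 = 0 := by linear_combination (N 0 0) * hN - hNd
        have ha' := mul_self_eq_zero.mp ha
        apply hN0
        ext i j
        fin_cases i <;> fin_cases j <;> simp_all
      refine ⟨!![0, 0; (N 0 1)⁻¹, 0], ?_, ?_, ?_⟩ <;>
        simp [trace_fin_two, det_fin_two, Matrix.mul_apply, Fin.sum_univ_two, hb]
    · refine ⟨!![0, (N 1 0)⁻¹; 0, 0], ?_, ?_, ?_⟩ <;>
        simp [trace_fin_two, det_fin_two, Matrix.mul_apply, Fin.sum_univ_two, hc]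
  have eN : N * M * N = N := by rw [sandwich hN hNd, trace_mul_comm, hNM, one_smul]
  have hMM := sq_eq_zero_of_nil hM hMd
  have hsum : N * M + M * N = 1 := by rw [mul_add_mul_eq hN hM, hNM, one_smul]
  obtain ⟨H, hH⟩ : ∃ H, H = N * M - M * N := ⟨_, rfl⟩
  have hHt : H.trace = 0 := by rw [hH, trace_sub, trace_mul_comm N M, sub_self]
  have hHH : H * H = 1 := by
    have e : H * H = N * M * N * M + M * N * M * N - N * (M * M) * N - M * (N * N) * M := by
      rw [hH]; noncomm_ring
    have eM : M * N * M = M := by rw [sandwich hM hMd, hNM, one_smul]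
    rw [e, eN, eM, hMM, hNN, mul_zero, zero_mul, sub_zero, mul_zero, zero_mul, sub_zero, hsum]
  have hHN : H * N = N := by rw [hH, sub_mul, mul_assoc M N, hNN, mul_zero, sub_zero, eN]
  have hNH : N * H = -N := by rw [hH, mul_sub, ← mul_assoc N N, hNN, zero_mul, ← mul_assoc, eN, zero_sub]
  obtain ⟨b, hb⟩ : ∃ b, b = (C * H).trace / 2 := ⟨_, rfl⟩
  obtain ⟨C', hC'⟩ : ∃ C', C' = C - b • H := ⟨_, rfl⟩
  have hC't : C'.trace = 0 := by rw [hC', trace_sub, trace_smul, hC, hHt, smul_zero, sub_zero]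
  have hC'N : (C' * N).trace = 0 := by
    rw [hC', sub_mul, smul_mul_assoc, hHN, trace_sub, trace_smul, hCN, hN, smul_zero, sub_zero]
  have hC'H : (C' * H).trace = 0 := by
    rw [hC', sub_mul, smul_mul_assoc, hHH, trace_sub, trace_smul, trace_one, Fintype.card_fin,
      smul_eq_mul, hb]
    push_cast; field_simp; ring
  have aN : C' * N = -(N * C') := eq_neg_of_add_eq_zero_left (by
    rw [mul_add_mul_eq hC't hN, hC'N, zero_smul])
  have aH : C' * H = -(H * C') := eq_neg_of_add_eq_zero_left (by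
    rw [mul_add_mul_eq hC't hHt, hC'H, zero_smul])
  have hkill : C' * N = 0 := by
    have e : C' * N = N * C' := by
      calc C' * N = C' * H * N := by rw [mul_assoc, hHN]
        _ = H * (N * C') := by rw [aH, neg_mul, mul_assoc H C' N, aN, mul_neg, neg_neg]
        _ = N * C' := by rw [← mul_assoc, hHN]
    have h' : (2 : k) • (C' * N) = 0 := by
      rw [two_smul]; nth_rw 1 [aN]; rw [e, neg_add_cancel]
    exact (smul_eq_zero.mp h').resolve_left h2
  have hC'd : C'.det = 0 := by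
    by_contra hd
    apply hN0
    calc N = C'⁻¹ * C' * N := by rw [nonsing_inv_mul _ (isUnit_iff_ne_zero.mpr hd), one_mul]
      _ = 0 := by rw [mul_assoc, hkill, mul_zero]
  have hNC' : (N * C').trace = 0 := by rw [trace_mul_comm]; exact hC'N
  obtain ⟨a, ha⟩ := nil_proportional h2 hN hNd hC't hC'd hNC' hN0
  refine ⟨b • M + (-((a + b) / 2)) • H, by
    rw [trace_add, trace_smul, trace_smul, hM, hHt, smul_zero, smul_zero, add_zero], ?_⟩
  have e1 : (1 + N) * M * (1 - N) - M = H - N := by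
    calc (1 + N) * M * (1 - N) - M = (N * M - M * N) - N * M * N := by noncomm_ring
      _ = H - N := by rw [← hH, eN]
  have e2 : (1 + N) * H * (1 - N) - H = (-2 : k) • N := by
    calc (1 + N) * H * (1 - N) - H = N * H - H * N - N * H * N := by noncomm_ring
      _ = _ := by rw [hNH, hHN, neg_mul, hNN, neg_zero, sub_zero, neg_smul, two_smul]; abel
  have e3 : C = a • N + b • H := by rw [← ha, hC']; abel
  rw [e3]
  calc _ = b • ((1 + N) * M * (1 - N) - M) + (-((a + b) / 2)) • ((1 + N) * H * (1 - N) - H) := by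
        rw [mul_add, add_mul, smul_sub, smul_sub, mul_smul_comm, mul_smul_comm, smul_mul_assoc,
          smul_mul_assoc]
        abel
    _ = _ := by
        rw [e1, e2, smul_sub, smul_smul,
          show -((a + b) / 2) * (-2 : k) = a + b by field_simp, add_smul]
        abel

variable {p : ℕ} [Fact p.Prime] {k : Type} [Field k] [Algebra (ZMod p) k]
  {ρbar : ResidualGaloisRep k} {r : GQ →* GL (Fin 2) k}

theorem cycloChar_eq_one_of_inertia {q : ℕ} (hq : q.Prime) (hqp : q ≠ p)
    {A : ValuationSubring (AlgebraicClosure ℚ)} (hA : A.LiesOverPrime q) {s : GQ}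
    (hs : s ∈ A.inertiaSubgroupIn ℚ) : ExtCitation.cycloChar p s = 1 := by
  haveI : NeZero p := ⟨(Fact.out : p.Prime).ne_zero⟩
  apply Units.ext
  rw [cycloChar_eq_cyc, Units.val_one]
  exact Attach.cyc_inertia hq (fun h => hqp ((Nat.prime_dvd_prime_iff_eq hq Fact.out).mp h)) hA hs

variable (h : Setting p ρbar r) [Finite k]
include h

/-- at a Taylor-Wiles prime -/
theorem Setting.finrank_lH1_tw (q : Nat.Primes) (hqp : (q : ℕ) ≠ p) (hq1 : p ∣ (q : ℕ) - 1)
    (hreg : ∀ P : ValuationSubring (AlgebraicClosure ℚ), P.LiesOverPrime (q : ℕ) → ∀ φ : GQ,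
      P.IsFrobeniusAt φ (q : ℕ) → ∃ α β : k, α ≠ β ∧
        (r φ : Matrix (Fin 2) (Fin 2) k).charpoly = (X - C α) * (X - C β)) :
    Module.finrank (ZMod p) (lH1 q (ad0 p r)) ≤
      Module.finrank (ZMod p) (lH0 q (ad0 p r)) + Module.finrank (ZMod p) k := by
  have hM := isAdm_ad0 (p := p) r h.level
  haveI : FiniteDimensional (ZMod p) k := Module.Finite.of_finite
  haveI : FiniteDimensional (ZMod p) (adSpace p k) := Module.Finite.of_finite
  haveI : Module.Finite (ZMod p) (dual' (ad0 p r)) := (isAdm_dual hM).finite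
  haveI := finite_lH2 q hM
  haveI := finite_lH2 q (isAdm_mu p)
  rw [euler_away q hqp hM]
  refine Nat.add_le_add_left ?_ _
  have h1 : Module.finrank (ZMod p) (lH2 q (ad0 p r)) ≤
      Module.finrank (ZMod p) (lH0 q (dual' (ad0 p r))) := by
    have := LinearMap.finrank_le_finrank_of_injective (pair02_bijective q hM).2.1
    rwa [Module.finrank_linearMap, finrank_lH2_mu, mul_one] at this
  refine h1.trans ?_
  obtain ⟨φ, hφ⟩ := EIS.exists_frobenius_at q.2 (liesOver_primeLocalPlace q)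
  obtain ⟨γ, hγ⟩ : φ ∈ (loc q).range := by
    rw [range_loc]; exact hφ.mem_decompositionSubgroup
  haveI : NeZero p := ⟨(Fact.out : p.Prime).ne_zero⟩
  have hχ : ExtCitation.cycloChar p φ = 1 := by
    apply Units.ext
    rw [cycloChar_eq_cyc, Units.val_one,
      Attach.cyc_frobenius q.2 (fun hd => hqp ((Nat.prime_dvd_prime_iff_eq q.2 Fact.out).mp hd))
        (liesOver_primeLocalPlace q) hφ, ← Nat.cast_one]
    exact ((ZMod.natCast_eq_natCast_iff _ _ _).mpr
      ((Nat.modEq_iff_dvd' q.2.one_le).mpr hq1).symm)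
  let T : adSpace p k →ₗ[ZMod p] adSpace p k := (ad0 p r).ρ φ⁻¹ - 1
  have hker : Module.finrank (ZMod p) (LinearMap.ker T) ≤ Module.finrank (ZMod p) k := by
    set G := matHom r φ with hG
    obtain ⟨α, β, hab, he⟩ := hreg _ (liesOver_primeLocalPlace q) φ hφ
    obtain ⟨hs, hp⟩ := split_of_charpoly he
    rw [← matHom_apply, ← hG] at hs hp
    have h2 := h.two_ne_zero
    obtain ⟨X₀, hX⟩ : ∃ X₀, X₀ = G + (-(G.trace / 2)) • (1 : Matrix (Fin 2) (Fin 2) k) := ⟨_, rfl⟩
    have hXt : X₀.trace = 0 := by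
      rw [hX, trace_add, trace_smul, trace_one, smul_eq_mul, Fintype.card_fin]
      push_cast; field_simp; ring
    have hXd : X₀.det ≠ 0 := by
      rw [hX, det_add_scalar, ← hp, ← hs]
      intro h0
      field_simp at h0
      have : (α - β) * (α - β) = 0 := by linear_combination -h0
      exact hab (sub_eq_zero.mp (mul_self_eq_zero.mp this))
    have hcomm : ∀ Y : LinearMap.ker T, X₀ * Y.1.1 = Y.1.1 * X₀ := by
      intro Y
      have hY : (ad0 p r).ρ φ⁻¹ Y.1 = Y.1 := sub_eq_zero.mp Y.2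
      have e := congrArg Subtype.val hY
      rw [ad0_apply, map_inv, inv_inv, ← matHom_inv, ← matHom_apply, ← hG] at e
      have e' : G * Y.1.1 = Y.1.1 * G := by
        conv_lhs => rw [← e]
        rw [← mul_assoc, ← mul_assoc, hG, map_mul_inv, one_mul]
      rw [hX, add_mul, mul_add, smul_mul_assoc, mul_smul_comm, one_mul, mul_one, e']
    let f : LinearMap.ker T →ₗ[ZMod p] k :=
      { toFun := fun Y => (X₀ * Y.1.1).trace
        map_add' := fun Y Y' => by simp [mul_add]
        map_smul' := fun c Y => by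
          simp [mul_smul_comm, Matrix.trace_smul] }
    refine LinearMap.finrank_le_finrank_of_injective (f := f) ?_
    rw [← LinearMap.ker_eq_bot, Submodule.eq_bot_iff]
    intro Y hY
    have hY' : (X₀ * Y.1.1).trace = 0 := hY
    have e := mul_add_mul_eq hXt Y.1.2
    rw [← hcomm Y, hY', zero_smul, ← two_smul k, smul_eq_zero] at e
    have e' := e.resolve_left h2
    refine Subtype.ext (Subtype.ext ?_)
    show Y.1.1 = 0
    calc Y.1.1 = X₀⁻¹ * X₀ * Y.1.1 := by rw [nonsing_inv_mul _ (isUnit_iff_ne_zero.mpr hXd), one_mul]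
      _ = 0 := by rw [mul_assoc, e', mul_zero]
  have hle : (lH0 q (dual' (ad0 p r)) : Submodule (ZMod p) (Module.Dual (ZMod p) (adSpace p k))) ≤
      (LinearMap.range T).dualAnnihilator := by
    intro f hf
    rw [Submodule.mem_dualAnnihilator]
    rintro _ ⟨Y, rfl⟩
    have e := LinearMap.congr_fun (hf γ) Y
    change (ExtCitation.cycloChar p (loc q γ) : ZMod p) • f ((ad0 p r).ρ (loc q γ)⁻¹ Y) = f Y at e
    rw [hγ, hχ, Units.val_one, one_smul] at e
    show f ((ad0 p r).ρ φ⁻¹ Y - Y) = 0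
    rw [map_sub, e, sub_self]
  have e1 := Subspace.finrank_add_finrank_dualAnnihilator_eq (LinearMap.range T)
  have e2 := LinearMap.finrank_range_add_finrank_ker T
  have e3 : Module.finrank (ZMod p) (LinearMap.range T).dualAnnihilator ≤ Module.finrank (ZMod p) k := by
    omega
  exact le_trans (Submodule.finrank_mono hle) e3

/-- at a prime of minimal ramification the class is unramified -/
theorem Setting.res1_mem_unr1 (q : Nat.Primes) (hqp : (q : ℕ) ≠ p)
    (z : Z1 (MonoidHom.id GQ) (ad0 p r))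
    (htr : ∀ s ∈ (ExtCitation.primeLocalPlace q).inertiaSubgroupIn ℚ,
      (matHom r s).trace = 2 ∧ ((z.1 s).1 * matHom r s).trace = 0)
    (hram : ∃ s ∈ (ExtCitation.primeLocalPlace q).inertiaSubgroupIn ℚ, r s ≠ 1) :
    res1 q (ad0 p r) (h1mk _ _ z) ∈ unr1 q (ad0 p r) := by
  classical
  haveI := h.charP
  haveI := FLTAgent.Common.isAlgebraic_qbar
  haveI := FLTAgent.Common.isGalois_qbar
  set A := ExtCitation.primeLocalPlace q
  have hA := liesOver_primeLocalPlace q
  have hz : ∀ a b : GQ, z.1 (a * b) = (ad0 p r).ρ a (z.1 b) + z.1 a := fun a b => by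
    have := (mem_cocycles₁_def _).1 z.2.1 a b
    linear_combination (norm := module) -this
  have hz1 : z.1 1 = 0 := by
    have := hz 1 1
    rw [one_mul, map_one, Module.End.one_apply, left_eq_add] at this
    exact this
  obtain ⟨Fz, hFz, -, -, hzc⟩ := (isAdm_ad0 (p := p) r h.level).exists_level (MonoidHom.id GQ) z.2.2
  obtain ⟨Fr, hFr, hrF⟩ := h.level
  haveI : NeZero p := ⟨(Fact.out : p.Prime).ne_zero⟩
  obtain ⟨ζ, hζ⟩ := HasEnoughRootsOfUnity.exists_primitiveRoot (AlgebraicClosure ℚ) p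
  haveI := IntermediateField.adjoin.finiteDimensional (K := ℚ) (Algebra.IsIntegral.isIntegral ζ)
  haveI := hFz; haveI := hFr
  let E := Fz ⊔ Fr ⊔ IntermediateField.adjoin ℚ {ζ}
  let N' : Subgroup GQ :=
    { carrier := {g | r g = 1 ∧ z.1 g = 0 ∧ ExtCitation.cycloChar p g = 1}
      one_mem' := ⟨map_one r, hz1, map_one _⟩
      mul_mem' := by
        rintro a b ⟨a1, a2, a3⟩ ⟨b1, b2, b3⟩
        exact ⟨by rw [map_mul, a1, b1, one_mul], by rw [hz, b2, a2, map_zero, add_zero],
          by rw [map_mul, a3, b3, one_mul]⟩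
      inv_mem' := by
        rintro a ⟨a1, a2, a3⟩
        refine ⟨by rw [map_inv, a1, inv_one], ?_, by rw [map_inv, a3, inv_one]⟩
        have := hz a⁻¹ a
        rw [inv_mul_cancel, hz1, a2, map_zero, zero_add] at this
        exact this.symm }
  have hEle : E.fixingSubgroup ≤ N' := by
    intro g hg
    have hgr := hrF g (IntermediateField.fixingSubgroup_antitone (le_sup_right.trans le_sup_left) hg)
    refine ⟨hgr, ?_, ?_⟩
    · have := hzc 1 g (IntermediateField.fixingSubgroup_antitone (le_sup_left.trans le_sup_left) hg)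
      rwa [one_mul, hz1] at this
    · apply Units.ext
      rw [cycloChar_eq_cyc, Units.val_one]
      refine Attach.cyc_unique g 1 fun y hy => ?_
      obtain ⟨i, -, rfl⟩ := hζ.eq_pow_of_pow_eq_one hy
      haveI : Fact (1 < p) := ⟨(Fact.out : p.Prime).one_lt⟩
      rw [map_pow, (IntermediateField.mem_fixingSubgroup_iff _ _).1
        (IntermediateField.fixingSubgroup_antitone le_sup_right hg) ζ
        (IntermediateField.mem_adjoin_simple_self ℚ ζ), ZMod.val_one, pow_one]
  have hopen : IsOpen (N' : Set GQ) :=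
    Subgroup.isOpen_mono hEle (IntermediateField.fixingSubgroup_isOpen E)
  let L := IntermediateField.fixedField N'
  have hLfix : L.fixingSubgroup = N' :=
    InfiniteGalois.fixingSubgroup_fixedField ⟨N', Subgroup.isClosed_of_isOpen _ hopen⟩
  have hLE : L ≤ E := by
    rw [← InfiniteGalois.fixedField_fixingSubgroup E]
    exact IntermediateField.fixedField_le hEle
  haveI : FiniteDimensional ℚ L := FiniteDimensional.of_injective
    (IntermediateField.inclusion hLE).toLinearMap (IntermediateField.inclusion_injective hLE)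
  have hρ1 : ∀ g, r g = 1 → (ad0 p r).ρ g = 1 := fun g hg => by
    refine LinearMap.ext fun y => Subtype.ext ?_
    rw [ad0_apply, hg]; simp
  have hnorm : ∀ (σ : GQ), ∀ g ∈ N', σ⁻¹ * g * σ ∈ N' := by
    rintro σ g ⟨g1, g2, g3⟩
    refine ⟨by rw [map_mul, map_mul, g1, mul_one, map_inv, inv_mul_cancel], ?_,
      by rw [map_mul, map_mul, g3, mul_one, map_inv, inv_mul_cancel]⟩
    rw [hz, hz, g2, map_zero, zero_add, map_mul _ σ⁻¹, hρ1 g g1, mul_one]
    rw [← hz, inv_mul_cancel, hz1]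
  have hL : ∀ σ : GQ, ∀ x ∈ L, σ x ∈ L := by
    intro σ x hx
    rw [IntermediateField.mem_fixedField_iff] at hx ⊢
    intro g hg
    have := hx _ (hnorm σ g hg)
    rw [AlgEquiv.mul_apply, AlgEquiv.mul_apply] at this
    have e := congrArg σ this
    rwa [← AlgEquiv.mul_apply σ σ⁻¹, mul_inv_cancel, AlgEquiv.one_apply] at e
  have hmemN : ∀ g, (∀ x ∈ L, g x = x) → g ∈ N' := fun g hg =>
    hLfix ▸ (IntermediateField.mem_fixingSubgroup_iff _ _).2 hg
  have hfixN : ∀ g ∈ N', ∀ x ∈ L, g x = x := fun g hg =>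
    (IntermediateField.mem_fixingSubgroup_iff _ _).1 (hLfix.symm ▸ hg)
  have hpz : ∀ (v : ad0 p r), (p : ℕ) • v = 0 := fun v => by
    rw [← Nat.cast_smul_eq_nsmul (ZMod p), ZMod.natCast_self, zero_smul]
  have hunip : ∀ s ∈ A.inertiaSubgroupIn ℚ, ∃ N : Matrix (Fin 2) (Fin 2) k,
      N.trace = 0 ∧ N.det = 0 ∧ matHom r s = 1 + N := by
    intro s hs
    refine ⟨matHom r s + (-1 : k) • 1, ?_, ?_, by rw [neg_one_smul]; abel⟩
    · rw [trace_add, trace_smul, trace_one, (htr s hs).1, Fintype.card_fin, smul_eq_mul]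
      push_cast; ring
    · rw [det_add_scalar, (htr s hs).1, matHom_apply, h.hdet,
        cycloChar_eq_one_of_inertia q.2 hqp hA hs, Units.val_one, map_one]
      ring
  have hk : ∀ τ ∈ A.inertiaSubgroupIn ℚ, ∀ x ∈ L, (τ ^ (p ^ 2)) x = x := by
    intro τ hτ
    refine hfixN _ ?_
    have hτp : r (τ ^ p) = 1 := by
      obtain ⟨N, hN, hNd, hG⟩ := hunip τ hτ
      have hNN := sq_eq_zero_of_nil hN hNd
      have hp : ∀ i : ℕ, (1 + N) ^ i = 1 + (i : k) • N := by
        intro i
        induction i with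
        | zero => simp
        | succ i ih =>
          rw [pow_succ, ih, add_mul, one_mul, mul_add, mul_one, smul_mul_assoc, hNN, smul_zero,
            add_zero, Nat.cast_succ, add_smul, one_smul]
          abel
      refine Units.ext ?_
      rw [← matHom_apply, map_pow, hG, hp, CharP.cast_eq_zero, zero_smul, add_zero]; rfl
    refine ⟨by rw [pow_two p, pow_mul, map_pow, hτp, one_pow], ?_, by
      rw [map_pow, cycloChar_eq_one_of_inertia q.2 hqp hA hτ, one_pow]⟩
    have hm : ∀ m : ℕ, z.1 ((τ ^ p) ^ m) = m • z.1 (τ ^ p) := by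
      intro m
      induction m with
      | zero => rw [pow_zero, hz1, zero_smul]
      | succ m ih => rw [pow_succ', hz, hρ1 _ hτp, Module.End.one_apply, ih, succ_nsmul]
    rw [pow_two p, pow_mul, hm, hpz]
  have hζL : ∀ y : AlgebraicClosure ℚ, y ^ p = 1 → y ∈ L := by
    intro y hy
    rw [IntermediateField.mem_fixedField_iff]
    rintro g ⟨-, -, hg⟩
    rw [Attach.cyc_spec g hy, ← cycloChar_eq_cyc, hg, Units.val_one]
    haveI : Fact (1 < p) := ⟨(Fact.out : p.Prime).one_lt⟩
    rw [ZMod.val_one, pow_one]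
  obtain ⟨σ, hσ, hgen, -⟩ := EIS.exists_tame_generator (k := 2) q.2 hA (Fact.out : p.Prime)
    (fun e => hqp e.symm) L hL hζL hk
  have hrel : ∀ τ ∈ A.inertiaSubgroupIn ℚ, ∃ m : ℕ, r τ = r (σ ^ m) ∧ z.1 τ = z.1 (σ ^ m) := by
    intro τ hτ
    obtain ⟨m, hm⟩ := hgen τ hτ
    obtain ⟨h1, h2, -⟩ : (σ ^ m)⁻¹ * τ ∈ N' := hmemN _ fun x hx => by
      rw [AlgEquiv.mul_apply, hm x hx]
      exact (σ ^ m).symm_apply_apply x
    refine ⟨m, ?_, ?_⟩
    · rw [map_mul, map_inv, inv_mul_eq_one] at h1; exact h1.symm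
    · have := hz (σ ^ m) ((σ ^ m)⁻¹ * τ)
      rwa [mul_inv_cancel_left, h2, map_zero, zero_add] at this
  obtain ⟨N, hN, hNd, hG⟩ := hunip σ hσ
  have hN0 : N ≠ 0 := by
    rintro rfl
    obtain ⟨s, hs, hs1⟩ := hram
    obtain ⟨m, hm, -⟩ := hrel s hs
    apply hs1
    rw [add_zero] at hG
    rw [hm, map_pow, show r σ = 1 from Units.ext hG, one_pow]
  have hCN : ((z.1 σ).1 * N).trace = 0 := by
    have := (htr σ hσ).2
    rwa [hG, mul_add, mul_one, trace_add, show (z.1 σ).1.trace = 0 from (z.1 σ).2, zero_add] at this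
  obtain ⟨X₀, hXt, hX⟩ := exists_ad_unipotent h.two_ne_zero hN hNd hN0 (z.1 σ).2 hCN
  have hinv : matHom r σ⁻¹ = 1 - N := by
    calc matHom r σ⁻¹ = matHom r σ⁻¹ * ((1 + N) * (1 - N)) := by
          rw [add_mul, one_mul, mul_sub, mul_one, sq_eq_zero_of_nil hN hNd, sub_zero,
            sub_add_cancel, mul_one]
      _ = 1 - N := by rw [← mul_assoc, ← hG, map_inv_mul, one_mul]
  let x : ad0 p r := ⟨X₀, hXt⟩
  have hσx : (ad0 p r).ρ σ x - x = z.1 σ := Subtype.ext (by
    rw [Submodule.coe_sub, ad0_apply, ← matHom_apply, ← matHom_inv, hG, hinv]; exact hX)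
  have hpowx : ∀ m : ℕ, (ad0 p r).ρ (σ ^ m) x - x = z.1 (σ ^ m) := by
    intro m
    induction m with
    | zero => rw [pow_zero, map_one, Module.End.one_apply, sub_self, hz1]
    | succ m ih =>
      rw [pow_succ, hz, ← hσx, ← ih, map_mul, Module.End.mul_apply, map_sub]
      abel
  have hall : ∀ τ ∈ A.inertiaSubgroupIn ℚ, (ad0 p r).ρ τ x - x = z.1 τ := by
    intro τ hτ
    obtain ⟨m, h1, h2⟩ := hrel τ hτ
    rw [h2, ← hpowx m]
    congr 1
    refine Subtype.ext ?_
    rw [ad0_apply, ad0_apply, h1]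
  -- subtract the coboundary
  rw [res1]
  erw [h1map_mk]
  set w : Z1 (loc q) (Rep.res (loc q) (ad0 p r)) :=
    ⟨cochainsPullPush₁ (loc q) LinearMap.id z.1,
      pullPush_mem_Z1 (MonoidHom.id GQ) (loc q) (fun _ => rfl) _ (fun _ _ => rfl) z.2⟩
  have hd : (fun g => (ad0 p r).ρ (loc q g) x - x) ∈ Z1 (loc q) (Rep.res (loc q) (ad0 p r)) := by
    refine ⟨(mem_cocycles₁_def _).2 fun a b => ?_, ?_⟩
    · show (ad0 p r).ρ (loc q a) ((ad0 p r).ρ (loc q b) x - x)
        - ((ad0 p r).ρ (loc q (a * b)) x - x) + ((ad0 p r).ρ (loc q a) x - x) = 0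
      rw [map_mul, map_mul _ (loc q a), Module.End.mul_apply, map_sub]
      abel
    · refine ⟨Fr, hFr, fun g s hs => ?_⟩
      show (ad0 p r).ρ (loc q (g * s)) x - x = _
      rw [map_mul, map_mul, hρ1 _ (hrF _ hs), mul_one]
  refine Submodule.mem_map.mpr ⟨w - ⟨_, hd⟩, fun s hs => ?_, ?_⟩
  · show z.1 (loc q s) - ((ad0 p r).ρ (loc q s) x - x) = 0
    rw [hall _ hs, sub_self]
  · exact (map_sub _ _ _).trans (sub_eq_self.mpr ((h1mk_eq_zero_iff (loc q) (M := Rep.res (loc q) (ad0 p r)) ⟨_, hd⟩).mpr ⟨x, fun g => rfl⟩))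

end FLTAgent.PT.TW
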