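import Fermat.Agent.PT.TW.Tangent
import Fermat.Agent.PT.TW.LocalAtP
import Fermat.Agent.PT.TW.LocalAway
import Fermat.Agent.Common.InertiaConj

/-!
Area PT, parcel G: the local classes of the cocycle of a homomorphism to the dual numbers.
-/

set_option autoImplicit false
set_option linter.unusedSectionVars false

noncomputable section

open CategoryTheory groupCohomology Matrix IsLocalRing TrivSqZeroExt

namespace FLTAgent.PT.TW

variable {p : ℕ} [Fact p.Prime] {𝒪 : Type} [CommRing 𝒪] [IsDomain 𝒪] [IsDiscreteValuationRing 𝒪]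
  [IsAdicComplete (maximalIdeal 𝒪) 𝒪] [Finite (ResidueField 𝒪)]
  [Algebra (ZMod p) (ResidueField 𝒪)] {ρbar : ResidualGaloisRep (ResidueField 𝒪)}
  {r : GQ →* GL (Fin 2) (ResidueField 𝒪)}
  {DQ : RepData ρbar}

/-- the reduction of the deformation ring -/
def redHom (DQ : RepData ρbar) : DQ.R →+* ResidueField 𝒪 :=
  (RingEquiv.ofBijective (ResidueField.map (algebraMap 𝒪 DQ.R))
    ⟨RingHom.injective _, fun y => by
      obtain ⟨a, ha⟩ := DQ.residue_surjective y
      exact ⟨residue 𝒪 a, ha⟩⟩).symm.toRingHom.comp (residue DQ.R)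

theorem residue_eq_map_redHom (x : DQ.R) :
    residue DQ.R x = ResidueField.map (algebraMap 𝒪 DQ.R) (redHom DQ x) :=
  ((RingEquiv.ofBijective (ResidueField.map (algebraMap 𝒪 DQ.R))
    ⟨RingHom.injective _, fun y => by
      obtain ⟨a, ha⟩ := DQ.residue_surjective y
      exact ⟨residue 𝒪 a, ha⟩⟩).apply_symm_apply (residue DQ.R x)).symm

/-- the ramified inertia element at the standard place -/
theorem Setting.exists_ramified (h : Setting p ρbar r) (q : Nat.Primes)
    (hq : ¬ ρbar.IsUnramifiedAt (q : ℕ)) :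
    ∃ s ∈ (ExtCitation.primeLocalPlace q).inertiaSubgroupIn ℚ, r s ≠ 1 := by
  by_contra hc
  push Not at hc
  refine hq fun P hP σ hσ => ?_
  have h1 : P.inertiaSubgroupIn ℚ ≤ r.ker :=
    FLTAgent.Common.inertia_le_of_inertia_le q.2 (liesOver_primeLocalPlace q) hP hc
  obtain ⟨b, hb⟩ := h.rep
  have h2 : (r σ : Matrix (Fin 2) (Fin 2) (ResidueField 𝒪)) = 1 := by
    rw [show r σ = 1 from h1 hσ, Units.val_one]
  exact (LinearMap.toMatrix b b).injective
    ((hb σ).trans (h2.trans (LinearMap.toMatrix_one b).symm))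

variable (cd : Coord DQ r) [Algebra 𝒪 (DualNumber (ResidueField 𝒪))]
  (h1 : ∀ a, algebraMap 𝒪 (DualNumber (ResidueField 𝒪)) a = TrivSqZeroExt.inl (residue 𝒪 a))
  (hdet : DetMat p cd.R₀) (hrdet : ∀ σ, (matHom r σ).det ≠ 0)

include h1

theorem fst_eq_redHom (φ : DQ.R →ₐ[𝒪] DualNumber (ResidueField 𝒪)) (x : DQ.R) :
    (φ x).fst = redHom DQ x :=
  fst_eq h1 φ (residue_eq_map_redHom x)

/-- (a) unramified -/
theorem res1_tanCoc_mem_unr1_of_unramified (q : Nat.Primes) (hq : DQ.ρ.IsUnramifiedAt (q : ℕ))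
    (φ : DQ.R →ₐ[𝒪] DualNumber (ResidueField 𝒪)) :
    res1 q (ad0 p r) (h1mk _ _ (tanCoc cd h1 hdet hrdet φ)) ∈ unr1 q (ad0 p r) := by
  rw [res1]
  erw [h1map_mk]
  refine Submodule.mem_map.mpr ⟨_, fun s hs => ?_, rfl⟩
  refine Subtype.ext ?_
  show rawCoc cd φ (loc q s) = 0
  have e : cd.R₀ (loc q s) = 1 :=
    (eq_one_iff_of_repMat cd.rep _).mp (hq _ (liesOver_primeLocalPlace q) _ hs)
  have e' : push cd φ (loc q s) = 1 := by
    rw [push, e, Matrix.map_one _ (map_zero _) (map_one _)]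
  rw [rawCoc, e', sndM_one, zero_mul]

/-- (b) unipotent on inertia -/
theorem res1_tanCoc_mem_unr1_of_unipotent (h : Setting p ρbar r) (q : Nat.Primes)
    (hqp : (q : ℕ) ≠ p) (hq : DQ.ρ.IsUnipotentOnInertiaAt (q : ℕ))
    (hram : ¬ ρbar.IsUnramifiedAt (q : ℕ))
    (φ : DQ.R →ₐ[𝒪] DualNumber (ResidueField 𝒪)) :
    res1 q (ad0 p r) (h1mk _ _ (tanCoc cd h1 hdet hrdet φ)) ∈ unr1 q (ad0 p r) := by
  refine h.res1_mem_unr1 q hqp _ (fun s hs => ?_) (h.exists_ramified q hram)
  have hc := hq _ (liesOver_primeLocalPlace q) s hs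
  rw [charpoly_eq_of_repMat cd.rep, Matrix.charpoly_fin_two] at hc
  have ht : (cd.R₀ s).trace = 2 := by
    have := congrArg (fun f : Polynomial DQ.R => f.coeff 1) hc
    simp [sub_sq, Polynomial.coeff_one, Polynomial.coeff_X] at this
    first
      | exact this
      | linear_combination -this
      | linear_combination this
  have e : (push cd φ s).trace = 2 := by
    show ((cd.R₀ s).map φ).trace = 2
    rw [trace_fin_two, Matrix.map_apply, Matrix.map_apply, ← map_add, ← trace_fin_two, ht, map_ofNat]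
  rw [trace_fin_two] at e
  constructor
  · rw [← fstM_push cd h1 φ s, trace_fin_two]
    have := congrArg TrivSqZeroExt.fst e
    rw [← Nat.cast_ofNat (R := DualNumber (ResidueField 𝒪)), TrivSqZeroExt.fst_natCast] at this
    simpa [fstM] using this
  · rw [tanCoc_val, ← fstM_push cd h1 φ s, ← sndM_push cd h1, trace_fin_two]
    have := congrArg TrivSqZeroExt.snd e
    rw [← Nat.cast_ofNat (R := DualNumber (ResidueField 𝒪)), TrivSqZeroExt.snd_natCast] at this
    simpa [sndM] using this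

/-- (c) strictly ordinary at `p` -/
theorem exists_strict_classes (h : Setting p ρbar r) (hs : StrictMat p cd.R₀)
    (hmu : Module.finrank (ZMod p) (lH1 (ExtCitation.pPrime p) (mu p)) ≤ 2) :
    ∃ L : Submodule (ZMod p) (lH1 (ExtCitation.pPrime p) (ad0 p r)),
      Module.finrank (ZMod p) L ≤ Module.finrank (ZMod p) (lH0 (ExtCitation.pPrime p) (ad0 p r)) +
        Module.finrank (ZMod p) (ResidueField 𝒪) ∧
      ∀ φ, res1 (ExtCitation.pPrime p) (ad0 p r) (h1mk _ _ (tanCoc cd h1 hdet hrdet φ)) ∈ L := by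
  classical
  haveI := h.charP
  have h2 := h.two_ne_zero
  set k := ResidueField 𝒪
  set q := ExtCitation.pPrime p
  obtain ⟨U, U', hU, hU', hD, -, hx⟩ := hs.2 _ (liesOver_primeLocalPlace q)
  set U0 := U.map (redHom DQ)
  set U0' := U'.map (redHom DQ)
  have hU0 : U0' * U0 = 1 := by rw [← Matrix.map_mul, hU, Matrix.map_one _ (map_zero _) (map_one _)]
  have hU0' : U0 * U0' = 1 := by
    rw [← Matrix.map_mul, hU', Matrix.map_one _ (map_zero _) (map_one _)]
  have hω : ∀ s, ∀ μ : AlgebraicClosure ℚ, μ ^ p ^ 1 = 1 →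
      s μ = μ ^ (ExtCitation.cycloChar p s : ZMod p).val := by
    intro s μ hμ
    rw [pow_one] at hμ
    exact Ext.cycloChar_spec s hμ
  have hωk : ∀ s, ((((ExtCitation.cycloChar p s : ZMod p).val : ℕ)) : k) =
      algebraMap (ZMod p) k (ExtCitation.cycloChar p s) := fun s => by
    rw [← map_natCast (algebraMap (ZMod p) k), ZMod.natCast_zmod_val]
  have hred : ∀ s, (cd.R₀ s).map (redHom DQ) = matHom r s := by
    intro s
    ext i j
    apply (ResidueField.map (algebraMap 𝒪 DQ.R)).injective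
    rw [Matrix.map_apply, ← residue_eq_map_redHom]
    exact congrFun (congrFun (cd.aligned s) i) j
  have hp0 : ((p ^ 1 : ℕ) : k) = 0 := by rw [pow_one]; exact CharP.cast_eq_zero k p
  have hUD : ∀ s ∈ (ExtCitation.primeLocalPlace q).decompositionSubgroup ℚ,
      (U0' * matHom r s * U0) 1 0 = 0 ∧ (U0' * matHom r s * U0) 0 0 =
        algebraMap (ZMod p) k (ExtCitation.cycloChar p s) * (U0' * matHom r s * U0) 1 1 := by
    intro s hs'
    rw [← hred, ← Matrix.map_mul, ← Matrix.map_mul, Matrix.map_apply, Matrix.map_apply,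
      Matrix.map_apply, hD s hs', map_zero]
    refine ⟨rfl, ?_⟩
    obtain ⟨u, hu⟩ := Ideal.mem_span_singleton'.mp (hx s hs' 1 _ (hω s))
    have e := congrArg (redHom DQ) hu
    rw [map_mul, map_natCast, hp0, mul_zero, map_sub, map_mul, map_natCast, hωk] at e
    exact sub_eq_zero.mp e.symm
  obtain ⟨L, hL, hmem⟩ := h.exists_strict_condition q hmu U0 U0' hU0 hU0' hUD
  refine ⟨L, hL, fun φ => ?_⟩
  set V : Matrix (Fin 2) (Fin 2) (DualNumber k) := U.map φ
  set V' : Matrix (Fin 2) (Fin 2) (DualNumber k) := U'.map φ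
  have hVf : fstM V = U0 := by ext i j; exact fst_eq_redHom h1 φ _
  have hV'f : fstM V' = U0' := by ext i j; exact fst_eq_redHom h1 φ _
  have hVV : V' * V = 1 := by rw [← Matrix.map_mul, hU, Matrix.map_one _ (map_zero _) (map_one _)]
  set U1 := sndM V
  have hV's : sndM V' = -(U0' * U1 * U0') := by
    have e := congrArg sndM hVV
    rw [sndM_mul, sndM_one, hVf, hV'f] at e
    calc sndM V' = sndM V' * (U0 * U0') := by rw [hU0', mul_one]
      _ = (sndM V' * U0) * U0' := (mul_assoc _ _ _).symm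
      _ = (-(U0' * U1)) * U0' := by rw [eq_neg_of_add_eq_zero_right e]
      _ = _ := neg_mul _ _
  set Y0 := U1 * U0'
  set t : k := Y0.trace / 2
  have hYt : (Y0 - t • (1 : Matrix (Fin 2) (Fin 2) k)).trace = 0 := by
    rw [trace_sub, trace_smul, trace_one, Fintype.card_fin, smul_eq_mul]
    simp only [t, Nat.cast_ofNat]
    rw [div_mul_cancel₀ _ h2, sub_self]
  refine hmem _ ⟨_, hYt⟩ fun s hs' => ?_
  set c := rawCoc cd φ s
  show ∃ a : k, c + (matHom r s * (Y0 - t • 1) * matHom r s⁻¹ - (Y0 - t • 1)) =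
    a • (U0 * !![0, 1; 0, 0] * U0')
  set M : Matrix (Fin 2) (Fin 2) (DualNumber k) := V' * push cd φ s * V with hMdef
  have hMmap : M = (U' * cd.R₀ s * U).map φ := by rw [Matrix.map_mul, Matrix.map_mul]; rfl
  obtain ⟨h10, h00⟩ := hUD s hs'
  have hMf : fstM M = U0' * matHom r s * U0 := by
    rw [hMdef, fstM_mul, fstM_mul, hVf, hV'f, fstM_push cd h1]
  set ω := algebraMap (ZMod p) k (ExtCitation.cycloChar p s)
  have hp0' : ((p ^ 1 : ℕ) : DualNumber k) = 0 :=
    TrivSqZeroExt.ext (by rw [TrivSqZeroExt.fst_natCast, hp0]; rfl) (by simp)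
  have hM10 : M 1 0 = 0 := by rw [hMmap, Matrix.map_apply, hD s hs', map_zero]
  have hMd : M 0 0 = inl ω * M 1 1 := by
    obtain ⟨u, hu⟩ := Ideal.mem_span_singleton'.mp (hx s hs' 1 _ (hω s))
    have e := congrArg φ hu
    rw [map_mul, map_natCast, hp0', mul_zero, map_sub, map_mul, map_natCast] at e
    rw [hMmap, Matrix.map_apply, Matrix.map_apply,
      show ω = _ from (hωk s).symm, TrivSqZeroExt.inl_natCast]
    exact sub_eq_zero.mp e.symm
  have hdM : M.det = inl ω := by
    obtain ⟨u, hu⟩ := Ideal.mem_span_singleton'.mp (hdet.2 1 s _ (hω s))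
    have e := congrArg φ hu
    rw [map_mul, map_natCast, hp0', mul_zero, map_sub, map_natCast] at e
    rw [show ω = _ from (hωk s).symm, TrivSqZeroExt.inl_natCast, ← sub_eq_zero.mp e.symm, hMmap]
    show ((U' * cd.R₀ s * U).map φ).det = _
    rw [← AlgHom.mapMatrix_apply, ← AlgHom.map_det, det_mul, det_mul, mul_right_comm, ← det_mul,
      hU, det_one, one_mul]
  have hω0 : ω ≠ 0 := by
    simp only [ω, ne_eq, map_eq_zero]
    exact (ExtCitation.cycloChar p s).ne_zero
  rw [det_fin_two, hM10, mul_zero, sub_zero, hMd] at hdM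
  have e1 := congrArg TrivSqZeroExt.fst hdM
  have e2 := congrArg TrivSqZeroExt.snd hdM
  simp at e1 e2
  set z := (M 1 1).fst
  have hz : z ≠ 0 := fun h0 => hω0 (by rw [← e1, h0, mul_zero])
  have h11 : (M 1 1).snd = 0 := by
    have : (2 * ω * z) * (M 1 1).snd = 0 := by linear_combination e2
    exact (mul_eq_zero.mp this).resolve_left (mul_ne_zero (mul_ne_zero h2 hω0) hz)
  have hMs : sndM M = (M 0 1).snd • !![0, 1; 0, 0] := by
    ext i j
    fin_cases i <;> fin_cases j
    · simp [sndM, hMd, h11]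
    · simp [sndM]
    · simp [sndM, hM10]
    · simp [sndM, h11]
  -- the conjugated matrix
  set E : Matrix (Fin 2) (Fin 2) k := !![0, 1; 0, 0]
  set R := matHom r s
  set R' := matHom r s⁻¹
  have hRR : R * R' = 1 := map_mul_inv _ _
  have hER : U0 * E * U0' * R = z • (U0 * E * U0') := by
    have e : E * (U0' * R * U0) = z • E := by
      ext i j
      fin_cases i <;> fin_cases j <;>
        simp [E, z, Matrix.mul_apply, Fin.sum_univ_two, h10, ← hMf, fstM, hM10,
          Matrix.vecMul, dotProduct, vecHead, vecTail]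
    calc U0 * E * U0' * R = U0 * (E * (U0' * R * U0)) * U0' := by
          simp only [mul_assoc, hU0', mul_one]
      _ = _ := by rw [e, mul_smul_comm, smul_mul_assoc]
  have hER' : U0 * E * U0' * R' = z⁻¹ • (U0 * E * U0') := by
    calc U0 * E * U0' * R' = z⁻¹ • ((z • (U0 * E * U0')) * R') := by
          rw [smul_mul_assoc, smul_smul, inv_mul_cancel₀ hz, one_smul]
      _ = _ := by rw [← hER, mul_assoc _ R, hRR, mul_one]
  refine ⟨(M 0 1).snd * z⁻¹, ?_⟩
  have e3 : U0 * sndM M * U0' = R * Y0 + c * R - Y0 * R := by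
    rw [hMdef, sndM_mul, sndM_mul, fstM_mul, hV'f, hVf, fstM_push cd h1, sndM_push cd h1,
      fstM_push cd h1, hV's]
    show U0 * (U0' * R * U1 + (U0' * (c * R) + -(U0' * U1 * U0') * R) * U0) * U0' = _
    simp only [mul_add, add_mul, neg_mul, mul_neg, mul_assoc, hU0', mul_one]
    simp only [← mul_assoc, hU0', one_mul]
    rw [show U1 * U0' * R = Y0 * R from rfl, mul_assoc R U1, show U1 * U0' = Y0 from rfl]
    abel
  have e4 : R * Y0 * R' + c - Y0 = (M 0 1).snd • (z⁻¹ • (U0 * E * U0')) := by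
    calc R * Y0 * R' + c - Y0 = (R * Y0 + c * R - Y0 * R) * R' := by
          simp only [sub_mul, add_mul, mul_assoc _ R R', hRR, mul_one]
      _ = _ := by rw [← e3, hMs, mul_smul_comm, smul_mul_assoc, smul_mul_assoc, hER']
  rw [← smul_smul, ← e4, mul_sub, sub_mul, mul_smul_comm, mul_one, smul_mul_assoc, hRR]
  abel

/-- (d) flat at `p` -/
theorem res1_tanCoc_mem_flat (hf : DQ.ρ.IsFlatAt p)
    (φ : DQ.R →ₐ[𝒪] DualNumber (ResidueField 𝒪)) :
    res1 (ExtCitation.pPrime p) (ad0 p r) (h1mk _ _ (tanCoc cd h1 hdet hrdet φ)) ∈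
      Submodule.span (ZMod p) (flatClasses (p := p) r) := by
  rcases surjective_or_const h1 φ with hs | hc
  · refine Submodule.subset_span ⟨tanCoc cd h1 hdet hrdet φ, rfl, ?_⟩
    haveI := dual_finite h1 (𝒪 := 𝒪)
    haveI hl := isLocalHom_push h1 φ
    let ρA := DQ.ρ.baseChangeAlong (φ : DQ.R →+* DualNumber (ResidueField 𝒪)) hl
    have hA : Deform.RepMat ρA.ρ (push cd φ) :=
      Deform.repMat_baseChangeAlong (φ : DQ.R →+* DualNumber (ResidueField 𝒪)) hl cd.rep
    have hfA : ρA.IsFlatAt p :=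
      isFlatAt_map (φ : DQ.R →+* DualNumber (ResidueField 𝒪)) hs cd.rep hA hf
    obtain ⟨b, hb⟩ := hA
    set c : cocycles₁ (ad0 p r) :=
      ⟨(tanCoc cd h1 hdet hrdet φ).1, (tanCoc cd h1 hdet hrdet φ).2.1⟩
    let Φ : ρA.V ≃+ ExtMod r c :=
      { toFun := fun v => ⟨fun i => (b.repr v i).fst, fun i => (b.repr v i).snd⟩
        invFun := fun x => b.equivFun.symm fun i => inl (x.fst i) + inr (x.snd i)
        left_inv := fun v => by
          show b.equivFun.symm (fun i => inl (b.repr v i).fst + inr (b.repr v i).snd) = v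
          simp only [TrivSqZeroExt.inl_fst_add_inr_snd_eq]
          exact b.equivFun.symm_apply_apply v
        right_inv := fun x => by
          have e : ∀ i, b.repr (b.equivFun.symm fun i => inl (x.fst i) + inr (x.snd i)) i =
              inl (x.fst i) + inr (x.snd i) :=
            fun i => congrFun (b.equivFun.apply_symm_apply _) i
          ext i <;> simp only [e] <;> simp
        map_add' := fun v w => by
          ext i <;> simp }
    refine hasFlatModel_of_isFlatAt hfA Φ fun σ v => ?_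
    have hv : ∀ i, b.repr (ρA.ρ σ v) i =
        push cd φ σ i 0 * b.repr v 0 + push cd φ σ i 1 * b.repr v 1 := fun i => by
      have e := congrFun (LinearMap.toMatrix_mulVec_repr b b (ρA.ρ σ) v) i
      rw [hb σ] at e
      rw [← e]
      simp [Matrix.mulVec, dotProduct, Fin.sum_univ_two]
    refine ExtMod.ext (funext fun i => ?_) (funext fun i => ?_)
    · rw [ExtMod.smul_fst, ← matHom_apply, ← fstM_push cd h1 φ σ]
      show (b.repr (ρA.ρ σ v) i).fst = _
      rw [hv]
      simp [Φ, fstM, Matrix.mulVec, dotProduct, Fin.sum_univ_two]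
    · rw [ExtMod.smul_snd, ← matHom_apply, ← fstM_push cd h1 φ σ, Matrix.mulVec_mulVec]
      show (b.repr (ρA.ρ σ v) i).snd = _
      rw [show (c σ).1 * fstM (push cd φ σ) = sndM (push cd φ σ) from (sndM_push cd h1 φ σ).symm, hv]
      fin_cases i <;>
        simp [Φ, fstM, sndM, Matrix.mulVec, dotProduct, Fin.sum_univ_two] <;> ring
  · have : tanCoc cd h1 hdet hrdet φ = 0 :=
      Subtype.ext (funext fun σ => Subtype.ext (rawCoc_eq_zero_of_const cd h1 hc σ))
    rw [this, map_zero, map_zero]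
    exact zero_mem _

end FLTAgent.PT.TW
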