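import Fermat.Agent.Deform.Mat
import Fermat.Agent.Flat.Defs
import Fermat.Prelude.Def_GaloisRep_StrictOrdinary
import Fermat.Prelude.Def_GaloisRep_Flat

/-!
Area PT, parcel G: the local deformation conditions in coordinates and their stability under
surjections of coefficient rings.
-/

set_option autoImplicit false

noncomputable section

namespace FLTAgent.PT.TW

open Deform IsLocalRing

variable {A : Type} [CommRing A] [IsLocalRing A]

theorem det_eq_of_repMat {ρ : GaloisRepAdic A} {R : Deform.GQ → Mt A} (h : RepMat ρ.ρ R)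
    (σ : Deform.GQ) : LinearMap.det (ρ.ρ σ) = (R σ).det := by
  obtain ⟨b, hb⟩ := h
  rw [← hb, LinearMap.det_toMatrix]

theorem charpoly_eq_of_repMat {ρ : GaloisRepAdic A} {R : Deform.GQ → Mt A} (h : RepMat ρ.ρ R)
    (σ : Deform.GQ) : LinearMap.charpoly (ρ.ρ σ) = (R σ).charpoly := by
  obtain ⟨b, hb⟩ := h
  rw [← hb, LinearMap.charpoly_toMatrix]

theorem eq_one_iff_of_repMat {ρ : GaloisRepAdic A} {R : Deform.GQ → Mt A} (h : RepMat ρ.ρ R)
    (σ : Deform.GQ) : ρ.ρ σ = 1 ↔ R σ = 1 := by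
  obtain ⟨b, hb⟩ := h
  rw [← hb, ← LinearMap.toMatrix_one b]
  exact (LinearMap.toMatrix b b).injective.eq_iff.symm

/-- determinant cyclotomic, in coordinates -/
def DetMat (p : ℕ) (R : Deform.GQ → Mt A) : Prop :=
  (p : A) ∈ maximalIdeal A ∧
    ∀ (n : ℕ) (σ : Deform.GQ) (a : ℕ),
      (∀ μ : AlgebraicClosure ℚ, μ ^ p ^ n = 1 → σ μ = μ ^ a) →
        (R σ).det - (a : A) ∈ Ideal.span {((p ^ n : ℕ) : A)}

theorem detIsCyclotomic_iff {p : ℕ} {ρ : GaloisRepAdic A} {R : Deform.GQ → Mt A}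
    (h : RepMat ρ.ρ R) : ρ.DetIsCyclotomic p ↔ DetMat p R := by
  simp only [GaloisRepAdic.DetIsCyclotomic, DetMat, det_eq_of_repMat h]

/-- strictly ordinary, in coordinates -/
def StrictMat (p : ℕ) (R : Deform.GQ → Mt A) : Prop :=
  (p : A) ∈ maximalIdeal A ∧
  ∀ P : ValuationSubring (AlgebraicClosure ℚ), P.LiesOverPrime p →
    ∃ U U' : Mt A, U' * U = 1 ∧ U * U' = 1 ∧
      (∀ s ∈ P.decompositionSubgroup ℚ, (U' * R s * U) 1 0 = 0) ∧
      (∀ s ∈ P.inertiaSubgroupIn ℚ, (U' * R s * U) 1 0 = 0 ∧ (U' * R s * U) 1 1 = 1) ∧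
      ∀ s ∈ P.decompositionSubgroup ℚ, ∀ (n a : ℕ),
        (∀ μ : AlgebraicClosure ℚ, μ ^ p ^ n = 1 → s μ = μ ^ a) →
          (U' * R s * U) 0 0 - (a : A) * (U' * R s * U) 1 1 ∈ Ideal.span {((p ^ n : ℕ) : A)}

theorem mem_span_b0_iff {V : Type} [AddCommGroup V] [Module A V] (b : Module.Basis (Fin 2) A V)
    (v : V) : v ∈ Submodule.span A {b 0} ↔ b.repr v 1 = 0 := by
  constructor
  · intro h
    obtain ⟨a, rfl⟩ := Submodule.mem_span_singleton.mp h
    simp
  · intro h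
    refine Submodule.mem_span_singleton.mpr ⟨b.repr v 0, ?_⟩
    conv_rhs => rw [← b.sum_repr v]
    rw [Fin.sum_univ_two, h, zero_smul, add_zero]

theorem strictMat_of_isStrictOrdinaryAt {p : ℕ} {ρ : GaloisRepAdic A} {R : Deform.GQ → Mt A}
    (h : RepMat ρ.ρ R) (hs : ρ.IsStrictOrdinaryAt p) : StrictMat p R := by
  refine ⟨hs.1, fun P hP => ?_⟩
  obtain ⟨L, ⟨b, rfl⟩, hD, hI, hx⟩ := hs.2 P hP
  obtain ⟨U', U, hUU', hU'U, hconj⟩ :=
    h.conjugate (r' := fun σ => LinearMap.toMatrix b b (ρ.ρ σ)) ⟨b, fun σ => rfl⟩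
  refine ⟨U, U', hU'U, hUU', ?_, ?_, ?_⟩
  · intro s hs'
    rw [← hconj, LinearMap.toMatrix_apply]
    exact (mem_span_b0_iff b _).mp (hD s hs' _ (Submodule.mem_span_singleton_self _))
  · intro s hs'
    rw [← hconj, LinearMap.toMatrix_apply, LinearMap.toMatrix_apply]
    have h0 := (mem_span_b0_iff b _).mp (hI s hs' (b 0))
    have h1 := (mem_span_b0_iff b _).mp (hI s hs' (b 1))
    simp only [map_sub, Finsupp.sub_apply, Module.Basis.repr_self, Finsupp.single_apply] at h0 h1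
    exact ⟨by simpa using h0, by simpa [sub_eq_zero] using h1⟩
  · intro s hs' n a hna
    obtain ⟨x, z, hx', hz, hn⟩ := hx s hs'
    rw [← hconj, LinearMap.toMatrix_apply, LinearMap.toMatrix_apply]
    have e0 := hx' (b 0) (Submodule.mem_span_singleton_self _)
    have e1 := (mem_span_b0_iff b _).mp (hz (b 1))
    simp only [map_sub, map_smul, Finsupp.sub_apply, Finsupp.smul_apply, Module.Basis.repr_self,
      Finsupp.single_apply] at e1
    have f0 : b.repr (ρ.ρ s (b 0)) 0 = x := by rw [e0]; simp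
    have f1 : b.repr (ρ.ρ s (b 1)) 1 = z := by simpa [sub_eq_zero] using e1
    rw [f0, f1]
    exact hn n a hna

theorem isStrictOrdinaryAt_of_strictMat {p : ℕ} {ρ : GaloisRepAdic A} {R : Deform.GQ → Mt A}
    (h : RepMat ρ.ρ R) (hs : StrictMat p R) : ρ.IsStrictOrdinaryAt p := by
  refine ⟨hs.1, fun P hP => ?_⟩
  obtain ⟨U, U', hU'U, hUU', hD, hI, hx⟩ := hs.2 P hP
  obtain ⟨b, hb⟩ := h.conj hUU' hU'U
  have hcoord : ∀ (s : Deform.GQ) (v : ρ.V) (i : Fin 2), b.repr (ρ.ρ s v) i =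
      (U' * R s * U) i 0 * b.repr v 0 + (U' * R s * U) i 1 * b.repr v 1 := by
    intro s v i
    have e := congrFun (LinearMap.toMatrix_mulVec_repr b b (ρ.ρ s) v) i
    rw [hb s] at e
    rw [← e]
    simp [Matrix.mulVec, dotProduct, Fin.sum_univ_two]
  refine ⟨_, ⟨b, rfl⟩, ?_, ?_, ?_⟩
  · intro s hs' v hv
    rw [mem_span_b0_iff] at hv ⊢
    rw [hcoord, hv, hD s hs', zero_mul, mul_zero, add_zero]
  · intro s hs' v
    obtain ⟨h0, h1⟩ := hI s hs'
    rw [mem_span_b0_iff, map_sub, Finsupp.sub_apply, hcoord, h0, h1, zero_mul, one_mul, zero_add,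
      sub_self]
  · intro s hs'
    refine ⟨(U' * R s * U) 0 0, (U' * R s * U) 1 1, fun w hw => ?_, fun v => ?_, hx s hs'⟩
    · rw [mem_span_b0_iff] at hw
      refine b.ext_elem fun i => ?_
      fin_cases i <;> simp [hcoord, hw, hD s hs']
    · rw [mem_span_b0_iff, map_sub, map_smul, Finsupp.sub_apply, Finsupp.smul_apply, hcoord,
        hD s hs', zero_mul, zero_add, smul_eq_mul, sub_self]

variable {B : Type} [CommRing B] [IsLocalRing B] (φ : A →+* B) [IsLocalHom φ]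

theorem natCast_pow_mem_map {p n : ℕ} {x : A} (hx : x ∈ Ideal.span {((p ^ n : ℕ) : A)}) :
    φ x ∈ Ideal.span {((p ^ n : ℕ) : B)} := by
  have := Ideal.mem_map_of_mem φ hx
  rwa [Ideal.map_span, Set.image_singleton, map_natCast] at this

include φ in
theorem natCast_mem_maximalIdeal {p : ℕ} (hp : (p : A) ∈ maximalIdeal A) :
    (p : B) ∈ maximalIdeal B := by
  rw [← map_natCast φ]
  exact map_nonunit φ _ hp

theorem DetMat.map {p : ℕ} {R : Deform.GQ → Mt A} (h : DetMat p R) :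
    DetMat p (fun σ => (R σ).map φ) := by
  refine ⟨natCast_mem_maximalIdeal φ h.1, fun n σ a hσ => ?_⟩
  have := natCast_pow_mem_map φ (h.2 n σ a hσ)
  rwa [map_sub, map_natCast, RingHom.map_det, RingHom.mapMatrix_apply] at this

theorem StrictMat.map {p : ℕ} {R : Deform.GQ → Mt A} (h : StrictMat p R) :
    StrictMat p (fun σ => (R σ).map φ) := by
  refine ⟨natCast_mem_maximalIdeal φ h.1, fun P hP => ?_⟩
  obtain ⟨U, U', h1, h2, hD, hI, hx⟩ := h.2 P hP
  have e : ∀ σ, U'.map φ * (R σ).map φ * U.map φ = (U' * R σ * U).map φ := fun σ => by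
    rw [Matrix.map_mul, Matrix.map_mul]
  refine ⟨U.map φ, U'.map φ, by rw [← Matrix.map_mul, h1, Matrix.map_one _ (map_zero _) (map_one _)],
    by rw [← Matrix.map_mul, h2, Matrix.map_one _ (map_zero _) (map_one _)], ?_, ?_, ?_⟩
  · intro s hs; rw [e, Matrix.map_apply, hD s hs, map_zero]
  · intro s hs
    rw [e, Matrix.map_apply, Matrix.map_apply, (hI s hs).1, (hI s hs).2, map_zero, map_one]
    exact ⟨rfl, rfl⟩
  · intro s hs n a hna
    have := natCast_pow_mem_map φ (hx s hs n a hna)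
    rwa [map_sub, map_mul, map_natCast, ← Matrix.map_apply (f := φ), ← Matrix.map_apply (f := φ),
      ← e] at this

variable {ρ : GaloisRepAdic A} {ρ' : GaloisRepAdic B} {R : Deform.GQ → Mt A}

theorem isUnramifiedAt_map (h : RepMat ρ.ρ R) (h' : RepMat ρ'.ρ fun σ => (R σ).map φ) {q : ℕ}
    (hq : ρ.IsUnramifiedAt q) : ρ'.IsUnramifiedAt q := fun P hP σ hσ => by
  rw [eq_one_iff_of_repMat h']
  show (R σ).map φ = 1
  rw [(eq_one_iff_of_repMat h σ).mp (hq P hP σ hσ), Matrix.map_one _ (map_zero _) (map_one _)]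

theorem isUnipotentOnInertiaAt_map (h : RepMat ρ.ρ R) (h' : RepMat ρ'.ρ fun σ => (R σ).map φ)
    {q : ℕ} (hq : ρ.IsUnipotentOnInertiaAt q) : ρ'.IsUnipotentOnInertiaAt q := fun P hP σ hσ => by
  rw [charpoly_eq_of_repMat h']
  show ((R σ).map φ).charpoly = _
  rw [Matrix.charpoly_map, ← charpoly_eq_of_repMat h, hq P hP σ hσ]
  simp

theorem mem_smul_top_iff {V : Type} [AddCommGroup V] [Module A V] (b : Module.Basis (Fin 2) A V)
    (I : Ideal A) (v : V) : v ∈ I • (⊤ : Submodule A V) ↔ ∀ i, b.repr v i ∈ I := by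
  constructor
  · intro hv i
    refine Submodule.smul_induction_on hv (fun a ha w _ => ?_) (fun x y hx hy => ?_)
    · simpa using Ideal.mul_mem_right _ I ha
    · simpa using add_mem hx hy
  · intro h
    rw [← b.sum_repr v]
    exact sum_mem fun i _ => Submodule.smul_mem_smul (h i) Submodule.mem_top

theorem isFlatAt_map (hsurj : Function.Surjective φ) (h : RepMat ρ.ρ R)
    (h' : RepMat ρ'.ρ fun σ => (R σ).map φ) {p : ℕ} (hf : ρ.IsFlatAt p) : ρ'.IsFlatAt p := by
  refine ⟨?_, fun I hI => ?_⟩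
  · haveI := hf.1
    refine Finite.of_surjective (ResidueField.map φ) fun x => ?_
    obtain ⟨x, rfl⟩ := residue_surjective x
    obtain ⟨a, rfl⟩ := hsurj x
    exact ⟨residue A a, ResidueField.map_residue φ a⟩
  set J := I.comap φ
  haveI : Finite (A ⧸ J) := Finite.of_injective (Ideal.quotientMap I φ le_rfl)
    Ideal.quotientMap_injective
  obtain ⟨H, i1, i2, h1, h2, h3, e, hadd, hgal⟩ := hf.2 J inferInstance
  obtain ⟨b, hb⟩ := h
  obtain ⟨b', hb'⟩ := h'
  let f : ρ.V →+ ρ'.V := AddMonoidHom.mk' (fun v => b'.equivFun.symm fun i => φ (b.repr v i))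
    (fun v w => by
      rw [← map_add b'.equivFun.symm]
      congr 1
      funext i
      simp)
  have hfr : ∀ v i, b'.repr (f v) i = φ (b.repr v i) := fun v i => by
    show b'.equivFun (b'.equivFun.symm fun i => φ (b.repr v i)) i = _
    rw [LinearEquiv.apply_symm_apply]
  have hsmul : ∀ (s : Deform.GQ) v, f (ρ.ρ s v) = ρ'.ρ s (f v) := by
    intro s v
    refine b'.ext_elem fun i => ?_
    have e1 := congrFun (LinearMap.toMatrix_mulVec_repr b b (ρ.ρ s) v) i
    have e2 := congrFun (LinearMap.toMatrix_mulVec_repr b' b' (ρ'.ρ s) (f v)) i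
    rw [hb s] at e1
    rw [hb' s] at e2
    rw [hfr, ← e1, ← e2]
    simp [Matrix.mulVec, dotProduct, map_sum, hfr]
  have hker : ∀ v, f v ∈ I • (⊤ : Submodule B ρ'.V) ↔ v ∈ J • (⊤ : Submodule A ρ.V) := fun v => by
    simp only [mem_smul_top_iff b' I, mem_smul_top_iff b J, hfr]
    rfl
  let g : (ρ.V ⧸ (J • (⊤ : Submodule A ρ.V))) → (ρ'.V ⧸ (I • (⊤ : Submodule B ρ'.V))) :=
    Quotient.lift (fun v => Submodule.Quotient.mk (f v)) fun v w hvw => by
      rw [Submodule.Quotient.eq, ← map_sub, hker, ← Submodule.Quotient.eq]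
      exact Quotient.sound hvw
  have hg : ∀ v, g (Submodule.Quotient.mk v) = Submodule.Quotient.mk (f v) := fun v => rfl
  have hbij : Function.Bijective g := by
    refine ⟨fun x y hxy => ?_, fun y => ?_⟩
    · obtain ⟨v, rfl⟩ := Submodule.Quotient.mk_surjective _ x
      obtain ⟨w, rfl⟩ := Submodule.Quotient.mk_surjective _ y
      rw [hg, hg, Submodule.Quotient.eq, ← map_sub, hker] at hxy
      exact (Submodule.Quotient.eq _).mpr hxy
    · obtain ⟨w, rfl⟩ := Submodule.Quotient.mk_surjective _ y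
      choose a ha using fun i => hsurj (b'.repr w i)
      refine ⟨Submodule.Quotient.mk (b.equivFun.symm a), ?_⟩
      rw [hg]
      congr 1
      refine b'.ext_elem fun i => ?_
      rw [hfr, ← ha i]
      congr 1
      exact congrFun (b.equivFun.apply_symm_apply a) i
  have hgadd : ∀ x y, g (x + y) = g x + g y := by
    intro x y
    obtain ⟨v, rfl⟩ := Submodule.Quotient.mk_surjective _ x
    obtain ⟨w, rfl⟩ := Submodule.Quotient.mk_surjective _ y
    rw [← Submodule.Quotient.mk_add, hg, hg, hg, map_add, Submodule.Quotient.mk_add]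
  refine ⟨H, i1, i2, h1, h2, h3, e.trans (Equiv.ofBijective g hbij), ?_, ?_⟩
  · intro x y
    show g (e (x * y)) = g (e x) + g (e y)
    rw [hadd, hgadd]
  · intro σ x y hxy
    show g (e y) = ρ'.levelAction I σ (g (e x))
    rw [hgal σ x y hxy]
    obtain ⟨v, hv⟩ := Submodule.Quotient.mk_surjective _ (e x)
    rw [← hv]
    show g (Submodule.Quotient.mk (ρ.ρ σ v)) = Submodule.Quotient.mk (ρ'.ρ σ (f v))
    rw [hg, hsmul]

/-- a flat representation over a finite ring gives a finite flat model of its module -/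
theorem hasFlatModel_of_isFlatAt [Finite A] {p : ℕ} {ρ : GaloisRepAdic A} (hf : ρ.IsFlatAt p)
    {G : Type} [AddCommGroup G] [DistribMulAction Flat.GalQ G] (Φ : ρ.V ≃+ G)
    (hΦ : ∀ σ v, Φ (ρ.ρ σ v) = σ • Φ v) : Flat.HasFlatModel G p := by
  obtain ⟨H, i1, i2, h1, h2, h3, e, hadd, hgal⟩ :=
    hf.2 ⊥ (Finite.of_surjective _ Ideal.Quotient.mk_surjective)
  let g : (ρ.V ⧸ ((⊥ : Ideal A) • (⊤ : Submodule A ρ.V))) ≃+ G :=
    ((Submodule.quotEquivOfEqBot _ (by simp)).toAddEquiv).trans Φ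
  have hg : ∀ v, g (Submodule.Quotient.mk v) = Φ v := fun v => by
    rfl
  refine ⟨H, i1, i2, h1, h2, h3, e.trans g.toEquiv, ?_, ?_⟩
  · intro x y
    show g (e (x * y)) = g (e x) + g (e y)
    rw [hadd, map_add]
  · intro σ x y hxy
    show g (e y) = σ • g (e x)
    rw [hgal σ x y hxy]
    obtain ⟨v, hv⟩ := Submodule.Quotient.mk_surjective _ (e x)
    rw [← hv]
    show g (Submodule.Quotient.mk (ρ.ρ σ v)) = _
    rw [hg, hg, hΦ]

end FLTAgent.PT.TW
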