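import Fermat.Agent.PT.TW.Setting
import Fermat.Agent.PT.TW.Conditions
import Fermat.Agent.Deform.Universal

/-!
Area PT, parcel G: homomorphisms of a deformation ring to the dual numbers and their classes in
`H¹(ad⁰)`.
-/

set_option autoImplicit false
set_option linter.unusedSectionVars false

noncomputable section

open CategoryTheory groupCohomology Matrix IsLocalRing TrivSqZeroExt

namespace FLTAgent.PT.TW

/-! ### matrices over the dual numbers -/

section Dual

variable {k : Type} [Field k]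

/-- constant part -/
def fstM (M : Matrix (Fin 2) (Fin 2) (DualNumber k)) : Matrix (Fin 2) (Fin 2) k :=
  M.map TrivSqZeroExt.fst

/-- infinitesimal part -/
def sndM (M : Matrix (Fin 2) (Fin 2) (DualNumber k)) : Matrix (Fin 2) (Fin 2) k :=
  M.map TrivSqZeroExt.snd

/-- `A + ε B` -/
def mkM (A B : Matrix (Fin 2) (Fin 2) k) : Matrix (Fin 2) (Fin 2) (DualNumber k) :=
  Matrix.of fun i j => TrivSqZeroExt.inl (A i j) + TrivSqZeroExt.inr (B i j)

theorem fstM_mkM (A B : Matrix (Fin 2) (Fin 2) k) : fstM (mkM A B) = A := by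
  ext i j; simp [fstM, mkM]

theorem sndM_mkM (A B : Matrix (Fin 2) (Fin 2) k) : sndM (mkM A B) = B := by
  ext i j; simp [sndM, mkM]

theorem extM {M N : Matrix (Fin 2) (Fin 2) (DualNumber k)} (h1 : fstM M = fstM N)
    (h2 : sndM M = sndM N) : M = N := by
  ext i j
  · exact congrFun (congrFun h1 i) j
  · exact congrFun (congrFun h2 i) j

theorem fstM_mul (M N : Matrix (Fin 2) (Fin 2) (DualNumber k)) :
    fstM (M * N) = fstM M * fstM N := by
  ext i j
  simp [fstM, Matrix.mul_apply, Fin.sum_univ_two]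

theorem sndM_mul (M N : Matrix (Fin 2) (Fin 2) (DualNumber k)) :
    sndM (M * N) = fstM M * sndM N + sndM M * fstM N := by
  ext i j
  simp [fstM, sndM, Matrix.mul_apply, Fin.sum_univ_two]
  ring

theorem fstM_one : fstM (1 : Matrix (Fin 2) (Fin 2) (DualNumber k)) = 1 := by
  ext i j
  fin_cases i <;> fin_cases j <;> simp [fstM]

theorem sndM_one : sndM (1 : Matrix (Fin 2) (Fin 2) (DualNumber k)) = 0 := by
  ext i j
  fin_cases i <;> fin_cases j <;> simp [sndM]

theorem det_fst (M : Matrix (Fin 2) (Fin 2) (DualNumber k)) : M.det.fst = (fstM M).det := by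
  simp [fstM, det_fin_two]

theorem det_snd {M : Matrix (Fin 2) (Fin 2) (DualNumber k)} {C : Matrix (Fin 2) (Fin 2) k}
    (h : sndM M = C * fstM M) : M.det.snd = C.trace * (fstM M).det := by
  have h' : ∀ i j, (M i j).snd = C i 0 * (M 0 j).fst + C i 1 * (M 1 j).fst := fun i j => by
    have := congrFun (congrFun h i) j
    simpa [sndM, fstM, Matrix.mul_apply, Fin.sum_univ_two] using this
  simp [fstM, det_fin_two, trace_fin_two, h']
  ring

end Dual

variable {p : ℕ} [Fact p.Prime] {𝒪 : Type} [CommRing 𝒪] [IsDomain 𝒪] [IsDiscreteValuationRing 𝒪]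
  [IsAdicComplete (maximalIdeal 𝒪) 𝒪] [Finite (ResidueField 𝒪)]
  [Algebra (ZMod p) (ResidueField 𝒪)] {ρbar : ResidualGaloisRep (ResidueField 𝒪)}
  {r : GQ →* GL (Fin 2) (ResidueField 𝒪)}
  {𝒟 : ∀ ⦃A : Type⦄ [CommRing A] [IsLocalRing A] [Algebra 𝒪 A], GaloisRepAdic A → Prop}

/-- a lift of `ρbar` to a local `𝒪`-algebra with residue field that of `𝒪` -/
structure RepData (ρbar : ResidualGaloisRep (ResidueField 𝒪)) : Type 1 where
  R : Type
  [instCommRing : CommRing R]
  [instIsLocalRing : IsLocalRing R]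
  [instAlgebra : Algebra 𝒪 R]
  [instIsLocalHom : IsLocalHom (algebraMap 𝒪 R)]
  residue_surjective : Function.Surjective (residue R ∘ algebraMap 𝒪 R)
  ρ : GaloisRepAdic R
  residual_isEquiv : ρ.residual.IsEquiv
    (ρbar.baseChangeAlong (ResidueField.map (algebraMap 𝒪 R)))

attribute [instance] RepData.instCommRing RepData.instIsLocalRing RepData.instAlgebra
  RepData.instIsLocalHom

/-- the universal deformation as such a lift -/
abbrev univData (D : GaloisRep.DeformationRingData 𝒪 ρbar 𝒟) : RepData ρbar :=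
  { R := D.R, residue_surjective := D.residue_surjective, ρ := D.ρ,
    residual_isEquiv := D.residual_isEquiv }

section Data

variable (DQ : RepData ρbar)

/-- coordinates of the universal deformation lifting `r` -/
structure Coord (r : GQ →* GL (Fin 2) (ResidueField 𝒪)) where
  R₀ : GQ → Matrix (Fin 2) (Fin 2) DQ.R
  rep : Deform.RepMat DQ.ρ.ρ R₀
  aligned : ∀ σ, (R₀ σ).map (residue DQ.R) =
    (matHom r σ).map (ResidueField.map (algebraMap 𝒪 DQ.R))

theorem nonempty_coord (hrep : Deform.RepMat ρbar.ρ (fun g => matHom r g)) :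
    Nonempty (Coord DQ r) := by
  obtain ⟨R₁, hR₁⟩ := Deform.exists_repMat DQ.ρ
  have h1 := Deform.repMat_residual hR₁
  have h2 := Deform.repMat_baseChangeAlong_residual (ResidueField.map (algebraMap 𝒪 DQ.R)) hrep
  obtain ⟨e⟩ := DQ.residual_isEquiv
  have h1' := h1.linEquiv e.toLinearEquiv e.map_apply
  obtain ⟨P, Q, hQP, hPQ, hPQc⟩ := h1'.conjugate h2
  obtain ⟨P', Q', e1, e2, e3⟩ := Deform.conj_of_residual
    (ResidueField.map (algebraMap 𝒪 DQ.R)) (c := fun g => matHom r g) (r := R₁) hQP hPQ hPQc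
  exact ⟨⟨_, hR₁.conj e1 e2, e3⟩⟩

variable {DQ} (cd : Coord DQ r)
variable [Algebra 𝒪 (DualNumber (ResidueField 𝒪))]
  (h1 : ∀ a, algebraMap 𝒪 (DualNumber (ResidueField 𝒪)) a = TrivSqZeroExt.inl (residue 𝒪 a))

/-- the pushed coordinates -/
def push (φ : DQ.R →ₐ[𝒪] DualNumber (ResidueField 𝒪)) (σ : GQ) :
    Matrix (Fin 2) (Fin 2) (DualNumber (ResidueField 𝒪)) :=
  (cd.R₀ σ).map φ

include h1

theorem fst_eq (φ : DQ.R →ₐ[𝒪] DualNumber (ResidueField 𝒪)) {x : DQ.R} {y : ResidueField 𝒪}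
    (hxy : residue DQ.R x = ResidueField.map (algebraMap 𝒪 DQ.R) y) : (φ x).fst = y := by
  let f : DQ.R →+* ResidueField 𝒪 :=
    (TrivSqZeroExt.fstHom (ResidueField 𝒪) (ResidueField 𝒪) (ResidueField 𝒪)).toRingHom.comp φ
  have hf : ∀ a, f (algebraMap 𝒪 DQ.R a) = residue 𝒪 a := fun a => by
    show (φ (algebraMap 𝒪 DQ.R a)).fst = _
    rw [φ.commutes, h1, TrivSqZeroExt.fst_inl]
  have hs : Function.Surjective f := fun z => by
    obtain ⟨a, rfl⟩ := residue_surjective z
    exact ⟨_, hf a⟩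
  haveI := RingHom.ker_isMaximal_of_surjective f hs
  have hm : maximalIdeal DQ.R = RingHom.ker f := (eq_maximalIdeal inferInstance).symm
  obtain ⟨a, rfl⟩ := residue_surjective y
  have : x - algebraMap 𝒪 DQ.R a ∈ RingHom.ker f := by
    rw [← hm, ← residue_eq_zero_iff, map_sub, hxy, sub_eq_zero]
    rfl
  rw [RingHom.mem_ker, map_sub, sub_eq_zero, hf] at this
  exact this

theorem fstM_push (φ : DQ.R →ₐ[𝒪] DualNumber (ResidueField 𝒪)) (σ : GQ) :
    fstM (push cd φ σ) = matHom r σ := by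
  ext i j
  exact fst_eq h1 φ (congrFun (congrFun (cd.aligned σ) i) j)

omit h1 in
theorem push_mul (φ : DQ.R →ₐ[𝒪] DualNumber (ResidueField 𝒪)) (σ τ : GQ) :
    push cd φ (σ * τ) = push cd φ σ * push cd φ τ := by
  rw [push, cd.rep.map_mul, Matrix.map_mul]; rfl

omit h1 in
/-- the matrix of the cocycle -/
def rawCoc (φ : DQ.R →ₐ[𝒪] DualNumber (ResidueField 𝒪)) (σ : GQ) :
    Matrix (Fin 2) (Fin 2) (ResidueField 𝒪) :=
  sndM (push cd φ σ) * matHom r σ⁻¹

theorem sndM_push (φ : DQ.R →ₐ[𝒪] DualNumber (ResidueField 𝒪)) (σ : GQ) :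
    sndM (push cd φ σ) = rawCoc cd φ σ * fstM (push cd φ σ) := by
  rw [fstM_push cd h1, rawCoc, mul_assoc, map_inv_mul, mul_one]

theorem rawCoc_mul (φ : DQ.R →ₐ[𝒪] DualNumber (ResidueField 𝒪)) (σ τ : GQ) :
    rawCoc cd φ (σ * τ) = matHom r σ * rawCoc cd φ τ * matHom r σ⁻¹ + rawCoc cd φ σ := by
  rw [rawCoc, push_mul, sndM_mul, fstM_push cd h1, fstM_push cd h1, _root_.mul_inv_rev, map_mul, add_mul]
  congr 1
  · rw [rawCoc]; simp only [mul_assoc]
  · rw [rawCoc]
    simp only [mul_assoc]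
    rw [← mul_assoc (matHom r τ), map_mul_inv, one_mul]

theorem rawCoc_trace (hdet : DetMat p cd.R₀)
    (hrdet : ∀ σ, (matHom r σ).det ≠ 0)
    (φ : DQ.R →ₐ[𝒪] DualNumber (ResidueField 𝒪)) (σ : GQ) :
    (rawCoc cd φ σ).trace = 0 := by
  have hspec : ∀ μ : AlgebraicClosure ℚ, μ ^ p ^ 1 = 1 →
      σ μ = μ ^ (ExtCitation.cycloChar p σ : ZMod p).val := by
    intro μ hμ
    rw [pow_one] at hμ
    exact Ext.cycloChar_spec σ hμ
  have hm := hdet.2 1 σ _ hspec
  have h0 : φ (((p ^ 1 : ℕ) : DQ.R)) = 0 := by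
    rw [map_natCast, pow_one]
    haveI : CharP (ResidueField 𝒪) p :=
      charP_of_injective_algebraMap (algebraMap (ZMod p) (ResidueField 𝒪)).injective p
    exact TrivSqZeroExt.ext (by simp [CharP.cast_eq_zero]) (by simp)
  obtain ⟨u, hu⟩ := Ideal.mem_span_singleton'.mp hm
  have e := congrArg φ hu
  rw [map_mul, h0, mul_zero, map_sub, map_natCast, AlgHom.map_det, AlgHom.mapMatrix_apply] at e
  have e2 := congrArg TrivSqZeroExt.snd (sub_eq_zero.mp e.symm)
  rw [show (cd.R₀ σ).map φ = push cd φ σ from rfl, det_snd (sndM_push cd h1 φ σ),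
    fstM_push cd h1, TrivSqZeroExt.snd_natCast] at e2
  exact (mul_eq_zero.mp e2).resolve_right (hrdet σ)

theorem rawCoc_level (φ : DQ.R →ₐ[𝒪] DualNumber (ResidueField 𝒪)) :
    ∃ L : IntermediateField ℚ (AlgebraicClosure ℚ), FiniteDimensional ℚ L ∧
      ∀ g s : GQ, s ∈ L.fixingSubgroup → rawCoc cd φ (g * s) = rawCoc cd φ g := by
  obtain ⟨L, hL, hR⟩ := Deform.repMat_matCont cd.rep 2
  refine ⟨L, hL, fun g s hs => ?_⟩
  have hm : ∀ x ∈ maximalIdeal DQ.R, (φ x).fst = 0 := fun x hx =>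
    fst_eq h1 φ (by rw [map_zero, residue_eq_zero_iff]; exact hx)
  have hm2 : ∀ x ∈ maximalIdeal DQ.R ^ 2, φ x = 0 := by
    intro x hx
    rw [pow_two] at hx
    refine Submodule.mul_induction_on hx (fun a ha b hb => ?_) (fun a b ha hb => ?_)
    · rw [map_mul]
      refine TrivSqZeroExt.ext ?_ ?_ <;> simp [hm a ha, hm b hb]
    · rw [map_add, ha, hb, add_zero]
  have e : push cd φ s = 1 := by
    ext1 i j
    have := hm2 _ (hR s ((IntermediateField.mem_fixingSubgroup_iff _ _).1 hs) i j)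
    rw [map_sub, sub_eq_zero] at this
    show φ (cd.R₀ s i j) = _
    rw [this, ← Matrix.map_apply (f := φ), Matrix.map_one _ (map_zero _) (map_one _)]
  have e' : rawCoc cd φ s = 0 := by rw [rawCoc, e, sndM_one, zero_mul]
  rw [rawCoc_mul cd h1, e', mul_zero, zero_mul, zero_add]

/-- the cocycle of a homomorphism to the dual numbers -/
def tanCoc (hdet : DetMat p cd.R₀) (hrdet : ∀ σ, (matHom r σ).det ≠ 0)
    (φ : DQ.R →ₐ[𝒪] DualNumber (ResidueField 𝒪)) :
    Z1 (MonoidHom.id GQ) (ad0 p r) :=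
  ⟨fun σ => (⟨rawCoc cd φ σ, rawCoc_trace cd h1 hdet hrdet φ σ⟩ : adSpace p (ResidueField 𝒪)),
    (mem_cocycles₁_def _).2 fun g g' => Subtype.ext (by
      show (r g : Matrix (Fin 2) (Fin 2) (ResidueField 𝒪)) * rawCoc cd φ g' *
        ((r g)⁻¹ : GL (Fin 2) (ResidueField 𝒪)) - rawCoc cd φ (g * g') + rawCoc cd φ g = 0
      rw [← matHom_apply, ← matHom_inv, rawCoc_mul cd h1]; abel),
    by
      obtain ⟨L, hL, hh⟩ := rawCoc_level cd h1 φ
      exact ⟨L, hL, fun g s hs => Subtype.ext (hh g s hs)⟩⟩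

theorem tanCoc_val (hdet : DetMat p cd.R₀) (hrdet : ∀ σ, (matHom r σ).det ≠ 0)
    (φ : DQ.R →ₐ[𝒪] DualNumber (ResidueField 𝒪)) (σ : GQ) :
    ((tanCoc cd h1 hdet hrdet φ).1 σ).1 = rawCoc cd φ σ := rfl

theorem surjective_or_const (φ : DQ.R →ₐ[𝒪] DualNumber (ResidueField 𝒪)) :
    Function.Surjective φ ∨ ∀ x, (φ x).snd = 0 := by
  by_cases hc : ∀ x, (φ x).snd = 0
  · exact Or.inr hc
  left
  push Not at hc
  obtain ⟨x, hx⟩ := hc
  intro y
  obtain ⟨a, ha⟩ := residue_surjective (y.fst)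
  obtain ⟨u, hu⟩ := residue_surjective ((φ x).fst)
  obtain ⟨v, hv⟩ := residue_surjective (y.snd * ((φ x).snd)⁻¹)
  refine ⟨algebraMap 𝒪 _ a + algebraMap 𝒪 _ v * (x - algebraMap 𝒪 _ u), ?_⟩
  simp only [map_add, map_mul, map_sub, φ.commutes, h1, ha, hu, hv]
  refine TrivSqZeroExt.ext ?_ ?_
  · simp
  · simp [inv_mul_cancel₀ hx, mul_assoc]

theorem rawCoc_eq_zero_of_const {φ : DQ.R →ₐ[𝒪] DualNumber (ResidueField 𝒪)}
    (hc : ∀ x, (φ x).snd = 0) (σ : GQ) : rawCoc cd φ σ = 0 := by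
  have : sndM (push cd φ σ) = 0 := by ext i j; exact hc _
  rw [rawCoc, this, zero_mul]

theorem dual_finite : Finite (DualNumber (ResidueField 𝒪)) :=
  inferInstanceAs (Finite (ResidueField 𝒪 × ResidueField 𝒪))

theorem isAdicComplete_dual :
    IsAdicComplete (maximalIdeal (DualNumber (ResidueField 𝒪))) (DualNumber (ResidueField 𝒪)) := by
  set m := maximalIdeal (DualNumber (ResidueField 𝒪))
  have hsq : m ^ 2 = ⊥ := by
    rw [eq_bot_iff, pow_two, Ideal.mul_le]
    intro a ha b hb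
    rw [mem_maximalIdeal, mem_nonunits_iff, TrivSqZeroExt.isUnit_iff_isUnit_fst, isUnit_iff_ne_zero,
      not_not] at ha hb
    rw [Ideal.mem_bot]
    refine TrivSqZeroExt.ext ?_ ?_ <;> simp [ha, hb]
  have hn : ∀ n, 2 ≤ n → m ^ n = ⊥ := fun n hn => le_bot_iff.mp (hsq ▸ Ideal.pow_le_pow_right hn)
  refine { haus' := fun x hx => ?_, prec' := fun f hf => ⟨f 2, fun n => ?_⟩ }
  · have := hx 2
    rwa [hsq, SModEq.zero, Submodule.bot_smul, Submodule.mem_bot] at this
  · rcases Nat.lt_or_ge n 2 with h | h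
    · exact hf h.le
    · have := hf h
      rw [hsq, SModEq.sub_mem, Submodule.bot_smul, Submodule.mem_bot, sub_eq_zero] at this
      rw [← this]
      exact SModEq.refl _

/-- the pushed deformation -/
theorem isLocalHom_push (φ : DQ.R →ₐ[𝒪] DualNumber (ResidueField 𝒪)) :
    IsLocalHom (φ : DQ.R →+* DualNumber (ResidueField 𝒪)) := by
  refine ⟨fun x hx => ?_⟩
  by_contra hc
  rw [TrivSqZeroExt.isUnit_iff_isUnit_fst, isUnit_iff_ne_zero] at hx
  exact hx (fst_eq h1 φ (by
    rw [map_zero, residue_eq_zero_iff, mem_maximalIdeal, mem_nonunits_iff]; exact hc))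

/-- cohomologous classes come from equal homomorphisms -/
theorem eq_of_cohomologous {D : GaloisRep.DeformationRingData 𝒪 ρbar 𝒟} (cd : Coord (univData D) r)
    (hpush : ∀ φ : D.R →ₐ[𝒪] DualNumber (ResidueField 𝒪), Function.Surjective φ →
      ∀ ρ' : GaloisRepAdic (DualNumber (ResidueField 𝒪)), Deform.RepMat ρ'.ρ (push cd φ) → 𝒟 ρ')
    (hdet : DetMat p cd.R₀) (hrdet : ∀ σ, (matHom r σ).det ≠ 0)
    {φ φ' : D.R →ₐ[𝒪] DualNumber (ResidueField 𝒪)}
    (he : h1mk (MonoidHom.id GQ) _ (tanCoc cd h1 hdet hrdet φ) =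
      h1mk (MonoidHom.id GQ) _ (tanCoc cd h1 hdet hrdet φ')) : φ = φ' := by
  rcases surjective_or_const (DQ := univData D) h1 φ with hs | hc
  swap
  · rcases surjective_or_const (DQ := univData D) h1 φ' with hs' | hc'
    · exact (key φ' φ hs' he.symm).symm
    · refine AlgHom.ext fun x => ?_
      obtain ⟨a, ha⟩ := D.residue_surjective (residue D.R x)
      exact TrivSqZeroExt.ext
        ((fst_eq (DQ := univData D) h1 φ (y := residue 𝒪 a) ha.symm).trans
          (fst_eq (DQ := univData D) h1 φ' (y := residue 𝒪 a) ha.symm).symm)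
        ((hc x).trans (hc' x).symm)
  · exact key φ φ' hs he
where
  key (φ φ' : D.R →ₐ[𝒪] DualNumber (ResidueField 𝒪)) (hs : Function.Surjective φ)
      (he : h1mk (MonoidHom.id GQ) _ (tanCoc cd h1 hdet hrdet φ) =
        h1mk (MonoidHom.id GQ) _ (tanCoc cd h1 hdet hrdet φ')) : φ = φ' := by
    rw [← sub_eq_zero, ← map_sub, h1mk_eq_zero_iff] at he
    obtain ⟨Y, hY⟩ := he
    have hY' : ∀ σ, matHom r σ * Y.1 * matHom r σ⁻¹ - Y.1 =
        rawCoc cd φ σ - rawCoc cd φ' σ := fun σ => by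
      have := congrArg Subtype.val (hY σ)
      rw [Submodule.coe_sub, ad0_apply, ← matHom_apply, ← matHom_inv] at this
      exact this
    haveI := dual_finite h1 (𝒪 := 𝒪)
    haveI := isAdicComplete_dual h1 (𝒪 := 𝒪)
    haveI : IsLocalHom (algebraMap 𝒪 (DualNumber (ResidueField 𝒪))) := ⟨fun a ha => by
      rw [h1, TrivSqZeroExt.isUnit_inl_iff] at ha
      exact (residue_ne_zero_iff_isUnit a).mp ha.ne_zero⟩
    have hres : Function.Surjective (residue (DualNumber (ResidueField 𝒪)) ∘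
        algebraMap 𝒪 (DualNumber (ResidueField 𝒪))) := fun x => by
      obtain ⟨y, rfl⟩ := residue_surjective x
      obtain ⟨a, ha⟩ := residue_surjective (R := 𝒪) y.fst
      refine ⟨a, ?_⟩
      simp only [Function.comp_apply, h1, ha]
      rw [← sub_eq_zero, ← map_sub, residue_eq_zero_iff, mem_maximalIdeal, mem_nonunits_iff,
        TrivSqZeroExt.isUnit_iff_isUnit_fst]
      simp
    have hlφ := isLocalHom_push (DQ := univData D) h1 φ
    have hlφ' := isLocalHom_push (DQ := univData D) h1 φ'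
    let ρA := D.ρ.baseChangeAlong (φ : D.R →+* DualNumber (ResidueField 𝒪)) hlφ
    have hA : Deform.RepMat ρA.ρ (push cd φ) :=
      Deform.repMat_baseChangeAlong (φ : D.R →+* DualNumber (ResidueField 𝒪)) hlφ cd.rep
    have hA' : Deform.RepMat (D.ρ.baseChangeAlong (φ' : D.R →+* DualNumber (ResidueField 𝒪)) hlφ').ρ
        (push cd φ') :=
      Deform.repMat_baseChangeAlong (φ' : D.R →+* DualNumber (ResidueField 𝒪)) hlφ' cd.rep
    -- the residual representation of `ρA`
    have hresid : ρA.residual.IsEquiv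
        (ρbar.baseChangeAlong (ResidueField.map (algebraMap 𝒪 (DualNumber (ResidueField 𝒪))))) := by
      obtain ⟨e⟩ := D.residual_isEquiv
      have g1 := (Deform.repMat_residual cd.rep).linEquiv e.toLinearEquiv e.map_apply
      obtain ⟨r₁, hr₁⟩ := Deform.exists_repMat_residual ρbar
      have g2 := Deform.repMat_baseChangeAlong_residual (ResidueField.map (algebraMap 𝒪 D.R)) hr₁
      obtain ⟨P, Q, hQP, hPQ, hc⟩ := g2.conjugate g1
      let ψ : ResidueField D.R →+* ResidueField (DualNumber (ResidueField 𝒪)) :=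
        haveI := hlφ; ResidueField.map (φ : D.R →+* DualNumber (ResidueField 𝒪))
      have hψ : ∀ y, ψ (ResidueField.map (algebraMap 𝒪 D.R) y) =
          ResidueField.map (algebraMap 𝒪 (DualNumber (ResidueField 𝒪))) y := by
        intro y
        obtain ⟨a, rfl⟩ := residue_surjective y
        show residue _ (φ (algebraMap 𝒪 D.R a)) = residue _ (algebraMap 𝒪 _ a)
        rw [φ.commutes]
      have g3 := (Deform.repMat_baseChangeAlong_residual
        (ResidueField.map (algebraMap 𝒪 (DualNumber (ResidueField 𝒪)))) hr₁).conj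
        (P := P.map ψ) (Q := Q.map ψ)
        (by rw [← Matrix.map_mul, hQP, Matrix.map_one _ (map_zero _) (map_one _)])
        (by rw [← Matrix.map_mul, hPQ, Matrix.map_one _ (map_zero _) (map_one _)])
      refine Deform.residual_isEquiv_of_repMat (Deform.repMat_residual hA) ?_
      convert g3 using 1
      funext σ
      have e1 := congrArg (fun M : Matrix (Fin 2) (Fin 2) (ResidueField D.R) => M.map ψ) (hc σ)
      simp only [Matrix.map_mul] at e1
      have e2 : (((r₁ σ).map (ResidueField.map (algebraMap 𝒪 D.R))).map ψ) =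
          (r₁ σ).map (ResidueField.map (algebraMap 𝒪 (DualNumber (ResidueField 𝒪)))) := by
        ext i j; exact hψ _
      rw [e2] at e1
      rw [← e1]
      ext i j
      show residue _ (φ (cd.R₀ σ i j)) = ψ (residue _ (cd.R₀ σ i j))
      rfl
    obtain ⟨φ₀, -, huniq⟩ := D.universal (DualNumber (ResidueField 𝒪)) hres ρA (hpush φ hs ρA hA) hresid
    -- conjugate by `1 + ε Y`
    have hconj : ∀ σ, mkM 1 (-Y.1) * push cd φ' σ * mkM 1 Y.1 = push cd φ σ := by
      intro σ
      refine extM ?_ ?_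
      · rw [fstM_mul, fstM_mul, fstM_mkM, fstM_mkM, one_mul, mul_one, fstM_push cd h1, fstM_push cd h1]
      · rw [sndM_mul, sndM_mul, fstM_mul, fstM_mkM, fstM_mkM, sndM_mkM, sndM_mkM, one_mul, one_mul,
          mul_one, sndM_push cd h1, sndM_push cd h1, fstM_push cd h1, fstM_push cd h1]
        have e : rawCoc cd φ σ = rawCoc cd φ' σ + (matHom r σ * Y.1 * matHom r σ⁻¹ - Y.1) := by
          rw [hY']; abel
        rw [e, add_mul, sub_mul, mul_assoc _ (matHom r σ⁻¹), map_inv_mul, mul_one]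
        noncomm_ring
    have hiso : (D.ρ.baseChangeAlong (φ' : D.R →+* DualNumber (ResidueField 𝒪)) hlφ').IsEquiv ρA := by
      have hone : ∀ Z : Matrix (Fin 2) (Fin 2) (ResidueField 𝒪), mkM 1 Z * mkM 1 (-Z) = 1 := fun Z => by
        refine extM ?_ ?_
        · rw [fstM_mul, fstM_mkM, fstM_mkM, one_mul, fstM_one]
        · rw [sndM_mul, fstM_mkM, fstM_mkM, sndM_mkM, sndM_mkM, one_mul, mul_one, sndM_one,
            neg_add_cancel]
      have hneg := hone (-Y.1)
      rw [neg_neg] at hneg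
      have g := hA'.conj (P := mkM 1 (-Y.1)) (Q := mkM 1 Y.1) (hone Y.1) hneg
      simp only [hconj] at g
      exact Deform.IsEquiv.of_repMat g hA
    exact (huniq φ ⟨hlφ, ⟨GaloisRepAdic.Equiv.refl _⟩⟩).trans (huniq φ' ⟨hlφ', hiso⟩).symm

/-- the number of homomorphisms to the dual numbers is bounded by the group receiving their classes -/
theorem card_algHom_le {D : GaloisRep.DeformationRingData 𝒪 ρbar 𝒟} (cd : Coord (univData D) r)
    (hpush : ∀ φ : D.R →ₐ[𝒪] DualNumber (ResidueField 𝒪), Function.Surjective φ →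
      ∀ ρ' : GaloisRepAdic (DualNumber (ResidueField 𝒪)), Deform.RepMat ρ'.ρ (push cd φ) → 𝒟 ρ')
    (hdet : DetMat p cd.R₀) (hrdet : ∀ σ, (matHom r σ).det ≠ 0)
    (V : Submodule (ZMod p) (cH1 (MonoidHom.id GQ) (ad0 p r))) [Finite V]
    (hV : ∀ φ, h1mk (MonoidHom.id GQ) _ (tanCoc cd h1 hdet hrdet φ) ∈ V) :
    Finite (D.R →ₐ[𝒪] DualNumber (ResidueField 𝒪)) ∧
      Nat.card (D.R →ₐ[𝒪] DualNumber (ResidueField 𝒪)) ≤ Nat.card V := by
  have hinj : Function.Injective (fun φ => (⟨_, hV φ⟩ : V)) := fun φ φ' he =>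
    eq_of_cohomologous h1 cd hpush hdet hrdet (congrArg Subtype.val he)
  exact ⟨Finite.of_injective _ hinj, Nat.card_le_card_of_injective _ hinj⟩

end Data

end FLTAgent.PT.TW
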