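import Fermat.Agent.PT.TW.Setting
import Fermat.Agent.PT.LocalAPI

/-!
Area PT, parcel G: the choice of the Taylor-Wiles primes.
-/

set_option autoImplicit false
set_option linter.style.haveILetI false

noncomputable section

open CategoryTheory groupCohomology Matrix Polynomial
open scoped Pointwise

namespace FLTAgent.PT.TW

variable {p : ℕ} [Fact p.Prime] {k : Type} [Field k] [Algebra (ZMod p) k]
  {ρbar : ResidualGaloisRep k} {r : GQ →* GL (Fin 2) k}

/-- the kernel of the cyclotomic character modulo `p ^ (n + 1)` -/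
def cycKer (p : ℕ) [Fact p.Prime] (n : ℕ) : Subgroup GQ :=
  haveI : NeZero (p ^ (n + 1)) := ⟨(pow_pos (Fact.out : p.Prime).pos _).ne'⟩
  (cycHom (p ^ (n + 1))).ker

instance (n : ℕ) : (cycKer p n).Normal := by
  rw [cycKer]; infer_instance

theorem isCyclic_quotient_cycKer (hp2 : p ≠ 2) (n : ℕ) : IsCyclic (GQ ⧸ cycKer p n) :=
  isCyclic_quotient_cycHom hp2 (n + 1)

theorem cycloChar_cycKer {n : ℕ} {g : GQ} (hg : g ∈ cycKer p n) :
    ExtCitation.cycloChar p g = 1 :=
  cycloChar_eq_one_of_mem_ker n.succ_pos hg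

variable (h : Setting p ρbar r)
include h

theorem Setting.det_cycKer {n : ℕ} {g : GQ} (hg : g ∈ cycKer p n) :
    (matHom r g).det = 1 := by
  rw [matHom_apply, h.hdet, cycloChar_cycKer hg, Units.val_one, map_one]

theorem Setting.span_cycKer (n : ℕ) :
    Submodule.span k (matHom r '' (cycKer p n : Set GQ)) = ⊤ := by
  haveI := isCyclic_quotient_cycKer h.hp2 n
  exact span_normal_eq_top ρbar h.habs h.hTW (r := matHom r) h.rep _

theorem Setting.exists_cycloChar_two :
    ∃ σ : GQ, algebraMap (ZMod p) k (ExtCitation.cycloChar p σ) = 2 := by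
  have h2 : (2 : ZMod p) ≠ 0 := fun h0 => h.two_ne_zero (by
    rw [← map_ofNat (algebraMap (ZMod p) k) 2, h0, map_zero])
  obtain ⟨σ, hσ⟩ := Ext.exists_cycloChar_eq (p := p) (Units.mk0 2 h2)
  exact ⟨σ, by rw [hσ, Units.val_mk0, map_ofNat]⟩

variable [Finite k]

omit h [Finite k] in
/-- a traceless matrix commuting with `r σ` pairs to zero with a coboundary at `σ` -/
theorem eval_coboundary {σ : GQ} (hχ : ExtCitation.cycloChar p σ = 1) {Y : adSpace p k}
    (hY : (ad0 p r).ρ σ Y = Y) (f : dual' (ad0 p r)) :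
    (show Module.Dual (ZMod p) (adSpace p k) from (dual' (ad0 p r)).ρ σ f - f) Y = 0 := by
  have hY' : (ad0 p r).ρ σ⁻¹ Y = Y := by
    conv_lhs => rw [← hY]
    rw [← Module.End.mul_apply, ← map_mul, inv_mul_cancel, map_one, Module.End.one_apply]
  show (ExtCitation.cycloChar p σ : ZMod p) • f ((ad0 p r).ρ σ⁻¹ Y) - f Y = 0
  rw [hχ, Units.val_one, one_smul, hY', sub_self]

/-- the element to be met by a Frobenius element -/
theorem Setting.exists_element (n : ℕ) (z : Z1 (MonoidHom.id GQ) (dual' (ad0 p r))) :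
    ∃ σ ∈ cycKer p n, (matHom r σ).trace ^ 2 ≠ 4 ∧
      (z.1 ∉ B1 (dual' (ad0 p r)) → ∃ Y : adSpace p k, (ad0 p r).ρ σ Y = Y ∧
        (show Module.Dual (ZMod p) (adSpace p k) from z.1 σ) Y ≠ 0) := by
  classical
  haveI := h.charP
  have h2 := h.two_ne_zero
  have hspan := h.span_cycKer n
  have hreg := span_regSet (matHom r) (cycKer p n) h2 (fun g hg => h.det_cycKer hg) hspan
  have hz : ∀ a b : GQ, z.1 (a * b) = (dual' (ad0 p r)).ρ a (z.1 b) + z.1 a := fun a b => by
    have := (mem_cocycles₁_def _).1 z.2.1 a b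
    linear_combination (norm := module) -this
  by_cases hres : ∃ τ ∈ cycKer p n, matHom r τ = 1 ∧ z.1 τ ≠ 0
  · obtain ⟨τ, hτ, hτr, hτz⟩ := hres
    let w : Module.Dual (ZMod p) (adSpace p k) := z.1 τ
    let tl : Matrix (Fin 2) (Fin 2) k → adSpace p k := fun M =>
      ⟨M + (-(M.trace / 2)) • 1, by
        show (M + (-(M.trace / 2)) • (1 : Matrix (Fin 2) (Fin 2) k)).trace = 0
        rw [Matrix.trace_add, Matrix.trace_smul, Matrix.trace_one, smul_eq_mul, Fintype.card_fin]
        push_cast; field_simp; ring⟩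
    have htl : ∀ M, (tl M).1 = M + (-(M.trace / 2)) • 1 := fun M => rfl
    have hex : ∃ g ∈ cycKer p n, (matHom r g).trace ^ 2 ≠ 4 ∧
        ∃ s : k, w (tl (s • matHom r g)) ≠ 0 := by
      by_contra hc
      push Not at hc
      let W : Submodule k (Matrix (Fin 2) (Fin 2) k) :=
        { carrier := {M | ∀ s : k, w (tl (s • M)) = 0}
          add_mem' := fun {M M'} hM hM' s => by
            have : tl (s • (M + M')) = tl (s • M) + tl (s • M') := by
              refine Subtype.ext ?_
              rw [Submodule.coe_add, htl, htl, htl, smul_add, Matrix.trace_add, add_div, neg_add,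
                add_smul]
              abel
            rw [this, map_add, hM s, hM' s, add_zero]
          zero_mem' := fun s => by
            have : tl (s • (0 : Matrix (Fin 2) (Fin 2) k)) = 0 := Subtype.ext (by simp [htl])
            rw [this, map_zero]
          smul_mem' := fun a M hM s => by rw [smul_smul]; exact hM (s * a) }
      have hle : Submodule.span k (regSet (matHom r) (cycKer p n)) ≤ W := by
        refine Submodule.span_le.mpr ?_
        rintro M (rfl | ⟨g, ⟨hg, ht⟩, rfl⟩) s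
        · have : tl (s • (1 : Matrix (Fin 2) (Fin 2) k)) = 0 := Subtype.ext (by
            rw [htl, Matrix.trace_smul, Matrix.trace_one, Fintype.card_fin, smul_eq_mul,
              Submodule.coe_zero, ← add_smul]
            push_cast
            rw [show s + -(s * 2 / 2) = 0 by field_simp; ring, zero_smul])
          rw [this, map_zero]
        · exact hc g hg ht s
      rw [hreg, top_le_iff] at hle
      apply hτz
      show w = 0
      refine LinearMap.ext fun Y => ?_
      have := (show (Y.1 : Matrix (Fin 2) (Fin 2) k) ∈ W from hle ▸ Submodule.mem_top) 1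
      rwa [one_smul, show tl Y.1 = Y from Subtype.ext (by
        rw [htl, show Y.1.trace = 0 from Y.2]; simp)] at this
    obtain ⟨g, hg, ht, s, hs⟩ := hex
    set Y := tl (s • matHom r g) with hYdef
    have hYg : ∀ g' : GQ, matHom r g' = matHom r g → (ad0 p r).ρ g' Y = Y := by
      intro g' hg'
      refine Subtype.ext ?_
      rw [ad0_apply, ← matHom_apply, ← matHom_inv, hg', hYdef, htl, mul_add, add_mul,
        mul_smul_comm, mul_smul_comm, smul_mul_assoc, smul_mul_assoc, mul_one, mul_assoc]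
      have e : matHom r g * matHom r g'⁻¹ = 1 := by rw [← hg', ← map_mul, mul_inv_cancel, map_one]
      rw [e, mul_one]
    have hdual : (dual' (ad0 p r)).ρ τ = 1 := by
      refine LinearMap.ext fun f => LinearMap.ext fun y => ?_
      show (ExtCitation.cycloChar p τ : ZMod p) • f ((ad0 p r).ρ τ⁻¹ y) = f y
      rw [cycloChar_cycKer hτ, Units.val_one, one_smul]
      congr 1
      refine Subtype.ext ?_
      have e1 : r τ = 1 := Units.ext (by simpa [matHom_apply] using hτr)
      rw [ad0_apply, map_inv, e1]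
      simp
    have hsum : z.1 (τ * g) = z.1 g + z.1 τ := by rw [hz, hdual]; rfl
    have hrg : matHom r (τ * g) = matHom r g := by rw [map_mul, hτr, one_mul]
    by_cases h0 : (show Module.Dual (ZMod p) (adSpace p k) from z.1 g) Y = 0
    · refine ⟨τ * g, mul_mem hτ hg, by rw [hrg]; exact ht, fun _ => ⟨Y, hYg _ hrg, ?_⟩⟩
      rw [hsum]
      show (show Module.Dual (ZMod p) (adSpace p k) from z.1 g) Y + w Y ≠ 0
      rw [h0, zero_add]
      exact hs
    · exact ⟨g, hg, ht, fun _ => ⟨Y, hYg g rfl, h0⟩⟩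
  · push Not at hres
    have hex : ∃ g ∈ cycKer p n, (matHom r g).trace ^ 2 ≠ 4 := by
      by_contra hc
      push Not at hc
      have hone : regSet (matHom r) (cycKer p n) = {1} := by
        ext M
        constructor
        · rintro (rfl | ⟨g, ⟨hg, ht⟩, rfl⟩)
          · rfl
          · exact absurd (hc g hg) ht
        · rintro rfl; exact Or.inl rfl
      rw [hone] at hreg
      have := congrArg (fun W : Submodule k (Matrix (Fin 2) (Fin 2) k) => Module.finrank k W) hreg
      simp [finrank_span_singleton (one_ne_zero (α := Matrix (Fin 2) (Fin 2) k)),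
        Module.finrank_matrix] at this
    obtain ⟨σ, hσ, ht⟩ := hex
    refine ⟨σ, hσ, ht, fun hzB => absurd ?_ hzB⟩
    -- the class is inflated from the splitting field
    let Θ := LinearEquiv.ofBijective (theta p k) (theta_bijective h2)
    let χ : GQ →* kˣ := (Units.map (algebraMap (ZMod p) k).toMonoidHom).comp (ExtCitation.cycloChar p)
    let c : GQ → Matrix (Fin 2) (Fin 2) k := fun g => (Θ.symm (z.1 g)).1
    have hc : AdCocycle (matHom r) χ (cycKer p n) c := by
      refine ⟨fun g => (Θ.symm (z.1 g)).2, fun a b => ?_, fun g hg hgr => ?_⟩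
      · have e : Θ.symm (z.1 (a * b)) = Θ.symm (z.1 a) +
            (ExtCitation.cycloChar p a : ZMod p) • (ad0 p r).ρ a (Θ.symm (z.1 b)) := by
          apply Θ.injective
          rw [map_add Θ, Θ.apply_symm_apply, Θ.apply_symm_apply, hz]
          conv_lhs => rw [← Θ.apply_symm_apply (z.1 b)]
          show (dual' (ad0 p r)).ρ a (theta p k (Θ.symm (z.1 b))) + z.1 a = z.1 a + theta p k _
          rw [dual_theta, add_comm]
        show (Θ.symm (z.1 (a * b))).1 = _
        rw [e, Submodule.coe_add, SetLike.val_smul, ad0_apply, ← matHom_apply, ← matHom_inv]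
        congr 1
        exact (algebraMap_smul k (ExtCitation.cycloChar p a : ZMod p) _).symm
      · show (Θ.symm (z.1 g)).1 = 0
        rw [hres g hg hgr]
        exact congrArg Subtype.val (map_zero Θ.symm)
    obtain ⟨x, hx, hcx⟩ := hc.exists_eq (p := p) Fact.out h.hp2
      (fun g hg => by
        show Units.map _ (ExtCitation.cycloChar p g) = 1
        rw [cycloChar_cycKer hg, map_one])
      (fun g hg => h.det_cycKer hg)
      (fun g _ => by
        obtain ⟨α, β, he⟩ := h.hsplit g
        exact ⟨α, β, split_of_charpoly he⟩)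
      hspan h.exists_cycloChar_two
    refine mem_B1_iff.mpr ⟨theta p k ⟨x, hx⟩, fun g => ?_⟩
    rw [dual_theta, ← map_sub]
    conv_rhs => rw [← Θ.apply_symm_apply (z.1 g)]
    refine congrArg (theta p k) (Subtype.ext ?_)
    show _ = c g
    rw [hcx, Submodule.coe_sub, SetLike.val_smul, ad0_apply, ← matHom_apply, ← matHom_inv]
    congr 1
    exact (algebraMap_smul k (ExtCitation.cycloChar p g : ZMod p) _).symm

omit [Finite k] in
theorem Setting.trace_pow {n : ℕ} {τ : GQ} (hτ : τ ∈ cycKer p n) (i : ℕ)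
    (ht : (matHom r τ).trace ^ 2 = 4) : (matHom r (τ ^ i)).trace ^ 2 = 4 := by
  obtain ⟨e, N, he, hN, hNd, hG⟩ := exists_nil_part (h.det_cycKer hτ) ht h.two_ne_zero
  have hNN := sq_eq_zero_of_nil hN hNd
  have hp : ∀ i : ℕ, (1 + N) ^ i = 1 + (i : k) • N := by
    intro i
    induction i with
    | zero => simp
    | succ i ih =>
      rw [pow_succ, ih, add_mul, one_mul, mul_add, mul_one, smul_mul_assoc, hNN, smul_zero,
        add_zero, Nat.cast_succ, add_smul, one_smul]
      abel
  rw [map_pow, hG, _root_.smul_pow, hp, Matrix.trace_smul, Matrix.trace_add, Matrix.trace_one,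
    Matrix.trace_smul, hN, smul_zero, add_zero, Fintype.card_fin, smul_eq_mul, mul_pow, ← pow_mul,
    mul_comm i, pow_mul, pow_two e, he, one_pow, one_mul]
  norm_num

/-- the primes -/
theorem Setting.exists_prime (n : ℕ) (S : Finset ℕ) (hpS : p ∈ S)
    (hur : ∀ q : ℕ, q.Prime → q ∉ S → ∀ A : ValuationSubring (AlgebraicClosure ℚ),
      A.LiesOverPrime q → ∀ σ ∈ A.inertiaSubgroupIn ℚ, r σ = 1)
    (x : cH1 (MonoidHom.id GQ) (dual' (ad0 p r))) :
    ∃ q : Nat.Primes, (q : ℕ) ∉ S ∧ p ^ (n + 1) ∣ (q : ℕ) - 1 ∧ (x ≠ 0 → res1 q _ x ≠ 0) ∧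
      ∀ P : ValuationSubring (AlgebraicClosure ℚ), P.LiesOverPrime (q : ℕ) → ∀ φ : GQ,
        P.IsFrobeniusAt φ (q : ℕ) → ∃ α β : k, α ≠ β ∧
          (r φ : Matrix (Fin 2) (Fin 2) k).charpoly = (X - C α) * (X - C β) := by
  classical
  obtain ⟨z, rfl⟩ := Submodule.mkQ_surjective _ x
  obtain ⟨σ, hσ, hσt, hσz⟩ := h.exists_element n z
  -- the level
  obtain ⟨Fz, hFz, -, -, hzc⟩ := (isAdm_dual (isAdm_ad0 (p := p) r h.level)).exists_level
    (MonoidHom.id GQ) z.2.2
  obtain ⟨Fr, hFr, hrF⟩ := h.level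
  haveI : NeZero (p ^ (n + 1)) := ⟨(pow_pos (Fact.out : p.Prime).pos _).ne'⟩
  obtain ⟨ζ, hζ⟩ := HasEnoughRootsOfUnity.exists_primitiveRoot (AlgebraicClosure ℚ) (p ^ (n + 1))
  haveI := FLTAgent.Common.isAlgebraic_qbar
  haveI := IntermediateField.adjoin.finiteDimensional (K := ℚ) (Algebra.IsIntegral.isIntegral ζ)
  haveI := hFz; haveI := hFr
  obtain ⟨E, hE, hEle, hEn⟩ :=
    exists_normal_level (Fz ⊔ Fr ⊔ IntermediateField.adjoin ℚ {ζ})
  haveI := hE
  have hEK : E.fixingSubgroup ≤ cycKer p n := by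
    intro g hg
    refine mem_ker_cycHom_of_fix _ fun y hy => ?_
    obtain ⟨i, -, rfl⟩ := hζ.eq_pow_of_pow_eq_one hy
    rw [map_pow, (IntermediateField.mem_fixingSubgroup_iff _ _).1
      (IntermediateField.fixingSubgroup_antitone le_sup_right (hEle hg)) ζ
      (IntermediateField.mem_adjoin_simple_self ℚ ζ)]
  have hEr : ∀ g ∈ E.fixingSubgroup, r g = 1 := fun g hg => hrF g
    (IntermediateField.fixingSubgroup_antitone (le_sup_right.trans le_sup_left) (hEle hg))
  have hEz : ∀ g s : GQ, s ∈ E.fixingSubgroup → z.1 (g * s) = z.1 g := fun g s hs => hzc g s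
    (IntermediateField.fixingSubgroup_antitone (le_sup_left.trans le_sup_left) (hEle hs))
  have agree : ∀ f f' : GQ, (∀ y ∈ E, f y = f' y) → ∃ s ∈ E.fixingSubgroup, f' = f * s := by
    intro f f' hff
    refine ⟨f⁻¹ * f', (IntermediateField.mem_fixingSubgroup_iff _ _).2 fun y hy => ?_, by group⟩
    rw [AlgEquiv.mul_apply, ← hff y hy]
    exact f.symm_apply_apply y
  obtain ⟨ℓ, A, τ, i, j, hℓ, hℓS, hA, hF, hi, hj⟩ := exists_frobenius_gen E σ S
  obtain ⟨s₁, hs₁, e₁⟩ := agree _ _ hi
  obtain ⟨s₂, hs₂, e₂⟩ := agree _ _ fun y hy => (hj y hy).symm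
  have hτK : τ ∈ cycKer p n := by
    rw [e₂]; exact mul_mem (pow_mem hσ _) (hEK hs₂)
  have hℓp : ¬ ℓ ∣ p ^ (n + 1) := fun hd =>
    hℓS ((Nat.prime_dvd_prime_iff_eq hℓ Fact.out).mp (hℓ.dvd_of_dvd_pow hd) ▸ hpS)
  have hτt : (matHom r τ).trace ^ 2 ≠ 4 := by
    intro ht
    apply hσt
    have e : matHom r σ = matHom r (τ ^ i) := by
      rw [e₁, map_mul, matHom_apply s₁, hEr _ hs₁, Units.val_one, mul_one]
    rw [e]
    exact h.trace_pow hτK i ht
  refine ⟨⟨ℓ, hℓ⟩, hℓS, dvd_sub_one_of_fix hℓ hℓp hA hF hτK, ?_, ?_⟩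
  · intro hx hres
    have hzB : z.1 ∉ B1 (dual' (ad0 p r)) := fun hB =>
      hx ((Submodule.Quotient.mk_eq_zero _).mpr hB)
    obtain ⟨Y, hYσ, hYne⟩ := hσz hzB
    rw [res1] at hres
    erw [h1map_mk] at hres
    obtain ⟨f, hf⟩ := (h1mk_eq_zero_iff _ _).mp hres
    obtain ⟨g, hg⟩ := EIS.exists_smul_place hℓ hA (liesOver_primeLocalPlace ⟨ℓ, hℓ⟩)
    have hmem : g * τ ^ i * g⁻¹ ∈ (loc ⟨ℓ, hℓ⟩).range := by
      rw [range_loc, ← hg, MulAction.mem_stabilizer_iff, mul_smul, mul_smul, inv_smul_smul]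
      congr 1
      exact MulAction.mem_stabilizer_iff.mp (pow_mem hF.mem_decompositionSubgroup i)
    obtain ⟨γ, hγ⟩ := hmem
    have hf' : (dual' (ad0 p r)).ρ (loc ⟨ℓ, hℓ⟩ γ) f - f = z.1 (loc ⟨ℓ, hℓ⟩ γ) := hf γ
    rw [hγ] at hf'
    have hzm : ∀ a b : GQ, z.1 (a * b) = (dual' (ad0 p r)).ρ a (z.1 b) + z.1 a := fun a b => by
      have := (mem_cocycles₁_def _).1 z.2.1 a b
      linear_combination (norm := module) -this
    set T := τ ^ i
    have e₁' : σ = T * s₁ := e₁
    have hzT : z.1 T = z.1 σ := by rw [e₁', hEz _ _ hs₁]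
    have hTr : r T = r σ := by rw [e₁', map_mul, hEr _ hs₁, mul_one]
    have hTχ : ExtCitation.cycloChar p T = 1 := cycloChar_cycKer (pow_mem hτK i)
    have hTY : (ad0 p r).ρ T Y = Y := by
      conv_rhs => rw [← hYσ]
      refine Subtype.ext ?_
      rw [ad0_apply, ad0_apply, hTr]
    -- move the coboundary relation to `T`
    obtain ⟨f', hf''⟩ : ∃ f', z.1 T = (dual' (ad0 p r)).ρ T f' - f' := by
      set ρ' := (dual' (ad0 p r)).ρ
      have e1 : z.1 (g * T * g⁻¹) = ρ' (g * T) (z.1 g⁻¹) + (ρ' g (z.1 T) + z.1 g) := by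
        rw [hzm, hzm]
      have h0 : z.1 1 = 0 := by
        have := hzm 1 1
        rw [one_mul, map_one, Module.End.one_apply, left_eq_add] at this
        exact this
      have e2 : z.1 g⁻¹ = -ρ' g⁻¹ (z.1 g) := by
        refine eq_neg_of_add_eq_zero_right ?_
        rw [← hzm, inv_mul_cancel, h0]
      refine ⟨ρ' g⁻¹ (f + z.1 g), ?_⟩
      have e3 : ρ' g (z.1 T) = ρ' (g * T * g⁻¹) (f + z.1 g) - (f + z.1 g) := by
        rw [map_add, map_mul _ (g * T) g⁻¹, Module.End.mul_apply, Module.End.mul_apply]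
        rw [e1, e2, map_neg, map_mul _ (g * T) g⁻¹, Module.End.mul_apply] at hf'
        linear_combination (norm := module) -hf'
      apply_fun ρ' g⁻¹ at e3
      rw [← Module.End.mul_apply, ← map_mul, inv_mul_cancel, map_one, Module.End.one_apply,
        map_sub, ← Module.End.mul_apply, ← map_mul,
        show g⁻¹ * (g * T * g⁻¹) = T * g⁻¹ by group, map_mul, Module.End.mul_apply] at e3
      exact e3
    apply hYne
    rw [← hzT, hf'']
    exact eval_coboundary hTχ hTY f'
  · intro P hP φ hφ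
    obtain ⟨g, hg⟩ := EIS.exists_smul_place hℓ hA hP
    have hgF : P.IsFrobeniusAt (g * τ * g⁻¹) ℓ := hg ▸ Chebotarev.isFrobeniusAt_conj hF g
    have hin := frobenius_inv_mul_mem_inertia hφ hgF
    have hrφ : r φ = r g * r τ * (r g)⁻¹ := by
      have e := hur ℓ hℓ hℓS P hP _ hin
      rw [map_mul, map_inv, inv_mul_eq_one] at e
      rw [← e, map_mul, map_mul, map_inv]
    obtain ⟨α, β, he⟩ := h.hsplit τ
    refine ⟨α, β, ?_, ?_⟩
    · rintro rfl
      apply hτt
      obtain ⟨h1, h2'⟩ := split_of_charpoly he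
      rw [← matHom_apply, h.det_cycKer hτK] at h2'
      rw [matHom_apply, ← h1]
      linear_combination 4 * h2'
    · rw [hrφ, Units.val_mul, Units.val_mul]
      rw [Matrix.charpoly_mul_comm, ← mul_assoc, ← Units.val_mul, inv_mul_cancel, Units.val_one, one_mul, he]

/-- one prime for each of finitely many classes -/
theorem Setting.exists_primes (n : ℕ) (S : Finset ℕ) (hpS : p ∈ S)
    (hur : ∀ q : ℕ, q.Prime → q ∉ S → ∀ A : ValuationSubring (AlgebraicClosure ℚ),
      A.LiesOverPrime q → ∀ σ ∈ A.inertiaSubgroupIn ℚ, r σ = 1)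
    {m : ℕ} (x : Fin m → cH1 (MonoidHom.id GQ) (dual' (ad0 p r))) :
    ∃ qv : Fin m → Nat.Primes, Function.Injective (fun i => ((qv i : Nat.Primes) : ℕ)) ∧
      ∀ i, ((qv i : ℕ) ∉ S) ∧ p ^ (n + 1) ∣ (qv i : ℕ) - 1 ∧ (x i ≠ 0 → res1 (qv i) _ (x i) ≠ 0) ∧
        ∀ P : ValuationSubring (AlgebraicClosure ℚ), P.LiesOverPrime (qv i : ℕ) → ∀ φ : GQ,
          P.IsFrobeniusAt φ (qv i : ℕ) → ∃ α β : k, α ≠ β ∧
            (r φ : Matrix (Fin 2) (Fin 2) k).charpoly = (X - C α) * (X - C β) := by
  classical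
  induction m with
  | zero => exact ⟨Fin.elim0, fun i => i.elim0, fun i => i.elim0⟩
  | succ m ih =>
    obtain ⟨qv, hinj, hqv⟩ := ih (fun i => x i.castSucc)
    obtain ⟨q, hqS, hq⟩ := h.exists_prime n (S ∪ Finset.univ.image fun i => (qv i : ℕ))
      (Finset.mem_union_left _ hpS) (fun q hq hqS => hur q hq fun hm => hqS (Finset.mem_union_left _ hm))
      (x (Fin.last m))
    rw [Finset.mem_union, not_or] at hqS
    refine ⟨Fin.snoc qv q, ?_, ?_⟩
    · intro a b hab
      induction a using Fin.lastCases with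
      | last =>
        induction b using Fin.lastCases with
        | last => rfl
        | cast b =>
          simp only [Fin.snoc_last, Fin.snoc_castSucc] at hab
          exact absurd (Finset.mem_image.mpr ⟨b, Finset.mem_univ _, hab.symm⟩) hqS.2
      | cast a =>
        induction b using Fin.lastCases with
        | last =>
          simp only [Fin.snoc_last, Fin.snoc_castSucc] at hab
          exact absurd (Finset.mem_image.mpr ⟨a, Finset.mem_univ _, hab⟩) hqS.2
        | cast b =>
          simp only [Fin.snoc_castSucc] at hab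
          exact congrArg Fin.castSucc (hinj hab)
    · intro i
      induction i using Fin.lastCases with
      | last => rw [Fin.snoc_last]; exact ⟨hqS.1, hq⟩
      | cast i => rw [Fin.snoc_castSucc]; exact hqv i

end FLTAgent.PT.TW
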