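import Fermat.Agent.PT.TW.Choice
import Fermat.Agent.PT.TW.Classes
import Fermat.Agent.PT.TW.Cotangent
import Fermat.Agent.PT.TW.FlatAPI
import Fermat.Agent.PT.EulerAPI

/-!
Area PT, parcel G: the Selmer bound at a Taylor-Wiles set and the number of generators.
-/

set_option autoImplicit false
set_option linter.unusedSectionVars false

noncomputable section

open CategoryTheory groupCohomology Matrix IsLocalRing Polynomial

namespace FLTAgent.PT.TW

section Field

variable {p : ℕ} [Fact p.Prime] {k : Type} [Field k] [Algebra (ZMod p) k] [Finite k]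
  {ρbar : ResidualGaloisRep k} {r : GQ →* GL (Fin 2) k} (h : Setting p ρbar r)

include h

/-- `ad⁰` has no invariants -/
theorem Setting.cH0_eq_bot : cH0 (ad0 p r) = ⊥ := by
  rw [Submodule.eq_bot_iff]
  intro X hX
  set Z : Matrix (Fin 2) (Fin 2) k := X.1
  have hc : ∀ g, matHom r g * Z = Z * matHom r g := fun g => by
    have e : matHom r g * Z * matHom r g⁻¹ = Z := by
      rw [matHom_apply, matHom_inv]
      exact (ad0_apply r g X).symm.trans (congrArg Subtype.val (hX g))
    calc matHom r g * Z = matHom r g * Z * (matHom r g⁻¹ * matHom r g) := by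
          rw [map_inv_mul, mul_one]
      _ = _ := by rw [← mul_assoc, e]
  have hall : ∀ M : Matrix (Fin 2) (Fin 2) k, M * Z = Z * M := by
    intro M
    have hM : M ∈ Submodule.span k (matHom r '' (cycKer p 0 : Set GQ)) := by
      rw [h.span_cycKer]; exact Submodule.mem_top
    induction hM using Submodule.span_induction with
    | mem x hx => obtain ⟨g, -, rfl⟩ := hx; exact hc g
    | zero => simp
    | add a b _ _ ha hb => rw [add_mul, mul_add, ha, hb]
    | smul c a _ ha => rw [smul_mul_assoc, mul_smul_comm, ha]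
  have e1 := hall !![0, 1; 0, 0]
  have h10 : Z 1 0 = 0 := by
    have := congrFun (congrFun e1 0) 0
    simpa [Matrix.mul_apply, Fin.sum_univ_two, Matrix.vecMul, dotProduct, vecHead, vecTail] using this
  have h11 : Z 1 1 = Z 0 0 := by
    have := congrFun (congrFun e1 0) 1
    simpa [Matrix.mul_apply, Fin.sum_univ_two, Matrix.vecMul, dotProduct, vecHead, vecTail] using this
  have h01 : Z 0 1 = 0 := by
    have := congrFun (congrFun (hall !![0, 0; 1, 0]) 0) 0
    simpa [Matrix.mul_apply, Fin.sum_univ_two, Matrix.vecMul, dotProduct, vecHead, vecTail,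
      eq_comm] using this
  have ht : Z 0 0 + Z 1 1 = 0 := by
    rw [← trace_fin_two]; exact X.2
  rw [h11, ← two_mul, mul_eq_zero] at ht
  have h00 : Z 0 0 = 0 := ht.resolve_left h.two_ne_zero
  refine Subtype.ext ?_
  ext i j
  show Z i j = 0
  fin_cases i <;> fin_cases j
  · exact h00
  · exact h01
  · exact h10
  · exact h11.trans h00

/-- complex conjugation fixes a line over `k` -/
theorem Setting.finrank_le_h0inf :
    Module.finrank (ZMod p) k ≤ Module.finrank (ZMod p) (h0inf (ad0 p r)) := by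
  haveI := h.charP
  haveI : FiniteDimensional (ZMod p) k := Module.Finite.of_finite
  haveI : FiniteDimensional (ZMod p) (adSpace p k) := Module.Finite.of_finite
  set X := matHom r complexConjugation
  have hd : X.det = -1 := by
    show (matHom r complexConjugation).det = -1
    rw [matHom_apply, h.hdet, cycloChar_conj h.hp2]
    simp
  have hsq : X * X = 1 := by rw [← map_mul, complexConjugation_mul_self, map_one]
  rw [det_fin_two] at hd
  have e00 := congrFun (congrFun hsq 0) 0
  have e01 := congrFun (congrFun hsq 0) 1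
  have e11 := congrFun (congrFun hsq 1) 1
  simp [Matrix.mul_apply, Fin.sum_univ_two] at e00 e01 e11
  have ht : X.trace = 0 := by
    rw [trace_fin_two]
    have : (X 0 0 + X 1 1) * (X 0 0 + X 1 1) = 0 := by linear_combination e00 + e11 + 2 * hd
    simpa using this
  have hX0 : X ≠ 0 := fun h0 => by
    rw [h0, zero_mul] at hsq
    exact zero_ne_one hsq
  have hinv : matHom r complexConjugation⁻¹ = X := by
    rw [inv_eq_of_mul_eq_one_right complexConjugation_mul_self]
  let ι : k →ₗ[ZMod p] h0inf (ad0 p r) :=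
    { toFun := fun a => ⟨(⟨a • X, show (a • X).trace = 0 by rw [trace_smul, ht, smul_zero]⟩ :
          adSpace p k), fun g => by
        obtain ⟨n, hn⟩ := Subgroup.mem_zpowers_iff.mp g.2
        refine Subtype.ext ?_
        show (r (g : GQ) : Matrix (Fin 2) (Fin 2) k) * (a • X) *
          ((r (g : GQ))⁻¹ : GL (Fin 2) k) = a • X
        rw [← matHom_apply, ← matHom_inv, mul_smul_comm, smul_mul_assoc]
        congr 1
        rw [← hn]
        have hcm : complexConjugation ^ n * complexConjugation * (complexConjugation ^ n)⁻¹ =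
            complexConjugation := by
          rw [← _root_.zpow_neg, ← _root_.zpow_add_one, ← _root_.zpow_add]
          simp
        rw [show X = matHom r complexConjugation from rfl, ← map_mul, ← map_mul, hcm]⟩
      map_add' := fun a b => Subtype.ext (Subtype.ext (add_smul a b X))
      map_smul' := fun c a => Subtype.ext (Subtype.ext (smul_assoc c a X)) }
  refine LinearMap.finrank_le_finrank_of_injective (f := ι) fun a b hab => ?_
  have e : a • X = b • X := congrArg (fun x => x.1.1) hab
  exact smul_left_injective k hX0 e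

end Field

variable {p : ℕ} [Fact p.Prime] {𝒪 : Type} [CommRing 𝒪] [IsDomain 𝒪] [IsDiscreteValuationRing 𝒪]
  [IsAdicComplete (maximalIdeal 𝒪) 𝒪] [Finite (ResidueField 𝒪)]
  [Algebra (ZMod p) (ResidueField 𝒪)] {ρbar : ResidualGaloisRep (ResidueField 𝒪)}
  {r : GQ →* GL (Fin 2) (ResidueField 𝒪)}

/-- Greenberg-Wiles at a Taylor-Wiles set, and the generators of the deformation rings -/
theorem Setting.exists_taylorWiles (h : Setting p ρbar r) (S Smin : Finset ℕ) (hpSmin : p ∈ Smin)
    (hSmin : Smin ⊆ S) (hmin : ∀ q : ℕ, q.Prime → q ≠ p → (q ∈ Smin ↔ ¬ ρbar.IsUnramifiedAt q))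
    (hmu : Module.finrank (ZMod p) (lH1 (ExtCitation.pPrime p) (mu p)) ≤ 2) :
    ∃ m : ℕ, ∀ n : ℕ, ∃ qv : Fin m → ℕ, Function.Injective qv ∧
      (∀ i, (qv i).Prime ∧ qv i ∉ S ∧ p ^ (n + 1) ∣ qv i - 1) ∧
      (∀ i, ∀ P : ValuationSubring (AlgebraicClosure ℚ), P.LiesOverPrime (qv i) →
        ∀ φ : GQ, P.IsFrobeniusAt φ (qv i) → ∃ α β : ResidueField 𝒪, α ≠ β ∧
          LinearMap.charpoly (ρbar.ρ φ) = (X - C α) * (X - C β)) ∧
      ∀ (𝒟 : ∀ ⦃A : Type⦄ [CommRing A] [IsLocalRing A] [Algebra 𝒪 A], GaloisRepAdic A → Prop)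
        (DQ : GaloisRep.DeformationRingData 𝒪 ρbar 𝒟),
        DQ.ρ.DetIsCyclotomic p →
        (∀ q : ℕ, q.Prime → q ∉ Smin ∪ Finset.univ.image qv → DQ.ρ.IsUnramifiedAt q) →
        (∀ q ∈ Smin, q.Prime → q ≠ p → DQ.ρ.IsUnipotentOnInertiaAt q) →
        (∀ (cd : Coord (univData DQ) r) (φ : DQ.R →ₐ[𝒪] DualNumber (ResidueField 𝒪)), Function.Surjective φ →
          ∀ ρ' : GaloisRepAdic (DualNumber (ResidueField 𝒪)),
            Deform.RepMat ρ'.ρ (push cd φ) → 𝒟 ρ') →
        (∀ (cd : Coord (univData DQ) r) (h1 : ∀ a, algebraMap 𝒪 (DualNumber (ResidueField 𝒪)) a =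
            TrivSqZeroExt.inl (residue 𝒪 a)) (hdet : DetMat p cd.R₀)
            (hrdet : ∀ σ, (matHom r σ).det ≠ 0),
          ∃ Lp : Submodule (ZMod p) (lH1 (ExtCitation.pPrime p) (ad0 p r)),
            Module.finrank (ZMod p) Lp ≤
              Module.finrank (ZMod p) (lH0 (ExtCitation.pPrime p) (ad0 p r)) +
                Module.finrank (ZMod p) (ResidueField 𝒪) ∧
            ∀ φ, res1 (ExtCitation.pPrime p) (ad0 p r) (h1mk _ _ (tanCoc cd h1 hdet hrdet φ)) ∈ Lp) →
        ∃ γ : MvPowerSeries (Fin m) 𝒪 →ₐ[𝒪] DQ.R, Function.Surjective γ := by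
  classical
  have hM : IsAdm (MonoidHom.id GQ) (ad0 p r) := isAdm_ad0 r h.level
  have hM' : IsAdm (MonoidHom.id GQ) (dual' (ad0 p r)) := isAdm_dual hM
  set Tmin : Finset Nat.Primes := Smin.subtype Nat.Prime
  have hTmin : ∀ q : Nat.Primes, q ∈ Tmin ↔ (q : ℕ) ∈ Smin := fun q => Finset.mem_subtype
  set N := H1T Tmin (dual' (ad0 p r))
  haveI hNfin : Module.Finite (ZMod p) N := finite_H1T h.hp2 hM' Tmin
  haveI : Finite N := Module.finite_of_finite (ZMod p)
  let e := Finite.equivFin N
  refine ⟨Nat.card N, fun n => ?_⟩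
  have hone : ∀ σ, ρbar.ρ σ = 1 → r σ = 1 := by
    intro σ hσ
    obtain ⟨b, hb⟩ := h.rep
    refine Units.ext (((hb σ).symm).trans ?_)
    rw [hσ, LinearMap.toMatrix_one, Units.val_one]
  have hur : ∀ q : ℕ, q.Prime → q ∉ Smin → ∀ A : ValuationSubring (AlgebraicClosure ℚ),
      A.LiesOverPrime q → ∀ σ ∈ A.inertiaSubgroupIn ℚ, r σ = 1 := by
    intro q hq hqS A hA σ hσ
    have hqp : q ≠ p := fun e => hqS (e ▸ hpSmin)
    exact hone σ (not_not.mp (fun hn => hqS ((hmin q hq hqp).mpr hn)) A hA σ hσ)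
  obtain ⟨qv, hinj, hqv⟩ := h.exists_primes n S (hSmin hpSmin)
    (fun q hq hqS => hur q hq fun hm => hqS (hSmin hm)) (fun i => ((e.symm i : N) : cH1 _ _))
  refine ⟨fun i => (qv i : ℕ), hinj, fun i => ⟨(qv i).2, (hqv i).1, (hqv i).2.1⟩, fun i P hP φ hφ => ?_,
    ?_⟩
  · obtain ⟨α, β, hαβ, hc⟩ := (hqv i).2.2.2 P hP φ hφ
    obtain ⟨b, hb⟩ := h.rep
    refine ⟨α, β, hαβ, ?_⟩
    rw [← LinearMap.charpoly_toMatrix _ b, hb φ]
    exact hc
  intro 𝒟 DQ hdetQ hunr hunip hpush hp
  obtain ⟨cd⟩ := nonempty_coord (univData DQ) (r := r) h.rep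
  have h1 : ∀ a, algebraMap 𝒪 (DualNumber (ResidueField 𝒪)) a =
      TrivSqZeroExt.inl (residue 𝒪 a) := fun a => rfl
  have hdet : DetMat p cd.R₀ := (detIsCyclotomic_iff cd.rep).mp hdetQ
  have hrdet : ∀ σ, (matHom r σ).det ≠ 0 := fun σ => by
    rw [matHom_apply, h.hdet]
    simp
  set pP := ExtCitation.pPrime p
  obtain ⟨Lp, hLp, hLpmem⟩ := hp cd h1 hdet hrdet
  haveI : FiniteDimensional (ZMod p) (ResidueField 𝒪) := Module.Finite.of_finite
  set f := Module.finrank (ZMod p) (ResidueField 𝒪)
  -- the conditions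
  set I : Finset Nat.Primes := Finset.univ.image qv
  set T : Finset Nat.Primes := Tmin ∪ I
  let L : ∀ q, Submodule (ZMod p) (lH1 q (ad0 p r)) :=
    Function.update (fun q => if q ∈ Tmin then unr1 q (ad0 p r) else ⊤) pP Lp
  have hqp : ∀ i, (qv i : ℕ) ≠ p := fun i e => (hqv i).1 (e ▸ hSmin hpSmin)
  have hqT : ∀ i, qv i ∉ Tmin := fun i hi => (hqv i).1 (hSmin ((hTmin _).mp hi))
  have hne : ∀ i, qv i ≠ pP := fun i e => hqp i (by rw [e]; rfl)
  have hpT : pP ∈ Tmin := (hTmin _).mpr hpSmin
  have hI : ∀ i, L (qv i) = ⊤ := fun i => by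
    simp only [L, Function.update_of_ne (hne i), if_neg (hqT i)]
  have hLP : L pP = Lp := Function.update_self _ _ _
  have hLne : ∀ q, q ≠ pP → L q = if q ∈ Tmin then unr1 q (ad0 p r) else ⊤ :=
    fun q hq => Function.update_of_ne hq _ _
  have hunrM : ∀ q : Nat.Primes, q ∉ Tmin → IsUnrAt q (ad0 p r) := by
    intro q hq g hg
    refine LinearMap.ext fun X => Subtype.ext ?_
    rw [ad0_apply, hur q q.2 (fun hm => hq ((hTmin q).mpr hm)) _ (liesOver_primeLocalPlace q) _ hg]
    simp
  -- the classes lie in the Selmer group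
  have hV : ∀ φ, h1mk (MonoidHom.id GQ) _ (tanCoc cd h1 hdet hrdet φ) ∈ Sel T L := by
    intro φ
    simp only [Sel, H1T, Submodule.mem_inf, Submodule.mem_iInf, Submodule.mem_comap]
    refine ⟨fun q hq => ?_, fun q hq => ?_⟩
    · refine res1_tanCoc_mem_unr1_of_unramified cd h1 hdet hrdet q (hunr q q.2 fun hm => hq ?_) φ
      rcases Finset.mem_union.mp hm with hm | hm
      · exact Finset.mem_union_left _ ((hTmin q).mpr hm)
      · obtain ⟨i, -, hi⟩ := Finset.mem_image.mp hm
        exact Finset.mem_union_right _ (Finset.mem_image.mpr ⟨i, Finset.mem_univ _, Subtype.ext hi⟩)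
    · by_cases hqP : q = pP
      · subst hqP
        simp only [L, Function.update_self]
        exact hLpmem φ
      · simp only [L, Function.update_of_ne hqP]
        split_ifs with hm
        · have hqp' : (q : ℕ) ≠ p := fun e => hqP (Subtype.ext e)
          exact res1_tanCoc_mem_unr1_of_unipotent cd h1 hdet hrdet h q hqp'
            (hunip q ((hTmin q).mp hm) q.2 hqp')
            ((hmin q q.2 hqp').mp ((hTmin q).mp hm)) φ
        · exact Submodule.mem_top
  -- the dual Selmer group vanishes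
  have hdual : Sel T (Lperp hM L) = ⊥ := by
    rw [Submodule.eq_bot_iff]
    intro x hx
    simp only [Sel, H1T, Submodule.mem_inf, Submodule.mem_iInf, Submodule.mem_comap] at hx
    have hq0 : ∀ i, res1 (qv i) (dual' (ad0 p r)) x = 0 := by
      intro i
      have hxi := hx.2 (qv i) (Finset.mem_union_right _ (Finset.mem_image.mpr ⟨i, Finset.mem_univ _, rfl⟩))
      simp only [Lperp, Submodule.mem_iInf, LinearMap.mem_ker] at hxi
      refine (pair11_bijective (qv i) hM).2.1 ?_
      rw [map_zero]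
      exact LinearMap.ext fun y => hxi ⟨y, by rw [hI]; exact Submodule.mem_top⟩
    have hxN : x ∈ N := by
      simp only [N, H1T, Submodule.mem_iInf, Submodule.mem_comap]
      intro q hq
      by_cases hqI : q ∈ I
      · obtain ⟨i, -, rfl⟩ := Finset.mem_image.mp hqI
        rw [hq0 i]
        exact zero_mem _
      · exact hx.1 q (by simp [T, hq, hqI])
    by_contra hx0
    have hj : ((e.symm (e ⟨x, hxN⟩) : N) : cH1 (MonoidHom.id GQ) (dual' (ad0 p r))) = x :=
      congrArg Subtype.val (Equiv.symm_apply_apply e ⟨x, hxN⟩)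
    have hxq := (hqv (e ⟨x, hxN⟩)).2.2.1
    simp only [hj] at hxq
    exact hxq hx0 (hq0 _)
  have hT : IsUnrOutside T (ad0 p r) := fun q hq => hunrM q fun hm => hq (Finset.mem_union_left _ hm)
  have hGW := greenberg_wiles h.hp2 hM T hT (fun q hq =>
    Finset.mem_union_left _ (by rwa [show q = pP from Subtype.ext hq])) L
  rw [hdual, finrank_bot, h.cH0_eq_bot, finrank_bot] at hGW
  have hinf := h.finrank_le_h0inf
  -- the local conditions
  have hloc : ∀ q ∈ T, Module.finrank (ZMod p) (L q) ≤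
      Module.finrank (ZMod p) (lH0 q (ad0 p r)) + if q ∈ insert pP I then f else 0 := by
    intro q hq
    by_cases hqP : q = pP
    · subst hqP
      rw [if_pos (Finset.mem_insert_self _ _)]
      rw [hLP]
      exact hLp
    · rw [hLne q hqP]
      by_cases hm : q ∈ Tmin
      · rw [if_pos hm, finrank_unr1 q hM]
        exact Nat.le_add_right _ _
      · obtain ⟨i, -, rfl⟩ := Finset.mem_image.mp ((Finset.mem_union.mp hq).resolve_left hm)
        rw [if_neg hm, if_pos (Finset.mem_insert_of_mem (Finset.mem_image.mpr ⟨i, Finset.mem_univ _, rfl⟩)),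
          finrank_top]
        exact h.finrank_lH1_tw (qv i) (hqp i)
          (dvd_trans (dvd_pow_self p (Nat.succ_ne_zero n)) (hqv i).2.1) (hqv i).2.2.2
  have hsum := (Finset.sum_le_sum hloc).trans_eq Finset.sum_add_distrib
  have hcount : (∑ q ∈ T, if q ∈ insert pP I then f else 0) ≤ (Nat.card N + 1) * f := by
    rw [← Finset.sum_filter, Finset.sum_const, smul_eq_mul]
    refine Nat.mul_le_mul_right _ ?_
    calc _ ≤ (insert pP I).card := Finset.card_le_card fun q hq => (Finset.mem_filter.mp hq).2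
      _ ≤ I.card + 1 := Finset.card_insert_le _ _
      _ ≤ _ := Nat.add_le_add_right (Finset.card_image_le.trans_eq (Finset.card_fin _)) 1
  rw [add_mul, one_mul] at hcount
  have hsel : Module.finrank (ZMod p) (Sel T L) ≤ Nat.card N * f := by linarith
  haveI := finite_H1T h.hp2 hM T
  haveI : Module.Finite (ZMod p) (Sel T L) :=
    Module.Finite.of_injective (Submodule.inclusion (inf_le_left : Sel T L ≤ H1T T (ad0 p r)))
      (Submodule.inclusion_injective _)
  haveI : Finite (Sel T L) := Module.finite_of_finite (ZMod p)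
  obtain ⟨hfin, hcard⟩ := card_algHom_le h1 cd (hpush cd) hdet hrdet (Sel T L) hV
  refine exists_quotient_of_card_algHom_le h1 DQ.residue_surjective hfin (hcard.trans ?_)
  rw [Module.natCard_eq_pow_finrank (K := ZMod p) (V := Sel T L),
    Module.natCard_eq_pow_finrank (K := ZMod p) (V := ResidueField 𝒪), ← pow_mul, Nat.card_zmod]
  exact Nat.pow_le_pow_right (Fact.out : p.Prime).pos (by linarith)

end FLTAgent.PT.TW
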