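import Mathlib

/-!
Area PT, parcel G: a complete local algebra generated by `r` elements modulo `(ϖ, m²)` is a quotient
of the power series ring in `r` variables.
-/

set_option autoImplicit false

noncomputable section

namespace FLTAgent.PT.TW

open IsLocalRing MvPolynomial

variable {𝒪 : Type} [CommRing 𝒪] [IsLocalRing 𝒪] {R : Type} [CommRing R] [IsLocalRing R]
  [Algebra 𝒪 R] {r : ℕ}

/-- polynomials of order `n` for the ideal `(𝔪, X)` -/
def Ordn (n : ℕ) (f : MvPolynomial (Fin r) 𝒪) : Prop :=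
  ∀ x : Fin r →₀ ℕ, f.coeff x ∈ maximalIdeal 𝒪 ^ (n - Finsupp.degree x)

theorem Ordn.mul {n m : ℕ} {f g : MvPolynomial (Fin r) 𝒪} (hf : Ordn n f) (hg : Ordn m g) :
    Ordn (n + m) (f * g) := by
  classical
  intro x
  rw [coeff_mul]
  refine sum_mem fun ab hab => ?_
  simp only [Finset.HasAntidiagonal.mem_antidiagonal] at hab
  have := Ideal.mul_mem_mul (hf ab.1) (hg ab.2)
  rw [← pow_add] at this
  refine Ideal.pow_le_pow_right ?_ this
  have : Finsupp.degree x = Finsupp.degree ab.1 + Finsupp.degree ab.2 := by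
    rw [← hab, map_add]
  omega

theorem Ordn.add {n : ℕ} {f g : MvPolynomial (Fin r) 𝒪} (hf : Ordn n f) (hg : Ordn n g) :
    Ordn n (f + g) := fun x => by rw [coeff_add]; exact add_mem (hf x) (hg x)

theorem ordn_zero (f : MvPolynomial (Fin r) 𝒪) : Ordn 0 f := fun x => by simp

variable (t : Fin r → R) (ht : ∀ i, t i ∈ maximalIdeal R)
  [IsLocalHom (algebraMap 𝒪 R)]

include ht in
theorem Ordn.aeval_mem {n : ℕ} {f : MvPolynomial (Fin r) 𝒪} (hf : Ordn n f) :
    aeval t f ∈ maximalIdeal R ^ n := by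
  classical
  rw [f.as_sum, map_sum]
  refine sum_mem fun x _ => ?_
  rw [aeval_monomial]
  have h1 : algebraMap 𝒪 R (f.coeff x) ∈ maximalIdeal R ^ (n - Finsupp.degree x) := by
    have hle : (maximalIdeal 𝒪).map (algebraMap 𝒪 R) ≤ maximalIdeal R :=
      Ideal.map_le_iff_le_comap.mpr fun a ha => Ideal.mem_comap.mpr (map_nonunit _ a ha)
    have := Ideal.mem_map_of_mem (algebraMap 𝒪 R) (hf x)
    rw [Ideal.map_pow] at this
    exact Ideal.pow_right_mono hle _ this
  have h2 : (x.prod fun i e => t i ^ e) ∈ maximalIdeal R ^ Finsupp.degree x := by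
    rw [Finsupp.prod, Finsupp.degree_apply, ← Finset.prod_pow_eq_pow_sum]
    exact Ideal.prod_mem_prod fun i _ => Ideal.pow_mem_pow (ht i) _
  have := Ideal.mul_mem_mul h1 h2
  rw [← pow_add] at this
  exact Ideal.pow_le_pow_right (by omega) this

variable (hgen : ∀ z ∈ maximalIdeal R, ∃ a ∈ maximalIdeal 𝒪, ∃ c : Fin r → 𝒪,
  z - (algebraMap 𝒪 R a + ∑ i, algebraMap 𝒪 R (c i) * t i) ∈ maximalIdeal R ^ 2)

include ht hgen in
theorem exists_ordn (n : ℕ) {z : R} (hz : z ∈ maximalIdeal R ^ n)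
    (hres : Function.Surjective (residue R ∘ algebraMap 𝒪 R)) :
    ∃ f : MvPolynomial (Fin r) 𝒪, Ordn n f ∧ z - aeval t f ∈ maximalIdeal R ^ (n + 1) := by
  classical
  induction n generalizing z with
  | zero =>
    obtain ⟨a, ha⟩ := hres (residue R z)
    refine ⟨C a, ordn_zero _, ?_⟩
    rw [zero_add, pow_one, aeval_C, ← residue_eq_zero_iff, map_sub, sub_eq_zero]
    exact ha.symm
  | succ n ih =>
    rw [pow_succ] at hz
    induction hz using Submodule.mul_induction_on' with
    | mem_mul_mem u hu v hv =>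
      obtain ⟨f, hf, hfu⟩ := ih hu
      obtain ⟨a, ha, c, hc⟩ := hgen v hv
      let g : MvPolynomial (Fin r) 𝒪 := C a + ∑ i, C (c i) * X i
      have hg : Ordn 1 g := by
        intro x
        rcases eq_or_ne x 0 with rfl | hx
        · have h0 : (g.coeff 0) = a := by
            rw [← constantCoeff_eq]; simp [g]
          rw [h0]; simpa using ha
        · have : 1 ≤ Finsupp.degree x := by
            rcases Nat.eq_zero_or_pos (Finsupp.degree x) with h | h
            · exact absurd ((Finsupp.degree_eq_zero_iff x).mp h) hx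
            · exact h
          rw [Nat.sub_eq_zero_of_le this, pow_zero, Ideal.one_eq_top]
          exact trivial
      have hev : aeval t g = algebraMap 𝒪 R a + ∑ i, algebraMap 𝒪 R (c i) * t i := by
        simp [g]
      refine ⟨f * g, hf.mul hg, ?_⟩
      rw [map_mul, show u * v - aeval t f * aeval t g =
        (u - aeval t f) * v + aeval t f * (v - aeval t g) by ring]
      refine add_mem ?_ ?_
      · rw [pow_succ _ (n + 1)]
        exact Ideal.mul_mem_mul hfu hv
      · rw [show n + 1 + 1 = n + 2 by ring, pow_add, hev]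
        exact Ideal.mul_mem_mul (hf.aeval_mem t ht) hc
    | add x _ y _ hx hy =>
      obtain ⟨f, hf, hfx⟩ := hx
      obtain ⟨g, hg, hgy⟩ := hy
      refine ⟨f + g, hf.add hg, ?_⟩
      rw [map_add, add_sub_add_comm]
      exact add_mem hfx hgy

include ht hgen in
theorem exists_surjective_mvPowerSeries_eval [IsAdicComplete (maximalIdeal 𝒪) 𝒪]
    [IsAdicComplete (maximalIdeal R) R]
    (hres : Function.Surjective (residue R ∘ algebraMap 𝒪 R)) :
    ∃ γ : MvPowerSeries (Fin r) 𝒪 →ₐ[𝒪] R, Function.Surjective γ ∧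
      ∀ i, γ (MvPowerSeries.X i) = t i := by
  classical
  set m := maximalIdeal R
  -- truncated evaluations
  have hkill : ∀ n, ∀ f ∈ MvPolynomial.idealOfVars (Fin r) 𝒪 ^ n,
      (Ideal.Quotient.mkₐ 𝒪 (m ^ n)).comp (aeval t) f = 0 := fun n f hf => by
    refine Ideal.Quotient.eq_zero_iff_mem.mpr (Ordn.aeval_mem t ht fun x => ?_)
    by_cases hx : Finsupp.degree x < n
    · rw [(MvPolynomial.mem_pow_idealOfVars_iff' _ _).mp hf x hx]
      exact zero_mem _
    · rw [Nat.sub_eq_zero_of_le (not_lt.mp hx), pow_zero, Ideal.one_eq_top]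
      exact trivial
  let g : ∀ n, MvPowerSeries (Fin r) 𝒪 →ₐ[𝒪] R ⧸ m ^ n := fun n =>
    (Ideal.Quotient.liftₐ (MvPolynomial.idealOfVars (Fin r) 𝒪 ^ n)
      ((Ideal.Quotient.mkₐ 𝒪 (m ^ n)).comp (aeval t)) (hkill n)).comp
    ((MvPowerSeries.truncTotalAlgHom (Fin r) 𝒪 n).restrictScalars 𝒪)
  have hg : ∀ n f, g n f = Ideal.Quotient.mk (m ^ n) (aeval t (MvPowerSeries.truncTotal n f)) :=
    fun n f => rfl
  have hgc : ∀ {a b : ℕ} (h : a ≤ b),
      (Ideal.Quotient.factorₐ 𝒪 (Ideal.pow_le_pow_right (I := m) h)).comp (g b) = g a := by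
    intro a b h
    refine AlgHom.ext fun f => ?_
    rw [AlgHom.comp_apply, hg, hg]
    show Ideal.Quotient.mk (m ^ a) (aeval t (MvPowerSeries.truncTotal b f)) = _
    rw [Ideal.Quotient.eq, ← map_sub]
    exact Ideal.Quotient.eq_zero_iff_mem.mp
      (hkill a _ (MvPowerSeries.truncTotal_sub_truncTotal_mem_pow_idealOfVars h le_rfl f))
  let γ := IsAdicComplete.liftAlgHom m g hgc
  refine ⟨γ, fun y => ?_, fun i => (IsHausdorff.eq_iff_smodEq (I := m)).mpr fun n => ?_⟩
  rotate_left
  · refine SModEq.mono (Submodule.smul_mono_left (Ideal.pow_le_pow_right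
      (show n ≤ n + 2 by omega))) ?_
    rw [SModEq.sub_mem, smul_eq_mul, Ideal.mul_top, ← Ideal.Quotient.eq]
    show (Ideal.Quotient.mk (m ^ (n + 2))) (γ _) = _
    rw [IsAdicComplete.mk_liftAlgHom, hg]
    congr 1
    rw [show MvPowerSeries.truncTotal (n + 2) (MvPowerSeries.X i : MvPowerSeries (Fin r) 𝒪) =
      MvPolynomial.X i from ?_, aeval_X]
    ext x
    by_cases hx : Finsupp.degree x < n + 2
    · rw [MvPowerSeries.coeff_truncTotal _ hx, MvPowerSeries.coeff_X, MvPolynomial.coeff_X']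
      simp [eq_comm]
    · rw [MvPolynomial.coeff_X', if_neg, MvPowerSeries.coeff_truncTotal_eq_zero]
      · omega
      · rintro rfl
        exact hx (by simp)
  -- successive approximation
  choose step hstep hstep' using fun n (z : R) (hz : z ∈ m ^ n) =>
    exists_ordn t ht hgen n hz hres
  let s : ∀ n, {f : MvPolynomial (Fin r) 𝒪 // y - aeval t f ∈ m ^ n} := fun n =>
    Nat.rec ⟨0, by rw [pow_zero, Ideal.one_eq_top]; exact trivial⟩
      (fun n f => ⟨f.1 + step n _ f.2, by
        rw [map_add, ← sub_sub]; exact hstep' n _ f.2⟩) n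
  have hdiff : ∀ n, Ordn n ((s (n + 1)).1 - (s n).1) := fun n => by
    show Ordn n ((s n).1 + step n _ (s n).2 - (s n).1)
    rw [add_sub_cancel_left]
    exact hstep n _ _
  have hcauchy : ∀ (x : Fin r →₀ ℕ) {a b : ℕ}, a ≤ b →
      (s b).1.coeff x - (s a).1.coeff x ∈ maximalIdeal 𝒪 ^ (a - Finsupp.degree x) := by
    intro x a b h
    induction b, h using Nat.le_induction with
    | base => simp
    | succ b hb ih =>
      have h1 := hdiff b x
      rw [coeff_sub] at h1
      have := add_mem (Ideal.pow_le_pow_right (show a - Finsupp.degree x ≤ b - Finsupp.degree x by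
        omega) h1) ih
      simpa using this
  have hlim : ∀ x : Fin r →₀ ℕ, ∃ L : 𝒪, ∀ n,
      L - (s (n + Finsupp.degree x)).1.coeff x ∈ maximalIdeal 𝒪 ^ n := by
    intro x
    obtain ⟨L, hL⟩ := IsPrecomplete.prec (I := maximalIdeal 𝒪) inferInstance
      (f := fun n => (s (n + Finsupp.degree x)).1.coeff x) (fun {a b} h => by
        rw [SModEq.sub_mem, smul_eq_mul, Ideal.mul_top, ← neg_mem_iff, neg_sub]
        have := hcauchy x (show a + Finsupp.degree x ≤ b + Finsupp.degree x by omega)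
        simpa using this)
    refine ⟨L, fun n => ?_⟩
    have := hL n
    rw [SModEq.sub_mem, smul_eq_mul, Ideal.mul_top, ← neg_mem_iff, neg_sub] at this
    exact this
  choose L hL using hlim
  refine ⟨L, (IsHausdorff.eq_iff_smodEq (I := m)).mpr fun n => ?_⟩
  rw [SModEq.sub_mem, smul_eq_mul, Ideal.mul_top, ← Ideal.Quotient.eq]
  show (Ideal.Quotient.mk (m ^ n)) (γ L) = _
  rw [IsAdicComplete.mk_liftAlgHom, hg, Ideal.Quotient.eq]
  have h1 : aeval t (MvPowerSeries.truncTotal n (L : MvPowerSeries (Fin r) 𝒪) - (s n).1) ∈ m ^ n := by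
    refine Ordn.aeval_mem t ht fun x => ?_
    by_cases hx : Finsupp.degree x < n
    · rw [coeff_sub, MvPowerSeries.coeff_truncTotal _ hx]
      have := hL x (n - Finsupp.degree x)
      rw [Nat.sub_add_cancel hx.le] at this
      exact this
    · rw [Nat.sub_eq_zero_of_le (not_lt.mp hx), pow_zero, Ideal.one_eq_top]
      exact trivial
  rw [map_sub] at h1
  have := sub_mem h1 (s n).2
  simpa using this

include ht hgen in
theorem exists_surjective_mvPowerSeries [IsAdicComplete (maximalIdeal 𝒪) 𝒪]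
    [IsAdicComplete (maximalIdeal R) R]
    (hres : Function.Surjective (residue R ∘ algebraMap 𝒪 R)) :
    ∃ γ : MvPowerSeries (Fin r) 𝒪 →ₐ[𝒪] R, Function.Surjective γ := by
  obtain ⟨γ, h, -⟩ := exists_surjective_mvPowerSeries_eval t ht hgen hres
  exact ⟨γ, h⟩

end FLTAgent.PT.TW
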