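import Fermat.Agent.PT.TW.Main

/-!
Area PT, parcel G: the residual setting and the two deformation problems of S56.
-/

set_option autoImplicit false

noncomputable section

open Matrix IsLocalRing Polynomial

namespace FLTAgent.PT.TW

/-- the coordinates of a residual representation with the hypotheses of the criterion -/
theorem exists_setting {p : ℕ} [Fact p.Prime] {k : Type} [Field k] [Algebra (ZMod p) k]
    (ρbar : ResidualGaloisRep k) (hp2 : p ≠ 2) (habs : ρbar.IsAbsolutelyIrreducible)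
    (hdet : (GaloisRepAdic.ofResidualGaloisRep ρbar).DetIsCyclotomic p)
    (hsplit : ∀ σ : GQ, ∃ α β : k,
      LinearMap.charpoly (ρbar.ρ σ) = (X - C α) * (X - C β))
    (hTW : ∀ G : Subgroup GQ, G.index = 2 →
      ∀ V : Submodule (AlgebraicClosure k) (ρbar.baseChange (AlgebraicClosure k)).V,
        (∀ σ ∈ G, ∀ x ∈ V, (ρbar.baseChange (AlgebraicClosure k)).ρ σ x ∈ V) → V = ⊥ ∨ V = ⊤) :
    ∃ r : GQ →* GL (Fin 2) k, Setting p ρbar r := by
  haveI : CharP k p := charP_of_injective_algebraMap (algebraMap (ZMod p) k).injective p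
  obtain ⟨r₁, hr₁⟩ := Deform.exists_repMat_residual ρbar
  let f : GQ →* Matrix (Fin 2) (Fin 2) k :=
    { toFun := r₁, map_one' := hr₁.map_one, map_mul' := hr₁.map_mul }
  have hf : ∀ g, (f.toHomUnits g : Matrix (Fin 2) (Fin 2) k) = r₁ g := fun g => rfl
  refine ⟨f.toHomUnits, hp2, ?_, habs, hTW, fun g => ?_, fun g => ?_, ?_⟩
  · simp only [hf]
    exact hr₁
  · obtain ⟨b, hb⟩ := hr₁
    obtain ⟨u, hu⟩ := Ideal.mem_span_singleton'.mp (hdet.2 1 g
      (ExtCitation.cycloChar p g : ZMod p).val fun μ hμ => by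
        rw [pow_one] at hμ; exact Ext.cycloChar_spec g hμ)
    rw [pow_one, CharP.cast_eq_zero, mul_zero] at hu
    rw [hf, ← hb g, LinearMap.det_toMatrix]
    refine (sub_eq_zero.mp hu.symm).trans ?_
    rw [← map_natCast (algebraMap (ZMod p) k), ZMod.natCast_zmod_val]
  · obtain ⟨α, β, e⟩ := hsplit g
    obtain ⟨b, hb⟩ := hr₁
    refine ⟨α, β, ?_⟩
    rw [hf, ← hb g, LinearMap.charpoly_toMatrix]
    exact e
  · obtain ⟨L, hL, h⟩ := ρbar.factorsThroughFiniteLevel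
    obtain ⟨b, hb⟩ := hr₁
    refine ⟨L, hL, fun g hg => Units.ext ?_⟩
    rw [hf, ← hb g, h g ((IntermediateField.mem_fixingSubgroup_iff _ _).1 hg),
      LinearMap.toMatrix_one, Units.val_one]

variable {p : ℕ} [Fact p.Prime] {𝒪 : Type} [CommRing 𝒪] [IsDomain 𝒪] [IsDiscreteValuationRing 𝒪]
  [IsAdicComplete (maximalIdeal 𝒪) 𝒪] [Finite (ResidueField 𝒪)]
  [Algebra (ZMod p) (ResidueField 𝒪)] {ρbar : ResidualGaloisRep (ResidueField 𝒪)}
  {r : GQ →* GL (Fin 2) (ResidueField 𝒪)}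

/-- the strictly ordinary and flat Taylor-Wiles problems need few generators -/
theorem Setting.exists_taylorWiles_problems (h : Setting p ρbar r) (S Smin : Finset ℕ)
    (hpSmin : p ∈ Smin) (hSmin : Smin ⊆ S)
    (hmin : ∀ q : ℕ, q.Prime → q ≠ p → (q ∈ Smin ↔ ¬ ρbar.IsUnramifiedAt q)) :
    ∃ m : ℕ, ∀ n : ℕ, ∃ qv : Fin m → ℕ, Function.Injective qv ∧
      (∀ i, (qv i).Prime ∧ qv i ∉ S ∧ p ^ (n + 1) ∣ qv i - 1) ∧
      (∀ i, ∀ P : ValuationSubring (AlgebraicClosure ℚ), P.LiesOverPrime (qv i) →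
        ∀ φ : GQ, P.IsFrobeniusAt φ (qv i) → ∃ α β : ResidueField 𝒪, α ≠ β ∧
          LinearMap.charpoly (ρbar.ρ φ) = (X - C α) * (X - C β)) ∧
      (∀ DQ : GaloisRep.DeformationRingData 𝒪 ρbar (fun _A _ _ _ ρ =>
          GaloisRep.strictOrdinaryCondition 𝒪 p (Smin ∪ Finset.univ.image qv) ρ ∧
            ∀ q ∈ Smin, q.Prime → q ≠ p → ρ.IsUnipotentOnInertiaAt q),
        ∃ γ : MvPowerSeries (Fin m) 𝒪 →ₐ[𝒪] DQ.R, Function.Surjective γ) ∧
      ∀ DQ : GaloisRep.DeformationRingData 𝒪 ρbar (fun _A _ _ _ ρ =>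
          GaloisRep.flatCondition 𝒪 p (Smin ∪ Finset.univ.image qv) ρ ∧
            ∀ q ∈ Smin, q.Prime → q ≠ p → ρ.IsUnipotentOnInertiaAt q),
        ∃ γ : MvPowerSeries (Fin m) 𝒪 →ₐ[𝒪] DQ.R, Function.Surjective γ := by
  have hmu := finrank_lH1_mu (p := p) (ExtCitation.pPrime p) rfl h.hp2
  obtain ⟨m, hm⟩ := h.exists_taylorWiles S Smin hpSmin hSmin hmin hmu
  refine ⟨m, fun n => ?_⟩
  obtain ⟨qv, h1, h2, h3, h4⟩ := hm n
  refine ⟨qv, h1, h2, h3, fun DQ => ?_, fun DQ => ?_⟩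
  · refine h4 _ DQ DQ.isOfType.1.1 DQ.isOfType.1.2.2 DQ.isOfType.2
      (fun cd φ hs ρ' hρ' => ?_) (fun cd h1 hdet hrdet =>
        exists_strict_classes cd h1 hdet hrdet h
          (strictMat_of_isStrictOrdinaryAt cd.rep DQ.isOfType.1.2.1) hmu)
    haveI := isLocalHom_push (DQ := univData DQ) (fun a => rfl) φ
    obtain ⟨⟨hd, hst, hu⟩, hunip⟩ := DQ.isOfType
    refine ⟨⟨(detIsCyclotomic_iff hρ').mpr
        (((detIsCyclotomic_iff cd.rep).mp hd).map (φ : DQ.R →+* DualNumber (ResidueField 𝒪))),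
      isStrictOrdinaryAt_of_strictMat hρ'
        ((strictMat_of_isStrictOrdinaryAt cd.rep hst).map (φ : DQ.R →+* DualNumber (ResidueField 𝒪))),
      fun q hq hqS => isUnramifiedAt_map (φ : DQ.R →+* DualNumber (ResidueField 𝒪)) cd.rep hρ'
        (hu q hq hqS)⟩,
      fun q hq hq' hqp => isUnipotentOnInertiaAt_map (φ : DQ.R →+* DualNumber (ResidueField 𝒪))
        cd.rep hρ' (hunip q hq hq' hqp)⟩
  · refine h4 _ DQ DQ.isOfType.1.1 DQ.isOfType.1.2.2 DQ.isOfType.2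
      (fun cd φ hs ρ' hρ' => ?_) (fun cd h1 hdet hrdet =>
        ⟨Submodule.span (ZMod p) (flatClasses (p := p) r),
          finrank_flat_le h.hp2 r h.level h.hdet h.hsplit,
          fun φ => res1_tanCoc_mem_flat cd h1 hdet hrdet DQ.isOfType.1.2.1 φ⟩)
    haveI := isLocalHom_push (DQ := univData DQ) (fun a => rfl) φ
    obtain ⟨⟨hd, hf, hu⟩, hunip⟩ := DQ.isOfType
    refine ⟨⟨(detIsCyclotomic_iff hρ').mpr
        (((detIsCyclotomic_iff cd.rep).mp hd).map (φ : DQ.R →+* DualNumber (ResidueField 𝒪))),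
      isFlatAt_map (φ : DQ.R →+* DualNumber (ResidueField 𝒪)) hs cd.rep hρ' hf,
      fun q hq hqS => isUnramifiedAt_map (φ : DQ.R →+* DualNumber (ResidueField 𝒪)) cd.rep hρ'
        (hu q hq hqS)⟩,
      fun q hq hq' hqp => isUnipotentOnInertiaAt_map (φ : DQ.R →+* DualNumber (ResidueField 𝒪))
        cd.rep hρ' (hunip q hq hq' hqp)⟩

end FLTAgent.PT.TW
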